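import Fermat.Agent.S31.Algebra

/-!
# S58, modular side, leaf (NW): powers of an element satisfying a quadratic relation
-/

set_option autoImplicit false

namespace Fermat.Agent.S58Lib

open Fermat.Agent.S31Lib (newton)

/-- (NW) = `QRLib.quadratic_pow` with the explicit value `a' = newton a d i` (same proof) -/
theorem quadratic_pow_newton {R A : Type*} [CommRing R] [Ring A] [Algebra R A] (h : A) (a d : R)
    (hq : h * h - a • h + d • (1 : A) = 0) (i : ℕ) :
    h ^ i * h ^ i - newton a d i • h ^ i + d ^ i • (1 : A) = 0 := by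
  set h' : A := a • (1 : A) - h with hh'
  have hc : Commute h h' :=
    (Commute.smul_right (Commute.one_right h) a).sub_right (Commute.refl h)
  have hmul : h * h' = d • (1 : A) := by
    rw [hh', mul_sub, mul_smul_comm, mul_one]
    calc a • h - h * h = d • (1 : A) - (h * h - a • h + d • (1 : A)) := by abel
      _ = d • (1 : A) := by rw [hq, sub_zero]
  have hmul' : h' * h = d • (1 : A) := by rw [← hc.eq, hmul]
  have hadd : h + h' = a • (1 : A) := by rw [hh']; abel
  have hsum : ∀ j : ℕ, (h ^ j + h' ^ j = newton a d j • (1 : A)) ∧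
      (h ^ (j + 1) + h' ^ (j + 1) = newton a d (j + 1) • (1 : A)) := by
    intro j
    induction j with
    | zero =>
      refine ⟨?_, ?_⟩
      · rw [pow_zero, pow_zero, Fermat.Agent.S31Lib.newton_zero, two_smul]
      · simpa using hadd
    | succ j ih =>
      obtain ⟨hs0, hs1⟩ := ih
      refine ⟨hs1, ?_⟩
      have e : h ^ (j + 1 + 1) + h' ^ (j + 1 + 1) =
          (h + h') * (h ^ (j + 1) + h' ^ (j + 1)) - ((h * h') * h' ^ j + (h' * h) * h ^ j) := by
        simp only [pow_succ']
        noncomm_ring
      rw [e, hadd, hs1, hmul, hmul']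
      simp only [smul_mul_assoc, one_mul]
      rw [← smul_add, add_comm (h' ^ j), hs0, smul_smul, smul_smul, ← sub_smul,
        Fermat.Agent.S31Lib.newton_add_two]
  have hs := (hsum i).1
  have hpow : h' ^ i * h ^ i = d ^ i • (1 : A) := by
    rw [← hc.symm.mul_pow, hmul', smul_pow, one_pow]
  have e : newton a d i • h ^ i = (h ^ i + h' ^ i) * h ^ i := by
    rw [hs, smul_mul_assoc, one_mul]
  rw [e, add_mul, hpow]
  abel

end Fermat.Agent.S58Lib
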