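import Fermat.Agent.S58.Defs

set_option autoImplicit false

namespace Fermat.Agent.S58Lib

open WeierstrassCurve WeierstrassCurve.Affine Fermat.Agent.S40Lib

local notation "Qb" => AlgebraicClosure ℚ
local notation "GQ" => (AlgebraicClosure ℚ ≃ₐ[ℚ] AlgebraicClosure ℚ)

/-- (E1) a point of exact order `lam ^ n` -/
theorem exists_exact_order (W : WeierstrassCurve ℤ) (hΔ : W.Δ ≠ 0) {lam : ℕ} (hlam : lam.Prime)
    (h2 : lam ≠ 2) (n : ℕ) :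
    ∃ u : EPt W, lam ^ n • u = 0 ∧ ∀ c : ℤ, c • u = 0 → ((lam ^ n : ℕ) : ℤ) ∣ c := by
  rcases n with _ | n
  · exact ⟨0, nsmul_zero _, fun c _ => by simp⟩
  have hodd : ∀ j : ℕ, Odd (lam ^ j) := fun j => (hlam.odd_of_ne_two h2).pow
  obtain ⟨k₁, hk₁⟩ := hodd (n + 1)
  obtain ⟨k₀, hk₀⟩ := hodd n
  obtain ⟨hfin₁, hc₁⟩ := TM_torsion W hΔ k₁
  obtain ⟨hfin₀, hc₀⟩ := TM_torsion W hΔ k₀
  rw [← hk₁] at hfin₁ hc₁
  rw [← hk₀] at hfin₀ hc₀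
  have hlt : {x : EPt W | lam ^ n • x = 0}.ncard < {x : EPt W | lam ^ (n + 1) • x = 0}.ncard := by
    rw [hc₀, hc₁]
    exact Nat.pow_lt_pow_left (Nat.pow_lt_pow_right hlam.one_lt (Nat.lt_succ_self n)) two_ne_zero
  obtain ⟨u, hu₁, hu₀⟩ := Set.exists_mem_notMem_of_ncard_lt_ncard hlt hfin₀
  refine ⟨u, hu₁, fun c hc => ?_⟩
  have hdvd : addOrderOf u ∣ lam ^ (n + 1) := addOrderOf_dvd_of_nsmul_eq_zero hu₁
  obtain ⟨j, hj, hju⟩ := (Nat.dvd_prime_pow hlam).1 hdvd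
  have hjn : j = n + 1 := by
    by_contra hne
    apply hu₀
    have hjle : j ≤ n := by omega
    show lam ^ n • u = 0
    apply addOrderOf_dvd_iff_nsmul_eq_zero.1
    rw [hju]
    exact pow_dvd_pow _ hjle
  rw [← hjn, ← hju]
  exact addOrderOf_dvd_iff_zsmul_eq_zero.2 hc

end Fermat.Agent.S58Lib
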