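import Fermat.Agent.S58.ECmp
import Fermat.Agent.S58.ExactOrder
import Fermat.Agent.SMO.Compare

/-!
# S58, modular side, leaf (ME): `a_ℓ₀(g) = a_ℓ₀(W)` at the good primes `ℓ₀ ∤ M`
-/

set_option autoImplicit false
set_option synthInstance.maxHeartbeats 400000
set_option linter.unusedVariables false

namespace Fermat.Agent.S58Lib

open WeierstrassCurve WeierstrassCurve.Affine Fermat.Agent.S40Lib Polynomial CuspForm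
open ModularFormClass CongruenceSubgroup
open Fermat.Agent.S31Lib (newton)

local notation "Qb" => AlgebraicClosure ℚ
local notation "GQ" => (AlgebraicClosure ℚ ≃ₐ[ℚ] AlgebraicClosure ℚ)

/-- two quadratic relations for `σ` on `E[m]`, with congruent constant terms: the traces are
congruent -/
theorem ME_dvd_of_rel (W : WeierstrassCurve ℤ) (m : ℕ) (σ : GQ) (s s' d d' : ℤ)
    (h : ∀ u : EPt W, m • u = 0 → σ • σ • u - s • σ • u + d • u = 0)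
    (h' : ∀ u : EPt W, m • u = 0 → σ • σ • u - s' • σ • u + d' • u = 0)
    (hd : (m : ℤ) ∣ d - d')
    (hex : ∃ u : EPt W, m • u = 0 ∧ ∀ c : ℤ, c • u = 0 → (m : ℤ) ∣ c) : (m : ℤ) ∣ s - s' := by
  obtain ⟨u, hu, hord⟩ := hex
  apply hord
  have h1 := h u hu
  have h2 := h' u hu
  have h3 : (d - d') • u = 0 := by
    obtain ⟨e, he⟩ := hd
    rw [he, mul_comm, mul_smul, natCast_zsmul, hu, zsmul_zero]
  have h4 : (s - s') • σ • u = 0 := by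
    have : (s - s') • σ • u = (d - d') • u - (σ • σ • u - s • σ • u + d • u)
        + (σ • σ • u - s' • σ • u + d' • u) := by
      rw [sub_smul, sub_smul]
      abel
    rw [this, h1, h2, h3]
    simp
  have h5 : σ • ((s - s') • u) = 0 := by
    rw [Point.algEquiv_smul_zsmul, h4]
  have h6 := congrArg (fun v => σ⁻¹ • v) h5
  simp only [inv_smul_smul] at h6
  rw [h6]
  rfl

/-- (ME) `S58/CoeffEq.lean`.  Copy of `SMOLib.qCoeff_eq_of_forall_notMem` with `h` replaced by `E`: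
`p` = an odd prime `≠ ℓ₀`; `CMP_one` gives `U₁`; (ECMP) with `U = U₁`, `σ = τ₀` a Frobenius at `ℓ₀`:
`a_ℓ₀(g) - newton (a_ℓ(g)) ℓ k ∈ pⁿ Zbar`, `a_ℓ(g) = a_ℓ(W)`, and
`(newton (a_ℓ(W)) ℓ k - a_ℓ₀(W)) τ₀u = (ℓ^k - ℓ₀) u = 0` on `E[pⁿ]`; `eq_zero_of_forall_pow_dvd`. -/
theorem qCoeff_eq_ap (W : WeierstrassCurve ℤ) (hΔ : W.Δ ≠ 0)
    {M N : ℕ} [NeZero M] (hN0 : N ≠ 0) (hMN : M ∣ N) {g : CuspForm (Gamma0 M) 2}
    (hg : g.IsNormalizedEigenform)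
    (hbad : ∀ ℓ : ℕ, ℓ.Prime → (ℓ : ℤ) ∣ W.Δ → ℓ ∣ N)
    (hga : ∀ ℓ : ℕ, ℓ.Prime → ¬ ℓ ∣ N → qCoeff g ℓ = (W.apOfModel ℓ : ℂ))
    {ℓ₀ : ℕ} (hℓ₀ : ℓ₀.Prime) (hgood : W.IsGoodPrimeFor ℓ₀) (hℓ₀M : ¬ ℓ₀ ∣ M) :
    qCoeff g ℓ₀ = (W.apOfModel ℓ₀ : ℂ) := by
  classical
  obtain ⟨p, hp, hp2, hpℓ⟩ : ∃ p : ℕ, p.Prime ∧ p ≠ 2 ∧ p ≠ ℓ₀ := by
    by_cases h : ℓ₀ = 3
    · exact ⟨5, by norm_num, by norm_num, by omega⟩
    · exact ⟨3, Nat.prime_three, by norm_num, fun h' => h h'.symm⟩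
  haveI : Fact p.Prime := ⟨hp⟩
  set S₀ : Finset ℕ := M.primeFactors ∪ {p} with hS₀
  set S : Finset ℕ := N.primeFactors ∪ S₀ with hS
  have hMS : ∀ q : ℕ, q.Prime → q ∣ M → q ∈ S₀ := fun q hq hqN => by
    simp only [hS₀, Finset.mem_union, Nat.mem_primeFactors, Finset.mem_singleton]
    exact Or.inl ⟨hq, hqN, NeZero.ne _⟩
  have hpS₀ : p ∈ S₀ := by simp [hS₀]
  have hpS : p ∈ S := Finset.mem_union_right _ hpS₀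
  have hℓ₀S : ℓ₀ ∉ S₀ := by
    simp only [hS₀, Finset.mem_union, Nat.mem_primeFactors, Finset.mem_singleton, not_or]
    exact ⟨fun h => hℓ₀M h.2.1, fun h => hpℓ h.symm⟩
  have hbadS : ∀ q : ℕ, q.Prime → (q : ℤ) ∣ W.Δ → q ∈ S := fun q hq hqΔ =>
    Finset.mem_union_left _ (Nat.mem_primeFactors.2 ⟨hq, hbad q hq hqΔ, hN0⟩)
  obtain ⟨r₁, Θ₁, ρ₁, hES₁⟩ := Fermat.Agent.ESLib.exists_esData M p
  have hTR₁ : Fermat.Agent.S31Lib.TraceRigid p M S₀ :=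
    Fermat.Agent.S31Lib.traceRigid_of_isESData hp hpS₀ hMS hES₁
  obtain ⟨A₀, τ₀, hA₀, hτ₀⟩ := Fermat.Agent.FrobLib.exists_place_and_frobenius hℓ₀
  obtain ⟨lam₁, hlam₁⟩ := Fermat.Agent.S29Lib.exists_eigenChar hg
  set x : integralClosure ℤ ℂ :=
    lam₁ (heckeAlgebra.T hℓ₀ hℓ₀M hℓ₀M) - ((W.apOfModel ℓ₀ : ℤ) : integralClosure ℤ ℂ) with hx
  have hxC : (x : ℂ) = qCoeff g ℓ₀ - (W.apOfModel ℓ₀ : ℂ) := by
    rw [hx, ← hlam₁ ℓ₀ hℓ₀ hℓ₀M]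
    push_cast
    rfl
  have hx0 : x = 0 := by
    refine Fermat.Agent.SMOLib.eq_zero_of_forall_pow_dvd hp x fun n => ?_
    obtain ⟨U₁, hU₁o, hU₁n, hU₁⟩ := Fermat.Agent.SMOLib.CMP_one hg S₀ hTR₁ hMS n
    obtain ⟨ℓ, A, τ, k, hℓ, hℓS, hA, hτ, hk, hrel, hcyc⟩ :=
      ecmp W hΔ hp hp2 n S hpS hbadS U₁ hU₁o hU₁n τ₀
    have hℓS0 : ℓ ∉ S₀ := fun h => hℓS (Finset.mem_union_right _ h)
    have hℓN : ¬ ℓ ∣ N := fun h =>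
      hℓS (Finset.mem_union_left _ (Nat.mem_primeFactors.2 ⟨hℓ, h, hN0⟩))
    obtain ⟨t₁, ht₁⟩ := hU₁ ℓ₀ ℓ hℓ₀ hℓ hℓ₀S hℓS0 A₀ A τ₀ τ hA₀ hA hτ₀ hτ k hk
    have hodd : Odd (p ^ n) := (hp.odd_of_ne_two hp2).pow
    have hℓ₀m : ¬ ℓ₀ ∣ p ^ n := fun h =>
      hpℓ ((Nat.prime_dvd_prime_iff_eq hℓ₀ hp).1 (hℓ₀.dvd_of_dvd_pow h)).symm
    obtain ⟨z, hz⟩ := ME_dvd_of_rel W (p ^ n) τ₀ _ _ _ _ hrel
      (fun u hu => frob_rel_all W hΔ hℓ₀ hodd hℓ₀m hgood A₀ τ₀ hA₀ hτ₀ u hu)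
      ((hcyc ℓ₀ hℓ₀ hpℓ.symm A₀ hA₀).2 hτ₀) (exists_exact_order W hΔ hp hp2 n)
    refine ⟨t₁ + ((z : ℤ) : integralClosure ℤ ℂ), Subtype.ext ?_⟩
    rw [hxC]
    have e : ((((p : integralClosure ℤ ℂ) ^ n * (t₁ + ((z : ℤ) : integralClosure ℤ ℂ)) :
        integralClosure ℤ ℂ)) : ℂ) = (p : ℂ) ^ n * (t₁ : ℂ) + (p : ℂ) ^ n * (z : ℂ) := by
      push_cast
      ring
    have e2 : newton (qCoeff g ℓ) (ℓ : ℂ) k = ((newton (W.apOfModel ℓ) (ℓ : ℤ) k : ℤ) : ℂ) := by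
      have := Fermat.Agent.S31Lib.map_newton (Int.castRingHom ℂ) (W.apOfModel ℓ) (ℓ : ℤ) k
      rw [hga ℓ hℓ hℓN]
      simpa using this.symm
    have e3 : ((newton (W.apOfModel ℓ) (ℓ : ℤ) k : ℤ) : ℂ) - (W.apOfModel ℓ₀ : ℂ) =
        (p : ℂ) ^ n * (z : ℂ) := by
      have := congrArg (fun y : ℤ => (y : ℂ)) hz
      push_cast at this
      exact this
    rw [e, ← ht₁, ← e3, e2]
    ring
  rw [← sub_eq_zero, ← hxC, hx0]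
  rfl

end Fermat.Agent.S58Lib
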