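import Fermat.Prelude.Def_CuspForm_Newforms

/-!
# S58 (NEWF): the minimal level at which the good eigensystem of an eigenform occurs
-/

set_option autoImplicit false

namespace Fermat.Agent.S58Lib

open CuspForm ModularFormClass CongruenceSubgroup

/-- (NEWF) the minimal `M ∣ N` at which the good eigensystem of `f` occurs -/
theorem exists_newform {N : ℕ} (hN : N ≠ 0) {f : CuspForm (Gamma0 N) 2}
    (hf : f.IsNormalizedEigenform) :
    ∃ (M : ℕ) (g : CuspForm (Gamma0 M) 2), M ∣ N ∧ g.IsNewform ∧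
      ∀ ℓ : ℕ, ℓ.Prime → ¬ ℓ ∣ N → qCoeff g ℓ = qCoeff f ℓ := by
  classical
  have hex : ∃ M : ℕ, M ∣ N ∧ GoodEigensystemOccursAt f M :=
    ⟨N, dvd_rfl, GoodEigensystemOccursAt.refl hf⟩
  obtain ⟨hMN, g, hg, hgf⟩ := Nat.find_spec hex
  refine ⟨Nat.find hex, g, hMN, ⟨hg, ?_⟩, hgf⟩
  rintro M' hM' hne ⟨g', hg', hgg'⟩
  have hM0 : Nat.find hex ≠ 0 := by
    intro h0
    rw [h0] at hMN
    exact hN (Nat.eq_zero_of_zero_dvd hMN)
  have hlt : M' < Nat.find hex :=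
    lt_of_le_of_ne (Nat.le_of_dvd (Nat.pos_of_ne_zero hM0) hM') hne
  refine Nat.find_min hex hlt ⟨hM'.trans hMN, g', hg', fun ℓ hℓ hℓN => ?_⟩
  rw [hgg' ℓ hℓ (fun h => hℓN (h.trans hMN)), hgf ℓ hℓ hℓN]

end Fermat.Agent.S58Lib
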