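import Fermat.Agent.SMO.Eigenvector
import Fermat.Agent.S29.Integral

/-!
# S58 (RAISE): an eigensystem of level `M` occurs at every multiple `R` of `M`
-/

set_option autoImplicit false
set_option synthInstance.maxHeartbeats 400000

namespace Fermat.Agent.S58Lib

open CuspForm ModularFormClass CongruenceSubgroup

theorem RAISE_Gamma0_le {M R : ℕ} (h : M ∣ R) : Gamma0 R ≤ Gamma0 M := by
  intro g hg
  rw [Gamma0_mem, ZMod.intCast_zmod_eq_zero_iff_dvd] at hg ⊢
  exact (Int.natCast_dvd_natCast.mpr h).trans hg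

/-- the same function, at the level `R` -/
noncomputable def RAISE_form {M R : ℕ} (hMR : M ∣ R) (g : CuspForm (Gamma0 M) 2) :
    CuspForm (Gamma0 R) 2 where
  toFun := g
  slash_action_eq' γ hγ := g.slash_action_eq' γ (Subgroup.map_mono (RAISE_Gamma0_le hMR) hγ)
  holo' := g.holo'
  zero_at_cusps' hc := g.zero_at_cusps' (hc.mono (Subgroup.map_mono (RAISE_Gamma0_le hMR)))

theorem RAISE_coe {M R : ℕ} (hMR : M ∣ R) (g : CuspForm (Gamma0 M) 2) :
    ⇑(RAISE_form hMR g) = ⇑g := rfl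

theorem RAISE_hecke {M R : ℕ} [NeZero M] (hMR : M ∣ R) {g : CuspForm (Gamma0 M) 2}
    (hg : g.IsNormalizedEigenform) (ℓ : ℕ) (hℓ : ℓ.Prime) (hℓR : ¬ ℓ ∣ R) :
    heckeTLin 2 hℓ hℓR (RAISE_form hMR g) = qCoeff ⇑g ℓ • RAISE_form hMR g := by
  have hℓM : ¬ ℓ ∣ M := fun h => hℓR (h.trans hMR)
  have h1 := Fermat.Agent.S29Lib.heckeTLin_eq_smul hg ℓ hℓ hℓM
  apply DFunLike.coe_injective
  have h2 := congrArg (fun f : CuspForm (Gamma0 M) 2 => (⇑f : UpperHalfPlane → ℂ)) h1
  simp only [coe_heckeTLin_apply, CuspForm.IsGLPos.coe_smul] at h2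
  rw [coe_heckeTLin_apply, CuspForm.IsGLPos.coe_smul, RAISE_coe]
  exact h2

theorem RAISE_exists_smul {M R : ℕ} [NeZero M] [NeZero R] (hMR : M ∣ R)
    {g : CuspForm (Gamma0 M) 2} (hg : g.IsNormalizedEigenform)
    (T : Module.End ℂ (CuspForm (Gamma0 R) 2))
    (hT : T ∈ heckeAlgebra R 2 {q : ℕ | q ∣ R}) :
    ∃ c : ℂ, T (RAISE_form hMR g) = c • RAISE_form hMR g := by
  induction hT using Algebra.adjoin_induction with
  | mem x hx =>
    rcases hx with ⟨ℓ, hℓ, hℓN, -, rfl⟩ | ⟨q, hqN, -, hqS, rfl⟩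
    · exact ⟨_, RAISE_hecke hMR hg ℓ hℓ hℓN⟩
    · exact absurd hqN hqS
  | algebraMap n =>
    refine ⟨(n : ℂ), ?_⟩
    rw [Module.algebraMap_end_apply, Int.cast_smul_eq_zsmul]
  | add x y _ _ hx hy =>
    obtain ⟨c, hc⟩ := hx
    obtain ⟨d, hd⟩ := hy
    exact ⟨c + d, by rw [LinearMap.add_apply, hc, hd, add_smul]⟩
  | mul x y _ _ hx hy =>
    obtain ⟨c, hc⟩ := hx
    obtain ⟨d, hd⟩ := hy
    exact ⟨d * c, by rw [Module.End.mul_apply, hd, map_smul, hc, smul_smul]⟩

/-- (RAISE) `S58/Raise.lean`.  `ι g` = the same function at level `R` (`IsCusp.mono`); it is an eigenvector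
of every `heckeTLin 2 hℓ hℓR` (the operator on functions does not depend on the level), so
`P ↦ P(a_ℓ(g))` kills the kernel of `SMOLib.evT R S` (surjective): a character of
`heckeAlgebra R 2 S`, `S` = primes of `R`; then `SMOLib.exists_eigenform_of_char`. -/
theorem exists_raise {M R : ℕ} [NeZero M] [NeZero R] (hMR : M ∣ R) {g : CuspForm (Gamma0 M) 2}
    (hg : g.IsNormalizedEigenform) :
    ∃ h : CuspForm (Gamma0 R) 2, h.IsNormalizedEigenform ∧
      ∀ ℓ : ℕ, ℓ.Prime → ¬ ℓ ∣ R → qCoeff h ℓ = qCoeff g ℓ := by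
  have hv0 : RAISE_form hMR g ≠ 0 := by
    intro h0
    apply hg.ne_zero
    apply DFunLike.coe_injective
    have := congrArg (fun f : CuspForm (Gamma0 R) 2 => (⇑f : UpperHalfPlane → ℂ)) h0
    exact this
  have huniq : ∀ x y : ℂ, x • RAISE_form hMR g = y • RAISE_form hMR g → x = y := fun x y h =>
    smul_left_injective ℂ hv0 h
  choose c hc using fun T : heckeAlgebra R 2 {q : ℕ | q ∣ R} =>
    RAISE_exists_smul hMR hg T.1 T.2
  let χ : heckeAlgebra R 2 {q : ℕ | q ∣ R} →+* ℂ :=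
    { toFun := c
      map_one' := by
        apply huniq
        rw [← hc, one_smul]
        rfl
      map_mul' := fun S T => by
        apply huniq
        rw [← hc]
        show S.1 (T.1 (RAISE_form hMR g)) = _
        rw [hc T, map_smul, hc S, smul_smul, mul_comm]
      map_zero' := by
        apply huniq
        rw [← hc, zero_smul]
        rfl
      map_add' := fun S T => by
        apply huniq
        rw [← hc]
        show S.1 (RAISE_form hMR g) + T.1 (RAISE_form hMR g) = _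
        rw [hc S, hc T, add_smul] }
  obtain ⟨h, hh, hcoef⟩ := Fermat.Agent.SMOLib.exists_eigenform_of_char R {q : ℕ | q ∣ R} χ
  refine ⟨h, hh, fun ℓ hℓ hℓR => ?_⟩
  rw [hcoef ℓ hℓ hℓR hℓR]
  show c (heckeAlgebra.T hℓ hℓR hℓR) = _
  apply huniq
  rw [← hc]
  exact RAISE_hecke hMR hg ℓ hℓ hℓR

end Fermat.Agent.S58Lib
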