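import Mathlib

/-!
# S58 (SQF)
-/

set_option autoImplicit false

namespace Fermat.Agent.S58Lib

/-- (SQF) -/
theorem dvd_of_factorization_le_one {M R : ℕ} (hM : M ≠ 0)
    (h : ∀ q : ℕ, q.Prime → q ∣ M → ¬ q ^ 2 ∣ M ∧ q ∣ R) : M ∣ R := by
  by_cases hR : R = 0
  · rw [hR]; exact dvd_zero _
  rw [← Nat.factorization_le_iff_dvd hM hR]
  intro q
  by_cases hq : q.Prime
  · by_cases hqM : q ∣ M
    · obtain ⟨h2, hqR⟩ := h q hq hqM
      have e1 : ¬ 2 ≤ M.factorization q := fun h' => h2 ((hq.pow_dvd_iff_le_factorization hM).2 h')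
      have e2 : 1 ≤ R.factorization q :=
        (hq.pow_dvd_iff_le_factorization hR).1 (by simpa using hqR)
      omega
    · rw [Nat.factorization_eq_zero_of_not_dvd hqM]; exact Nat.zero_le _
  · rw [Nat.factorization_eq_zero_of_not_prime _ hq]; exact Nat.zero_le _

end Fermat.Agent.S58Lib
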