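import Mathlib
import Fermat.Prelude.Def_FLTPrelim_Modularity

/-!
# S58 (E5): the trivial bound `|a_ℓ| ≤ ℓ`
-/

set_option autoImplicit false

namespace Fermat.Agent.S58Lib

open WeierstrassCurve WeierstrassCurve.Affine Polynomial

theorem E5_card_fiber {F : Type*} [Field F] [DecidableEq F] (V : WeierstrassCurve F)
    (T : Finset (F × F)) (hT : ∀ xy ∈ T, V.toAffine.Equation xy.1 xy.2) (x : F) :
    (T.filter (fun xy => xy.1 = x)).card ≤ 2 := by
  set P : F[X] := X ^ 2 + C (V.a₁ * x + V.a₃) * X - C (x ^ 3 + V.a₂ * x ^ 2 + V.a₄ * x + V.a₆)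
    with hP
  have hdeg : P.natDegree = 2 := by
    rw [hP]
    compute_degree!
  have hP0 : P ≠ 0 := by
    intro h
    rw [h] at hdeg
    simp at hdeg
  have h1 : (T.filter (fun xy => xy.1 = x)).card ≤ P.roots.toFinset.card := by
    apply Finset.card_le_card_of_injOn Prod.snd
    · intro xy hxy
      rw [Finset.coe_filter] at hxy
      obtain ⟨hm, hx⟩ := hxy
      have he := (Affine.equation_iff _ _).1 (hT xy hm)
      rw [hx] at he
      rw [Finset.mem_coe, Multiset.mem_toFinset, mem_roots hP0, IsRoot.def, hP]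
      simp only [eval_sub, eval_add, eval_pow, eval_X, eval_mul, eval_C]
      linear_combination he
    · intro a ha b hb hab
      rw [Finset.coe_filter] at ha hb
      exact Prod.ext (ha.2.trans hb.2.symm) hab
  calc (T.filter (fun xy => xy.1 = x)).card ≤ P.roots.toFinset.card := h1
    _ ≤ Multiset.card P.roots := Multiset.toFinset_card_le _
    _ ≤ P.natDegree := card_roots' P
    _ = 2 := hdeg

/-- (E5) `S58/ApBound.lean`: `1 ≤ #W(𝔽_ℓ) ≤ 2ℓ + 1` -/
theorem abs_apOfModel_le (W : WeierstrassCurve ℤ) {ℓ : ℕ} (hℓ : ℓ.Prime) :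
    |W.apOfModel ℓ| ≤ ℓ := by
  classical
  haveI : Fact ℓ.Prime := ⟨hℓ⟩
  set V := W.reductionMod ℓ with hV
  let T : Finset (ZMod ℓ × ZMod ℓ) := Finset.univ.filter fun xy => V.toAffine.Equation xy.1 xy.2
  have hTm : ∀ xy ∈ T, V.toAffine.Equation xy.1 xy.2 := fun xy h => (Finset.mem_filter.1 h).2
  have hT : T.card ≤ 2 * ℓ := by
    have := Finset.card_le_mul_card_image_of_maps_to (s := T) (t := Finset.univ) (f := Prod.fst)
      (fun _ _ => Finset.mem_univ _) 2 (fun x _ => E5_card_fiber V T hTm x)
    simpa [ZMod.card] using this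
  let φ : V.toAffine.Point → Option T := fun P => match P with
    | .zero => none
    | .some x y h => some ⟨(x, y), Finset.mem_filter.2 ⟨Finset.mem_univ _, h.1⟩⟩
  have hφ : Function.Injective φ := by
    intro P Q h
    cases P with
    | zero =>
      cases Q with
      | zero => rfl
      | some x y h' => simp [φ] at h
    | some x y h' =>
      cases Q with
      | zero => simp [φ] at h
      | some x' y' h'' =>
        simp only [φ, Option.some.injEq, Subtype.mk.injEq, Prod.mk.injEq] at h
        obtain ⟨rfl, rfl⟩ := h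
        rfl
  haveI hfin : Finite V.toAffine.Point := Finite.of_injective φ hφ
  have hle : Nat.card V.toAffine.Point ≤ Nat.card (Option T) := Nat.card_le_card_of_injective φ hφ
  have hc : Nat.card (Option T) = T.card + 1 := by
    rw [Nat.card_eq_fintype_card, Fintype.card_option, Fintype.card_coe]
  have hpos : 1 ≤ Nat.card V.toAffine.Point := Nat.card_pos
  have e : W.apOfModel ℓ = (ℓ : ℤ) + 1 - (Nat.card V.toAffine.Point : ℤ) := by
    unfold WeierstrassCurve.apOfModel WeierstrassCurve.traceOfFrobenius WeierstrassCurve.card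
    rw [Nat.card_zmod]
  rw [e, abs_le]
  constructor <;> omega

end Fermat.Agent.S58Lib
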