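import Fermat.Agent.S31.Main

/-!
# S58, modular side, leaf (ADIC): traces and determinants of an adic representation
-/

set_option autoImplicit false

namespace Fermat.Agent.S58Lib

open Polynomial
open Fermat.Agent.S31Lib (newton)
open Fermat.Agent.S53Lib (M2 MatCont ofMat exists_ofMat_isEquiv)

local notation "Qb" => AlgebraicClosure ℚ
local notation "GQ" => (AlgebraicClosure ℚ ≃ₐ[ℚ] AlgebraicClosure ℚ)

/-- matrix form of an adic representation -/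
theorem AD_exists_mat {O : Type} [CommRing O] [IsLocalRing O] (ρ : GaloisRepAdic O) :
    ∃ r : GQ →* M2 O, MatCont r ∧ ∀ σ : GQ,
      LinearMap.trace O ρ.V (ρ.ρ σ) = (r σ).trace ∧ LinearMap.det (ρ.ρ σ) = (r σ).det ∧
      LinearMap.charpoly (ρ.ρ σ) = (r σ).charpoly := by
  obtain ⟨r, hc, ⟨e⟩⟩ := exists_ofMat_isEquiv ρ
  refine ⟨r, hc, fun σ => ?_⟩
  have hconj : e.toLinearEquiv.conj (ρ.ρ σ) = (ofMat r hc).ρ σ := by
    refine LinearMap.ext fun x => ?_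
    rw [LinearEquiv.conj_apply_apply, e.map_apply σ (e.toLinearEquiv.symm x),
      LinearEquiv.apply_symm_apply]
  refine ⟨?_, ?_, ?_⟩
  · rw [← LinearMap.trace_conj' (ρ.ρ σ) e.toLinearEquiv, hconj]
    exact Matrix.trace_toLin'_eq (r σ)
  · have h1 : LinearMap.det (e.toLinearEquiv.conj (ρ.ρ σ)) = LinearMap.det (ρ.ρ σ) :=
      LinearMap.det_conj (ρ.ρ σ) e.toLinearEquiv
    rw [← h1, hconj]
    exact LinearMap.det_toLin' (r σ)
  · rw [← LinearEquiv.charpoly_conj e.toLinearEquiv (ρ.ρ σ), hconj]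
    exact Matrix.charpoly_toLin' (r σ)

theorem AD_det_sub_det_mem {A : Type} [CommRing A] (I : Ideal A) (r : GQ →* M2 A) (g u : GQ)
    (hu : ∀ i j, (r u - 1) i j ∈ I) : (r (g * u)).det - (r g).det ∈ I := by
  have h1 : (r u).det - 1 ∈ I := by
    have e : (r u).det - 1 = (r u - 1) 0 0 * (r u - 1) 1 1 + (r u - 1) 0 0 + (r u - 1) 1 1
        - (r u - 1) 0 1 * (r u - 1) 1 0 := by
      rw [Matrix.det_fin_two]
      simp only [Matrix.sub_apply, Matrix.one_apply_eq, Matrix.one_apply_ne (zero_ne_one),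
        Matrix.one_apply_ne (one_ne_zero)]
      ring
    rw [e]
    exact I.sub_mem (I.add_mem (I.add_mem (I.mul_mem_left _ (hu 1 1)) (hu 0 0)) (hu 1 1))
      (I.mul_mem_left _ (hu 1 0))
  have h2 : (r (g * u)).det - (r g).det = (r g).det * ((r u).det - 1) := by
    rw [map_mul, Matrix.det_mul]
    ring
  rw [h2]
  exact I.mul_mem_left _ h1

/-- (AD1) `U = {σ | ρ σ ≡ 1 mod 𝔪 ^ n}` -/
theorem exists_open_adic {O : Type} [CommRing O] [IsLocalRing O] (ρ : GaloisRepAdic O) (n : ℕ) :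
    ∃ U : Subgroup GQ, IsOpen (U : Set GQ) ∧ U.Normal ∧ ∀ σ τ : GQ, σ⁻¹ * τ ∈ U →
      LinearMap.trace O ρ.V (ρ.ρ σ) - LinearMap.trace O ρ.V (ρ.ρ τ)
        ∈ IsLocalRing.maximalIdeal O ^ n ∧
      LinearMap.det (ρ.ρ σ) - LinearMap.det (ρ.ρ τ) ∈ IsLocalRing.maximalIdeal O ^ n := by
  obtain ⟨r, hc, hr⟩ := AD_exists_mat ρ
  obtain ⟨L, hL, hLr⟩ := hc n
  obtain ⟨U, hUo, hUn, hU⟩ := Fermat.Agent.S31Lib.exists_open_normal_le L hL
  refine ⟨U, hUo, hUn, fun σ τ hστ => ?_⟩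
  have e : τ = σ * (σ⁻¹ * τ) := by group
  have h1 := Fermat.Agent.S31Lib.trace_sub_trace_mem (IsLocalRing.maximalIdeal O ^ n) r σ
    (σ⁻¹ * τ) (hLr _ (hU _ hστ))
  have h2 := AD_det_sub_det_mem (IsLocalRing.maximalIdeal O ^ n) r σ (σ⁻¹ * τ)
    (hLr _ (hU _ hστ))
  rw [← e] at h1 h2
  rw [(hr σ).1, (hr τ).1, (hr σ).2.1, (hr τ).2.1, ← neg_sub, ← neg_sub (r τ).det]
  exact ⟨Ideal.neg_mem_iff _ |>.2 h1, Ideal.neg_mem_iff _ |>.2 h2⟩

/-- (AD2) (`S31Lib.trace_pow_eq_newton` after choosing a basis) -/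
theorem trace_det_pow {O : Type} [CommRing O] [IsLocalRing O] (ρ : GaloisRepAdic O) (τ : GQ)
    (a d : O) (h : LinearMap.charpoly (ρ.ρ τ) = X ^ 2 - C a * X + C d) (k : ℕ) :
    LinearMap.trace O ρ.V (ρ.ρ (τ ^ k)) = newton a d k ∧ LinearMap.det (ρ.ρ (τ ^ k)) = d ^ k := by
  obtain ⟨r, -, hr⟩ := AD_exists_mat ρ
  rw [(hr τ).2.2] at h
  refine ⟨?_, ?_⟩
  · rw [(hr (τ ^ k)).1, map_pow, Fermat.Agent.S31Lib.trace_pow_eq_newton _ _ _ h]
  · rw [(hr (τ ^ k)).2.1, map_pow, Matrix.det_pow]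
    congr 1
    have h1 := Matrix.det_eq_sign_charpoly_coeff (r τ)
    rw [h] at h1
    simpa [coeff_X, coeff_C] using h1

/-- (AD3) -/
theorem charpoly_eq_trace_det {O : Type} [CommRing O] [IsLocalRing O] (ρ : GaloisRepAdic O)
    (σ : GQ) : LinearMap.charpoly (ρ.ρ σ)
      = X ^ 2 - C (LinearMap.trace O ρ.V (ρ.ρ σ)) * X + C (LinearMap.det (ρ.ρ σ)) := by
  obtain ⟨r, -, hr⟩ := AD_exists_mat ρ
  rw [(hr σ).1, (hr σ).2.1, (hr σ).2.2, Matrix.charpoly_fin_two]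

/-- (AD4) -/
theorem int_dvd_of_mem_maximalIdeal {O : Type} [CommRing O] [IsLocalRing O] {lam : ℕ}
    (hlam : lam.Prime) (hO : (lam : O) ∈ IsLocalRing.maximalIdeal O) (z : ℤ)
    (hz : (z : O) ∈ IsLocalRing.maximalIdeal O) : (lam : ℤ) ∣ z := by
  by_contra hnd
  have hcop : IsCoprime (lam : ℤ) z :=
    (Prime.coprime_iff_not_dvd (Nat.prime_iff_prime_int.1 hlam)).2 hnd
  obtain ⟨x, y, hxy⟩ := hcop
  have h1 : ((x * lam + y * z : ℤ) : O) ∈ IsLocalRing.maximalIdeal O := by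
    push_cast
    exact Ideal.add_mem _ (Ideal.mul_mem_left _ _ hO) (Ideal.mul_mem_left _ _ hz)
  rw [hxy, Int.cast_one] at h1
  exact (Ideal.ne_top_iff_one _).1 (IsLocalRing.maximalIdeal.isMaximal O).ne_top h1

end Fermat.Agent.S58Lib
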