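import Fermat.Agent.S58.ECmp
import Fermat.Agent.S58.Adic

/-!
# S58, modular side, leaf (CMP): comparison of `ρ` and `E[lam ^ n]` at an arbitrary `σ`
-/

set_option autoImplicit false

namespace Fermat.Agent.S58Lib

open WeierstrassCurve WeierstrassCurve.Affine Fermat.Agent.S40Lib Polynomial
open Fermat.Agent.S31Lib (newton)

local notation "Qb" => AlgebraicClosure ℚ
local notation "GQ" => (AlgebraicClosure ℚ ≃ₐ[ℚ] AlgebraicClosure ℚ)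

/-- (CMP) from (AD1) (AD2) (ECMP) -/
theorem cmp (W : WeierstrassCurve ℤ) (hΔ : W.Δ ≠ 0) {lam : ℕ} (hlam : lam.Prime) (h2 : lam ≠ 2)
    (S : Finset ℕ) (hlamS : lam ∈ S) (hbadS : ∀ q : ℕ, q.Prime → (q : ℤ) ∣ W.Δ → q ∈ S)
    {O : Type} [CommRing O] [IsLocalRing O] (ρ : GaloisRepAdic O)
    (hρ : ∀ ℓ : ℕ, ℓ.Prime → ℓ ∉ S → ∀ A : ValuationSubring Qb, A.LiesOverPrime ℓ →
      ∀ σ : GQ, A.IsFrobeniusAt σ ℓ →
        LinearMap.charpoly (ρ.ρ σ) = X ^ 2 - C ((W.apOfModel ℓ : ℤ) : O) * X + C ((ℓ : O)))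
    (σ : GQ) (n : ℕ) :
    ∃ s d : ℤ,
      LinearMap.trace O ρ.V (ρ.ρ σ) - (s : O) ∈ IsLocalRing.maximalIdeal O ^ n ∧
      LinearMap.det (ρ.ρ σ) - (d : O) ∈ IsLocalRing.maximalIdeal O ^ n ∧
      (∀ u : EPt W, lam ^ n • u = 0 → σ • σ • u - s • σ • u + d • u = 0) ∧
      (∀ q : ℕ, q.Prime → q ≠ lam → ∀ P : ValuationSubring Qb, P.LiesOverPrime q →
        (σ ∈ P.inertiaSubgroupIn ℚ → ((lam ^ n : ℕ) : ℤ) ∣ d - 1) ∧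
        (P.IsFrobeniusAt σ q → ((lam ^ n : ℕ) : ℤ) ∣ d - q)) := by
  obtain ⟨U, hUo, hUn, hU⟩ := exists_open_adic ρ n
  obtain ⟨ℓ, A, τ, k, hℓ, hℓS, hA, hτ, hk, hrel, hcyc⟩ :=
    ecmp W hΔ hlam h2 n S hlamS hbadS U hUo hUn σ
  obtain ⟨h1, h2'⟩ := hU σ (τ ^ k) hk
  obtain ⟨h3, h4⟩ := trace_det_pow ρ τ _ _ (hρ ℓ hℓ hℓS A hA τ hτ) k
  refine ⟨newton (W.apOfModel ℓ) (ℓ : ℤ) k, (ℓ : ℤ) ^ k, ?_, ?_, hrel, hcyc⟩
  · rw [h3] at h1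
    have e : ((newton (W.apOfModel ℓ) (ℓ : ℤ) k : ℤ) : O) =
        newton ((W.apOfModel ℓ : ℤ) : O) (ℓ : O) k := by
      have := Fermat.Agent.S31Lib.map_newton (Int.castRingHom O) (W.apOfModel ℓ) (ℓ : ℤ) k
      simpa using this
    rw [e]
    exact h1
  · rw [h4] at h2'
    push_cast
    exact h2'

end Fermat.Agent.S58Lib
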