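import Fermat.Agent.S58.Rho
import Fermat.Agent.S58.Cmp
import Fermat.Agent.S58.CoeffEq
import Fermat.Agent.S58.ApBound

/-!
# S58, modular side, leaf (ST35): a prime `q ‖ M` divides the discriminant
-/

set_option autoImplicit false
set_option synthInstance.maxHeartbeats 400000
set_option linter.unusedVariables false

namespace Fermat.Agent.S58Lib

open WeierstrassCurve WeierstrassCurve.Affine Fermat.Agent.S40Lib Polynomial CuspForm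
open ModularFormClass CongruenceSubgroup
open Fermat.Agent.S31Lib (newton)

local notation "Qb" => AlgebraicClosure ℚ
local notation "GQ" => (AlgebraicClosure ℚ ≃ₐ[ℚ] AlgebraicClosure ℚ)

theorem ST35_trace_eq {O : Type} [CommRing O] [IsLocalRing O] (ρ : GaloisRepAdic O) (σ : GQ)
    (a d : O) (h : LinearMap.charpoly (ρ.ρ σ) = X ^ 2 - C a * X + C d) :
    LinearMap.trace O ρ.V (ρ.ρ σ) = a := by
  have h1 := (trace_det_pow ρ σ a d h 1).1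
  rwa [pow_one, Fermat.Agent.S31Lib.newton_one] at h1

/-- arithmetic end of the argument -/
theorem ST35_arith {lam q : ℕ} (hlam : 2 * q + 1 < lam) (a e : ℤ) (ha : |a| ≤ q)
    (he : e = q + 1 ∨ e = -(q + 1)) (h : (lam : ℤ) ∣ a - e) : False := by
  have h0 : a - e ≠ 0 := by
    have := abs_le.1 ha
    rcases he with rfl | rfl <;> omega
  have h1 := Int.le_of_dvd (abs_pos.2 h0) ((dvd_abs _ _).2 h)
  have h2 : |a - e| ≤ 2 * q + 1 := by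
    have := abs_le.1 ha
    rw [abs_le]
    rcases he with rfl | rfl <;> constructor <;> omega
  omega

/-- (ST35) `S58/Step35.lean`.  `lam` = a prime `> 2q + 1`, `n = 1`, `σ` = a Frobenius at `q`
(`FrobLib.exists_place_and_frobenius`).  (R35): `tr ρ(σ) = ±(q + 1)`; (CMP): `s ≡ ±(q+1) mod 𝔪`,
`lam ∣ d - q`; `frob_rel_all` at `q`: `(s - a_q) σu = (d - q) u = 0`, so `lam ∣ s - a_q`;
(AD4): `lam ∣ a_q ∓ (q + 1)`, which is nonzero of absolute value `≤ 2q + 1` by (E5). -/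
theorem not_good_of_dvd (W : WeierstrassCurve ℤ) (hΔ : W.Δ ≠ 0)
    {M N : ℕ} [NeZero M] (hN0 : N ≠ 0) (hMN : M ∣ N) {g : CuspForm (Gamma0 M) 2} (hg : g.IsNewform)
    (hbad : ∀ ℓ : ℕ, ℓ.Prime → (ℓ : ℤ) ∣ W.Δ → ℓ ∣ N)
    (hga : ∀ ℓ : ℕ, ℓ.Prime → ¬ ℓ ∣ N → qCoeff g ℓ = (W.apOfModel ℓ : ℂ))
    {q : ℕ} (hq : q.Prime) (hqM : q ∣ M) (hq2 : ¬ q ^ 2 ∣ M) : (q : ℤ) ∣ W.Δ := by
  classical
  by_contra hgood
  obtain ⟨lam, hlamq, hlam⟩ := Nat.exists_infinite_primes (2 * q + 2)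
  haveI : Fact lam.Prime := ⟨hlam⟩
  have hq2' := hq.two_le
  have hlam2 : lam ≠ 2 := by omega
  have hqlam : q ≠ lam := by omega
  set S : Finset ℕ := N.primeFactors ∪ {lam} with hS
  have hlamS : lam ∈ S := by simp [hS]
  have hNS : ∀ ℓ : ℕ, ℓ.Prime → ℓ ∣ N → ℓ ∈ S := fun ℓ hℓ hℓN =>
    Finset.mem_union_left _ (Nat.mem_primeFactors.2 ⟨hℓ, hℓN, hN0⟩)
  have hMS : ∀ ℓ : ℕ, ℓ.Prime → ℓ ∣ M → ℓ ∈ S := fun ℓ hℓ hℓM => hNS ℓ hℓ (hℓM.trans hMN)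
  have hbadS : ∀ ℓ : ℕ, ℓ.Prime → (ℓ : ℤ) ∣ W.Δ → ℓ ∈ S := fun ℓ hℓ h => hNS ℓ hℓ (hbad ℓ hℓ h)
  have ha : ∀ ℓ : ℕ, ℓ.Prime → ℓ ∉ S → qCoeff g ℓ = (W.apOfModel ℓ : ℂ) := fun ℓ hℓ hℓS =>
    hga ℓ hℓ (fun h => hℓS (hNS ℓ hℓ h))
  obtain ⟨O, _, _, _, hlamO, ρ, hρ, hρq⟩ := exists_rho35 hg lam S hlamS hMS W.apOfModel ha
  obtain ⟨A₀, σ, hA₀, hσ⟩ := Fermat.Agent.FrobLib.exists_place_and_frobenius hq
  obtain ⟨s, d, hs, -, hrel, hcyc⟩ := cmp W hΔ hlam hlam2 S hlamS hbadS ρ hρ σ 1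
  have hodd : Odd (lam ^ 1) := (hlam.odd_of_ne_two hlam2).pow
  have hqm : ¬ q ∣ lam ^ 1 := fun h =>
    hqlam ((Nat.prime_dvd_prime_iff_eq hq hlam).1 (hq.dvd_of_dvd_pow h))
  have h1 : ((lam ^ 1 : ℕ) : ℤ) ∣ s - W.apOfModel q := ME_dvd_of_rel W (lam ^ 1) σ _ _ _ _ hrel
    (fun u hu => frob_rel_all W hΔ hq hodd hqm hgood A₀ σ hA₀ hσ u hu)
    ((hcyc q hq hqlam A₀ hA₀).2 hσ) (exists_exact_order W hΔ hlam hlam2 1)
  rw [pow_one] at h1 hs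
  have h2 : ((s - W.apOfModel q : ℤ) : O) ∈ IsLocalRing.maximalIdeal O := by
    obtain ⟨e, he⟩ := h1
    rw [he]
    push_cast
    exact Ideal.mul_mem_right _ _ hlamO
  -- the trace of `ρ σ`
  obtain ⟨e, he, htr⟩ : ∃ e : ℤ, (e = q + 1 ∨ e = -(q + 1)) ∧
      LinearMap.trace O ρ.V (ρ.ρ σ) = (e : O) := by
    rcases hρq q hq hqlam hqM hq2 A₀ hA₀ σ hσ with h | h
    · exact ⟨q + 1, Or.inl rfl, by rw [ST35_trace_eq ρ σ _ _ h]; push_cast; rfl⟩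
    · refine ⟨-(q + 1), Or.inr rfl, ?_⟩
      have h' : LinearMap.charpoly (ρ.ρ σ) = X ^ 2 - C (-((q : O) + 1)) * X + C ((q : O)) := by
        rw [h, C_neg]
        ring
      rw [ST35_trace_eq ρ σ _ _ h']
      push_cast
      rfl
  rw [htr] at hs
  have h3 : ((W.apOfModel q - e : ℤ) : O) ∈ IsLocalRing.maximalIdeal O := by
    have : ((W.apOfModel q - e : ℤ) : O) = -(((e : O) - (s : O)) + ((s - W.apOfModel q : ℤ) : O)) := by
      push_cast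
      ring
    rw [this]
    exact (Ideal.neg_mem_iff _).2 (Ideal.add_mem _ hs h2)
  exact ST35_arith (by omega) _ e (abs_apOfModel_le W hq) he
    (int_dvd_of_mem_maximalIdeal hlam hlamO _ h3)

end Fermat.Agent.S58Lib
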