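import Fermat.Agent.S58.Defs
import Fermat.Agent.S40.LocLine

/-!
# S58, (NS): a point away from the node has nonsingular reduction (+ tools for the node)
-/

set_option autoImplicit false

namespace Fermat.Agent.S58Lib

open WeierstrassCurve WeierstrassCurve.Affine Fermat.Agent.S40Lib

local notation "Qb" => AlgebraicClosure ℚ
local notation "GQ" => (AlgebraicClosure ℚ ≃ₐ[ℚ] AlgebraicClosure ℚ)

/-! ### tools -/

theorem NS_a₁ (W : WeierstrassCurve ℤ) : (FW_V W).a₁ = (W.a₁ : Qb) := by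
  rw [FW_map_eq]; simp

theorem NS_a₂ (W : WeierstrassCurve ℤ) : (FW_V W).a₂ = (W.a₂ : Qb) := by
  rw [FW_map_eq]; simp

theorem NS_a₃ (W : WeierstrassCurve ℤ) : (FW_V W).a₃ = (W.a₃ : Qb) := by
  rw [FW_map_eq]; simp

theorem NS_a₄ (W : WeierstrassCurve ℤ) : (FW_V W).a₄ = (W.a₄ : Qb) := by
  rw [FW_map_eq]; simp

theorem NS_a₆ (W : WeierstrassCurve ℤ) : (FW_V W).a₆ = (W.a₆ : Qb) := by
  rw [FW_map_eq]; simp

/-- the Weierstrass equation with integral coefficients -/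
theorem NS_eqn (W : WeierstrassCurve ℤ) {x y : Qb} (h : (FW_V W).toAffine.Nonsingular x y) :
    y ^ 2 + (W.a₁ : Qb) * x * y + (W.a₃ : Qb) * y =
      x ^ 3 + (W.a₂ : Qb) * x ^ 2 + (W.a₄ : Qb) * x + (W.a₆ : Qb) := by
  have := (Affine.equation_iff _ _).1 h.1
  rwa [NS_a₁, NS_a₂, NS_a₃, NS_a₄, NS_a₆] at this

theorem NS_b₂ (W : WeierstrassCurve ℤ) : (W.b₂ : Qb) = (W.a₁ : Qb) ^ 2 + 4 * (W.a₂ : Qb) := by
  rw [WeierstrassCurve.b₂]; push_cast; ring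

/-- the equation in the coordinates centred at the critical point -/
theorem NS_local (W : WeierstrassCurve ℤ) {𝔄 : ValuationSubring Qb} {x₀ y₀ c : Qb}
    (hC : CritData W 𝔄 x₀ y₀ c) {x y : Qb} (h : (FW_V W).toAffine.Nonsingular x y) :
    (y - y₀) ^ 2 + (W.a₁ : Qb) * (x - x₀) * (y - y₀) =
      (x - x₀) ^ 3 + ((W.a₂ : Qb) + 3 * x₀) * (x - x₀) ^ 2 + c := by
  have e := NS_eqn W h
  have e₁ := hC.e₁
  have e₂ := hC.e₂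
  rw [hC.hc]
  linear_combination e - (y - y₀) * e₁ + (x - x₀) * e₂

theorem NS_int_mem (𝔄 : ValuationSubring Qb) (n : ℤ) : (n : Qb) ∈ 𝔄 := intCast_mem 𝔄 n

theorem NS_nu_sub {𝔄 : ValuationSubring Qb} {x y : Qb} (hx : x ∈ 𝔄.nonunits)
    (hy : y ∈ 𝔄.nonunits) : x - y ∈ 𝔄.nonunits := by
  rw [sub_eq_add_neg]
  exact L2_nonunits_add 𝔄 hx (L2_nonunits_neg 𝔄 hy)

theorem NS_nu_mem {𝔄 : ValuationSubring Qb} {x : Qb} (hx : x ∈ 𝔄.nonunits) : x ∈ 𝔄 :=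
  (𝔄.valuation_le_one_iff x).1 (le_of_lt ((ValuationSubring.mem_nonunits_iff 𝔄).1 hx))

/-- `b₂'` is a unit -/
theorem NS_b₂'_unit (W : WeierstrassCurve ℤ) {𝔄 : ValuationSubring Qb} {x₀ y₀ c : Qb}
    (hC : CritData W 𝔄 x₀ y₀ c) : (W.b₂ : Qb) + 12 * x₀ ∉ 𝔄.nonunits := by
  intro h
  apply L3_one_not_mem 𝔄
  rw [← inv_mul_cancel₀ hC.hb0]
  exact L2_nonunits_mul 𝔄 hC.hb h

theorem NS_ofNat_mem (𝔄 : ValuationSubring Qb) (n : ℕ) [n.AtLeastTwo] :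
    (OfNat.ofNat n : Qb) ∈ 𝔄 := by
  have := natCast_mem 𝔄 n
  exact_mod_cast this

/-- (NS) `S58/CritNonsing.lean`: a point away from the node has nonsingular reduction:
`a₁N + 2M = ξ(b₂' + 6ξ)`, `N² = ξ²(4ξ + b₂') + 4c`. -/
theorem nonsing_of_unit (W : WeierstrassCurve ℤ) (𝔄 : ValuationSubring Qb) {x₀ y₀ c : Qb}
    (hC : CritData W 𝔄 x₀ y₀ c) {x y : Qb} (h : (FW_V W).toAffine.Nonsingular x y)
    (hx : x ∈ 𝔄) (hy : y ∈ 𝔄) (hξ : x - x₀ ∉ 𝔄.nonunits) :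
    2 * y + (W.a₁ : Qb) * x + (W.a₃ : Qb) ∉ 𝔄.nonunits ∨
      3 * x ^ 2 + 2 * (W.a₂ : Qb) * x + (W.a₄ : Qb) - (W.a₁ : Qb) * y ∉ 𝔄.nonunits := by
  by_contra hcon
  push Not at hcon
  obtain ⟨hN, hM⟩ := hcon
  have hloc := NS_local W hC h
  have e₁ := hC.e₁
  have e₂ := hC.e₂
  have hb2 := NS_b₂ W
  set ξ := x - x₀ with hξdef
  set N := 2 * y + (W.a₁ : Qb) * x + (W.a₃ : Qb) with hNdef
  set Mm := 3 * x ^ 2 + 2 * (W.a₂ : Qb) * x + (W.a₄ : Qb) - (W.a₁ : Qb) * y with hMdef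
  set B := (W.b₂ : Qb) + 12 * x₀ with hB
  have hξA : ξ ∈ 𝔄 := 𝔄.sub_mem hx hC.hx
  have i1 : ξ * (B + 6 * ξ) = (W.a₁ : Qb) * N + 2 * Mm := by
    rw [hB, hb2, hNdef, hMdef, hξdef]
    linear_combination (-(W.a₁ : Qb)) * e₁ - 2 * e₂
  have i2 : ξ ^ 2 * (4 * ξ + B) = N * N + (-4) * c := by
    rw [hB, hb2, hNdef]
    have : 2 * y + (W.a₁ : Qb) * x + (W.a₃ : Qb) = 2 * (y - y₀) + (W.a₁ : Qb) * ξ := by
      rw [hξdef]; linear_combination e₁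
    rw [this]
    linear_combination (-4) * hloc
  have h1 : B + 6 * ξ ∈ 𝔄.nonunits := by
    have : ξ * (B + 6 * ξ) ∈ 𝔄.nonunits := by
      rw [i1]
      exact L2_nonunits_add 𝔄 (L2_nonunits_mul 𝔄 (NS_int_mem 𝔄 _) hN)
        (L2_nonunits_mul 𝔄 (NS_ofNat_mem 𝔄 2) hM)
    exact (L2_nonunits_of_mul 𝔄 this).resolve_left hξ
  have h2 : 4 * ξ + B ∈ 𝔄.nonunits := by
    have : ξ ^ 2 * (4 * ξ + B) ∈ 𝔄.nonunits := by
      rw [i2]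
      exact L2_nonunits_add 𝔄 (L2_nonunits_mul 𝔄 (NS_nu_mem hN) hN)
        (L2_nonunits_mul 𝔄 (𝔄.neg_mem _ (NS_ofNat_mem 𝔄 4)) hC.hcm)
    refine (L2_nonunits_of_mul 𝔄 this).resolve_left (fun h3 => hξ (L2_nonunits_of_pow 𝔄 h3))
  have h3 : (2 : Qb) ∈ 𝔄.nonunits := by
    have : ξ * 2 ∈ 𝔄.nonunits := by
      have e : ξ * 2 = (B + 6 * ξ) - (4 * ξ + B) := by ring
      rw [e]
      exact NS_nu_sub h1 h2
    exact (L2_nonunits_of_mul 𝔄 this).resolve_left hξ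
  apply NS_b₂'_unit W hC
  have e : (W.b₂ : Qb) + 12 * x₀ = (B + 6 * ξ) - (3 * ξ) * 2 := by rw [hB]; ring
  rw [e]
  exact NS_nu_sub h1 (L2_nonunits_mul 𝔄 (𝔄.mul_mem _ _ (NS_ofNat_mem 𝔄 3) hξA) h3)

end Fermat.Agent.S58Lib
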