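import Fermat.Agent.S58.Defs

/-!
# S58 (T1): collinearity criterion on a general Weierstrass curve (any characteristic)
-/

set_option autoImplicit false

namespace Fermat.Agent.S58Lib

open WeierstrassCurve WeierstrassCurve.Affine Fermat.Agent.S40Lib

section Col

variable {F : Type*} [Field F] [DecidableEq F]

/-- the slope facts -/
private lemma T1_slope (V : WeierstrassCurve F) {x₁ y₁ x₂ y₂ : F}
    (q₁ : y₁ ^ 2 + V.a₁ * x₁ * y₁ + V.a₃ * y₁ = x₁ ^ 3 + V.a₂ * x₁ ^ 2 + V.a₄ * x₁ + V.a₆)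
    (q₂ : y₂ ^ 2 + V.a₁ * x₂ * y₂ + V.a₃ * y₂ = x₂ ^ 3 + V.a₂ * x₂ ^ 2 + V.a₄ * x₂ + V.a₆)
    (e₁ : V.toAffine.Equation x₁ y₁) (e₂ : V.toAffine.Equation x₂ y₂)
    (hxy : ¬(x₁ = x₂ ∧ y₁ = V.toAffine.negY x₂ y₂)) :
    V.toAffine.slope x₁ x₂ y₁ y₂ * (x₁ - x₂) = y₁ - y₂ ∧
    V.toAffine.slope x₁ x₂ y₁ y₂ * (y₁ + y₂) + V.a₁ * (V.toAffine.slope x₁ x₂ y₁ y₂ * x₁ + y₂)
      + V.a₃ * V.toAffine.slope x₁ x₂ y₁ y₂
      = x₁ ^ 2 + x₁ * x₂ + x₂ ^ 2 + V.a₂ * (x₁ + x₂) + V.a₄ := by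
  by_cases hx : x₁ = x₂
  · have hy : y₁ ≠ V.toAffine.negY x₂ y₂ := fun h => hxy ⟨hx, h⟩
    have hyy : y₁ = y₂ := Y_eq_of_Y_ne e₁ e₂ hx hy
    subst hx
    subst hyy
    rw [slope_of_Y_ne rfl hy]
    have hd : y₁ - V.toAffine.negY x₁ y₁ ≠ 0 := sub_ne_zero.mpr hy
    have hl' : (3 * x₁ ^ 2 + 2 * V.toAffine.a₂ * x₁ + V.toAffine.a₄ - V.toAffine.a₁ * y₁)
        / (y₁ - V.toAffine.negY x₁ y₁) * (y₁ - V.toAffine.negY x₁ y₁)
        = 3 * x₁ ^ 2 + 2 * V.toAffine.a₂ * x₁ + V.toAffine.a₄ - V.toAffine.a₁ * y₁ :=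
      div_mul_cancel₀ _ hd
    generalize (3 * x₁ ^ 2 + 2 * V.toAffine.a₂ * x₁ + V.toAffine.a₄ - V.toAffine.a₁ * y₁)
        / (y₁ - V.toAffine.negY x₁ y₁) = l at hl'
    rw [negY] at hl'
    refine ⟨by ring, ?_⟩
    linear_combination hl'
  · rw [slope_of_X_ne hx]
    have hd : x₁ - x₂ ≠ 0 := sub_ne_zero.mpr hx
    have hl' : (y₁ - y₂) / (x₁ - x₂) * (x₁ - x₂) = y₁ - y₂ := div_mul_cancel₀ _ hd
    generalize (y₁ - y₂) / (x₁ - x₂) = l at hl'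
    refine ⟨hl', ?_⟩
    apply mul_right_cancel₀ hd
    linear_combination (y₁ + y₂ + V.a₁ * x₁ + V.a₃) * hl' + q₁ - q₂

/-- (T1a) necessary direction -/
theorem col_nec (V : WeierstrassCurve F) {x₁ y₁ x₂ y₂ x₃ y₃ : F}
    (h₁ : V.toAffine.Nonsingular x₁ y₁) (h₂ : V.toAffine.Nonsingular x₂ y₂)
    (h₃ : V.toAffine.Nonsingular x₃ y₃)
    (h : Point.some x₁ y₁ h₁ + Point.some x₂ y₂ h₂ + Point.some x₃ y₃ h₃ = 0) :
    ∃ l n : F, y₁ = l * x₁ + n ∧ y₂ = l * x₂ + n ∧ y₃ = l * x₃ + n ∧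
      x₁ + x₂ + x₃ = l ^ 2 + V.a₁ * l - V.a₂ ∧
      x₁ * x₂ + x₁ * x₃ + x₂ * x₃ = V.a₄ - 2 * l * n - V.a₁ * n - V.a₃ * l ∧
      x₁ * x₂ * x₃ = n ^ 2 + V.a₃ * n - V.a₆ := by
  rw [add_eq_zero_iff_eq_neg, Point.neg_some] at h
  have q₁ := (V.toAffine.equation_iff x₁ y₁).mp h₁.1
  have q₂ := (V.toAffine.equation_iff x₂ y₂).mp h₂.1
  by_cases hxy : x₁ = x₂ ∧ y₁ = V.toAffine.negY x₂ y₂
  · rw [Point.add_of_Y_eq hxy.1 hxy.2] at h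
    exact absurd h.symm (Point.some_ne_zero _)
  · rw [Point.add_some hxy] at h
    simp only [Point.some.injEq] at h
    obtain ⟨c1, c2⟩ := h
    obtain ⟨hl', hl2⟩ := T1_slope V q₁ q₂ h₁.1 h₂.1 hxy
    generalize V.toAffine.slope x₁ x₂ y₁ y₂ = l at c1 c2 hl' hl2
    rw [addY, negAddY, c1, negY, negY] at c2
    rw [addX] at c1
    have s₁ : x₁ + x₂ + x₃ = l ^ 2 + V.a₁ * l - V.a₂ := by linear_combination -c1
    have s₂ : x₁ * x₂ + x₁ * x₃ + x₂ * x₃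
        = V.a₄ - 2 * l * (y₁ - l * x₁) - V.a₁ * (y₁ - l * x₁) - V.a₃ * l := by
      linear_combination (x₁ + x₂) * s₁ + hl2 - (l + V.a₁) * hl'
    refine ⟨l, y₁ - l * x₁, by ring, by linear_combination hl', by linear_combination c2, s₁, s₂,
      ?_⟩
    linear_combination x₁ * s₂ - x₁ ^ 2 * s₁ - q₁

/-- (T1b) sufficient direction: three nonsingular points on a non vertical line, with the Vieta
relations, sum to zero (multiplicities allowed). -/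
theorem col_suff (V : WeierstrassCurve F) {x₁ y₁ x₂ y₂ x₃ y₃ l n : F}
    (h₁ : V.toAffine.Nonsingular x₁ y₁) (h₂ : V.toAffine.Nonsingular x₂ y₂)
    (h₃ : V.toAffine.Nonsingular x₃ y₃)
    (e₁ : y₁ = l * x₁ + n) (e₂ : y₂ = l * x₂ + n) (e₃ : y₃ = l * x₃ + n)
    (s₁ : x₁ + x₂ + x₃ = l ^ 2 + V.a₁ * l - V.a₂)
    (s₂ : x₁ * x₂ + x₁ * x₃ + x₂ * x₃ = V.a₄ - 2 * l * n - V.a₁ * n - V.a₃ * l)
    (s₃ : x₁ * x₂ * x₃ = n ^ 2 + V.a₃ * n - V.a₆) :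
    Point.some x₁ y₁ h₁ + Point.some x₂ y₂ h₂ + Point.some x₃ y₃ h₃ = 0 := by
  rw [add_eq_zero_iff_eq_neg, Point.neg_some]
  -- the tangency identity when `x₁ = x₂`
  have htan : x₁ = x₂ → 3 * x₁ ^ 2 + 2 * V.a₂ * x₁ + V.a₄ - V.a₁ * y₁
      = l * (2 * y₁ + V.a₁ * x₁ + V.a₃) := by
    intro hx
    subst hx
    rw [e₁]
    linear_combination (2 * x₁) * s₁ - s₂
  have hxy : ¬(x₁ = x₂ ∧ y₁ = V.toAffine.negY x₂ y₂) := by
    rintro ⟨hx, hy⟩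
    have ht := htan hx
    subst hx
    have hyy : y₂ = y₁ := by rw [e₁, e₂]
    rw [hyy, negY] at hy
    have h0 : 2 * y₁ + V.a₁ * x₁ + V.a₃ = 0 := by linear_combination hy
    rw [h0, mul_zero] at ht
    rcases ((V.toAffine.nonsingular_iff x₁ y₁).mp h₁).2 with h | h
    · exact h (by linear_combination -ht)
    · exact h (by linear_combination h0)
  have hsl : V.toAffine.slope x₁ x₂ y₁ y₂ = l := by
    by_cases hx : x₁ = x₂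
    · have hy : y₁ ≠ V.toAffine.negY x₂ y₂ := fun h => hxy ⟨hx, h⟩
      have ht := htan hx
      rw [slope_of_Y_ne hx hy]
      subst hx
      have hyy : y₂ = y₁ := by rw [e₁, e₂]
      rw [hyy] at hy
      have hd : y₁ - V.toAffine.negY x₁ y₁ ≠ 0 := sub_ne_zero.mpr hy
      rw [div_eq_iff hd, negY]
      linear_combination ht
    · rw [slope_of_X_ne hx, div_eq_iff (sub_ne_zero.mpr hx), e₁, e₂]
      ring
  rw [Point.add_some hxy]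
  simp only [Point.some.injEq]
  have hX : V.toAffine.addX x₁ x₂ (V.toAffine.slope x₁ x₂ y₁ y₂) = x₃ := by
    rw [hsl, addX]
    linear_combination -s₁
  refine ⟨hX, ?_⟩
  rw [addY, negAddY, hX, hsl]
  congr 1
  rw [e₁, e₃]
  ring

end Col

end Fermat.Agent.S58Lib
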