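import Fermat.Agent.S58.Defs
import Fermat.Agent.S40.Model
import Fermat.Agent.S40.LocMult

/-!
# S58, (KO): integrality of torsion points, odd residue characteristic
-/

set_option autoImplicit false

namespace Fermat.Agent.S58Lib

open WeierstrassCurve WeierstrassCurve.Affine Fermat.Agent.S40Lib

local notation "Qb" => AlgebraicClosure ℚ
local notation "GQ" => (AlgebraicClosure ℚ ≃ₐ[ℚ] AlgebraicClosure ℚ)

/-- a root of a monic cubic with integral coefficients is integral -/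
theorem KO_cubic_mem {K : Type*} [Field K] (A : ValuationSubring K) {a b c r : K} (ha : a ∈ A)
    (hb : b ∈ A) (hc : c ∈ A) (h : r ^ 3 + a * r ^ 2 + b * r + c = 0) : r ∈ A := by
  rcases A.mem_or_inv_mem r with hr | hr
  · exact hr
  · by_cases h0 : r = 0
    · rw [h0]; exact A.zero_mem
    · have e : r = -(a + b * r⁻¹ + c * r⁻¹ ^ 2) := by
        field_simp
        linear_combination h
      rw [e]
      exact A.neg_mem _ (A.add_mem _ _ (A.add_mem _ _ ha (A.mul_mem _ _ hb hr))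
        (A.mul_mem _ _ hc (A.pow_mem hr 2)))

/-- a root of a monic quadratic with integral coefficients is integral -/
theorem KO_quad_mem {K : Type*} [Field K] (A : ValuationSubring K) {a b r : K} (ha : a ∈ A)
    (hb : b ∈ A) (h : r ^ 2 + a * r + b = 0) : r ∈ A := by
  rcases A.mem_or_inv_mem r with hr | hr
  · exact hr
  · by_cases h0 : r = 0
    · rw [h0]; exact A.zero_mem
    · have e : r = -(a + b * r⁻¹) := by
        field_simp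
        linear_combination h
      rw [e]
      exact A.neg_mem _ (A.add_mem _ _ ha (A.mul_mem _ _ hb hr))

theorem KO_ofNat_mem {K : Type*} [Field K] (A : ValuationSubring K) (n : ℕ) [n.AtLeastTwo] :
    (OfNat.ofNat n : K) ∈ A := by
  have := natCast_mem A n
  simp

/-- (KO) `S58/IntOdd.lean`.  Odd residue characteristic: `genModel` (S40/Model), a root `r` of
`T³ + b₂T² + 8b₄T + 16b₆` is integral, `X_mem_of_torsion` (S40/LocMult), `x = (X + r) / 4`. -/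
theorem mem_of_torsion_odd (V : WeierstrassCurve Qb) (hΔ : V.Δ ≠ 0) (𝔄 : ValuationSubring Qb)
    (h₁ : V.a₁ ∈ 𝔄) (h₂ : V.a₂ ∈ 𝔄) (h₃ : V.a₃ ∈ 𝔄) (h₄ : V.a₄ ∈ 𝔄) (h₆ : V.a₆ ∈ 𝔄)
    (h2 : (2 : Qb)⁻¹ ∈ 𝔄) {m : ℕ} (hm : Odd m) (hm𝔄 : ((m : ℕ) : Qb)⁻¹ ∈ 𝔄) {x y : Qb}
    (h : V.toAffine.Nonsingular x y) (hu : m • (Point.some x y h : V.toAffine.Point) = 0) :
    x ∈ 𝔄 := by
  have hb2 : V.b₂ ∈ 𝔄 := by
    rw [WeierstrassCurve.b₂]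
    exact 𝔄.add_mem _ _ (𝔄.pow_mem h₁ 2) (𝔄.mul_mem _ _ (KO_ofNat_mem 𝔄 4) h₂)
  have hb4 : V.b₄ ∈ 𝔄 := by
    rw [WeierstrassCurve.b₄]
    exact 𝔄.add_mem _ _ (𝔄.mul_mem _ _ (KO_ofNat_mem 𝔄 2) h₄) (𝔄.mul_mem _ _ h₁ h₃)
  have hb6 : V.b₆ ∈ 𝔄 := by
    rw [WeierstrassCurve.b₆]
    exact 𝔄.add_mem _ _ (𝔄.pow_mem h₃ 2) (𝔄.mul_mem _ _ (KO_ofNat_mem 𝔄 4) h₆)
  obtain ⟨r, hr⟩ : ∃ r : Qb, r ^ 3 + V.b₂ * r ^ 2 + 8 * V.b₄ * r + 16 * V.b₆ = 0 := by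
    obtain ⟨r, hr⟩ := IsAlgClosed.exists_root
      (Polynomial.X ^ 3 + Polynomial.C V.b₂ * Polynomial.X ^ 2 + Polynomial.C (8 * V.b₄) * Polynomial.X
        + Polynomial.C (16 * V.b₆) : Polynomial Qb) (by
        have : (Polynomial.X ^ 3 + Polynomial.C V.b₂ * Polynomial.X ^ 2
          + Polynomial.C (8 * V.b₄) * Polynomial.X + Polynomial.C (16 * V.b₆) : Polynomial Qb).degree
            = 3 := by compute_degree!
        rw [this]; norm_num)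
    refine ⟨r, ?_⟩
    simpa [Polynomial.IsRoot] using hr
  have hrA : r ∈ 𝔄 := KO_cubic_mem 𝔄 hb2 (𝔄.mul_mem _ _ (KO_ofNat_mem 𝔄 8) hb4)
    (𝔄.mul_mem _ _ (KO_ofNat_mem 𝔄 16) hb6) hr
  have h20 : (2 : Qb) ≠ 0 := two_ne_zero
  have ha₂ : 3 * r + V.toAffine.b₂ ∈ 𝔄 :=
    𝔄.add_mem _ _ (𝔄.mul_mem _ _ (KO_ofNat_mem 𝔄 3) hrA) hb2
  have ha₄ : 3 * r ^ 2 + 2 * V.toAffine.b₂ * r + 8 * V.toAffine.b₄ ∈ 𝔄 :=
    𝔄.add_mem _ _ (𝔄.add_mem _ _ (𝔄.mul_mem _ _ (KO_ofNat_mem 𝔄 3) (𝔄.pow_mem hrA 2))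
      (𝔄.mul_mem _ _ (𝔄.mul_mem _ _ (KO_ofNat_mem 𝔄 2) hb2) hrA))
      (𝔄.mul_mem _ _ (KO_ofNat_mem 𝔄 8) hb4)
  have hdisc := genModel_disc V.toAffine r hr
  have hne : (256 : Qb) * V.toAffine.Δ ≠ 0 := mul_ne_zero (by norm_num) hΔ
  rw [← hdisc] at hne
  have h4 : 3 * r ^ 2 + 2 * V.toAffine.b₂ * r + 8 * V.toAffine.b₄ ≠ 0 := by
    intro h0
    apply hne
    rw [h0]; ring
  have hd : (3 * r + V.toAffine.b₂) ^ 2
      - 4 * (3 * r ^ 2 + 2 * V.toAffine.b₂ * r + 8 * V.toAffine.b₄) ≠ 0 := by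
    intro h0
    apply hne
    rw [h0]; ring
  obtain ⟨k, rfl⟩ := hm
  have hk0 : ((2 * k + 1 : ℕ) : Qb) ≠ 0 := by
    exact_mod_cast Nat.succ_ne_zero (2 * k)
  have hX := X_mem_of_torsion 𝔄 (genModel V.toAffine h20 r hr) ha₂ ha₄ h20 h4 hd
    (P := Point.some x y h) (X := 4 * x - r) (Y := 8 * y + 4 * V.a₁ * x + 4 * V.a₃) rfl k hm𝔄 hk0 hu
  have e : x = (2 : Qb)⁻¹ * (2 : Qb)⁻¹ * ((4 * x - r) + r) := by
    field_simp
    ring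
  rw [e]
  exact 𝔄.mul_mem _ _ (𝔄.mul_mem _ _ h2 h2) (𝔄.add_mem _ _ hX hrA)

end Fermat.Agent.S58Lib
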