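import Fermat.Agent.S58.IntTwo
import Fermat.Agent.S58.IntOdd
import Fermat.Agent.S05.QbarOrd

/-!
# S58, (K): integrality of torsion points of odd order prime to the residue characteristic
-/

set_option autoImplicit false

namespace Fermat.Agent.S58Lib

open WeierstrassCurve WeierstrassCurve.Affine Fermat.Agent.S40Lib

local notation "Qb" => AlgebraicClosure ℚ
local notation "GQ" => (AlgebraicClosure ℚ ≃ₐ[ℚ] AlgebraicClosure ℚ)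

theorem K_a₁ (W : WeierstrassCurve ℤ) : (FW_V W).a₁ = (W.a₁ : Qb) := by
  rw [FW_map_eq, WeierstrassCurve.map_a₁, eq_intCast]

theorem K_a₂ (W : WeierstrassCurve ℤ) : (FW_V W).a₂ = (W.a₂ : Qb) := by
  rw [FW_map_eq, WeierstrassCurve.map_a₂, eq_intCast]

theorem K_a₃ (W : WeierstrassCurve ℤ) : (FW_V W).a₃ = (W.a₃ : Qb) := by
  rw [FW_map_eq, WeierstrassCurve.map_a₃, eq_intCast]

theorem K_a₄ (W : WeierstrassCurve ℤ) : (FW_V W).a₄ = (W.a₄ : Qb) := by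
  rw [FW_map_eq, WeierstrassCurve.map_a₄, eq_intCast]

theorem K_a₆ (W : WeierstrassCurve ℤ) : (FW_V W).a₆ = (W.a₆ : Qb) := by
  rw [FW_map_eq, WeierstrassCurve.map_a₆, eq_intCast]

theorem K_Δ (W : WeierstrassCurve ℤ) : (FW_V W).Δ = (W.Δ : Qb) := by
  rw [FW_map_eq, WeierstrassCurve.map_Δ, eq_intCast]

/-- the equation of the curve, with the integral coefficients -/
theorem K_equation (W : WeierstrassCurve ℤ) {x y : Qb} (h : (FW_V W).toAffine.Nonsingular x y) :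
    y ^ 2 + (W.a₁ : Qb) * x * y + (W.a₃ : Qb) * y
      = x ^ 3 + (W.a₂ : Qb) * x ^ 2 + (W.a₄ : Qb) * x + (W.a₆ : Qb) := by
  have e := ((FW_V W).toAffine.equation_iff x y).mp h.1
  rw [K_a₁, K_a₂, K_a₃, K_a₄, K_a₆] at e
  exact e

/-- the inverse of an integer prime to the residue characteristic is integral -/
theorem K_inv_mem (𝔄 : ValuationSubring Qb) {q : ℕ} (hq : q.Prime) (h𝔄 : 𝔄.LiesOverPrime q)
    {n : ℤ} (hn : ¬ (q : ℤ) ∣ n) : ((n : ℤ) : Qb)⁻¹ ∈ 𝔄 := by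
  rw [← 𝔄.valuation_le_one_iff, map_inv₀, Fermat.Agent.S05Lib.val_int_eq_one hq h𝔄 hn, inv_one]

/-- `y` is integral if `x` is -/
theorem K_y_mem (W : WeierstrassCurve ℤ) (𝔄 : ValuationSubring Qb) {x y : Qb}
    (h : (FW_V W).toAffine.Nonsingular x y) (hx : x ∈ 𝔄) : y ∈ 𝔄 := by
  have e := K_equation W h
  refine KO_quad_mem 𝔄 (a := (W.a₁ : Qb) * x + (W.a₃ : Qb))
    (b := -(x ^ 3 + (W.a₂ : Qb) * x ^ 2 + (W.a₄ : Qb) * x + (W.a₆ : Qb))) ?_ ?_ ?_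
  · exact 𝔄.add_mem _ _ (𝔄.mul_mem _ _ (intCast_mem 𝔄 _) hx) (intCast_mem 𝔄 _)
  · exact 𝔄.neg_mem _ (𝔄.add_mem _ _ (𝔄.add_mem _ _ (𝔄.add_mem _ _ (𝔄.pow_mem hx 3)
      (𝔄.mul_mem _ _ (intCast_mem 𝔄 _) (𝔄.pow_mem hx 2))) (𝔄.mul_mem _ _ (intCast_mem 𝔄 _) hx))
      (intCast_mem 𝔄 _))
  · linear_combination e

/-- (K) `S58/IntTors.lean` -/
theorem mem_of_torsion (W : WeierstrassCurve ℤ) (hΔ : W.Δ ≠ 0) (𝔄 : ValuationSubring Qb)
    {q m : ℕ} (hq : q.Prime) (h𝔄 : 𝔄.LiesOverPrime q) (hm : Odd m) (hqm : ¬ q ∣ m) {x y : Qb}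
    (h : (FW_V W).toAffine.Nonsingular x y) (hu : m • (Point.some x y h : EPt W) = 0) :
    x ∈ 𝔄 ∧ y ∈ 𝔄 := by
  have h₁ : (FW_V W).a₁ ∈ 𝔄 := by rw [K_a₁]; exact intCast_mem 𝔄 _
  have h₂ : (FW_V W).a₂ ∈ 𝔄 := by rw [K_a₂]; exact intCast_mem 𝔄 _
  have h₃ : (FW_V W).a₃ ∈ 𝔄 := by rw [K_a₃]; exact intCast_mem 𝔄 _
  have h₄ : (FW_V W).a₄ ∈ 𝔄 := by rw [K_a₄]; exact intCast_mem 𝔄 _
  have h₆ : (FW_V W).a₆ ∈ 𝔄 := by rw [K_a₆]; exact intCast_mem 𝔄 _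
  have hx : x ∈ 𝔄 := by
    by_cases hq2 : q = 2
    · subst hq2
      have h2 : (2 : Qb) ∈ 𝔄.nonunits := by
        have := h𝔄
        rw [ValuationSubring.LiesOverPrime] at this
        simpa using this
      exact mem_of_torsion_two (FW_V W) 𝔄 h₁ h₂ h₃ h₄ h₆ h2 hm h hu
    · have hΔ' : (FW_V W).Δ ≠ 0 := by
        rw [K_Δ]
        exact_mod_cast hΔ
      have h2 : (2 : Qb)⁻¹ ∈ 𝔄 := by
        have := K_inv_mem 𝔄 hq h𝔄 (n := 2) (by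
          intro hd
          have : q ∣ 2 := by exact_mod_cast hd
          exact hq2 ((Nat.prime_dvd_prime_iff_eq hq Nat.prime_two).mp this))
        simpa using this
      have hm' : ((m : ℕ) : Qb)⁻¹ ∈ 𝔄 := by
        have := K_inv_mem 𝔄 hq h𝔄 (n := (m : ℤ)) (by exact_mod_cast hqm)
        simpa using this
      exact mem_of_torsion_odd (FW_V W) hΔ' 𝔄 h₁ h₂ h₃ h₄ h₆ h2 hm hm' h hu
  exact ⟨hx, K_y_mem W 𝔄 h hx⟩

end Fermat.Agent.S58Lib
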