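import Fermat.Agent.S58.Defs
import Fermat.Agent.S36.K0Defs

/-!
# S58, (IF): elementary facts on the inertia group
-/

set_option autoImplicit false

namespace Fermat.Agent.S58Lib

open WeierstrassCurve WeierstrassCurve.Affine Fermat.Agent.S40Lib

local notation "Qb" => AlgebraicClosure ℚ
local notation "GQ" => (AlgebraicClosure ℚ ≃ₐ[ℚ] AlgebraicClosure ℚ)

theorem IF_nonunits_add {K : Type*} [Field K] (A : ValuationSubring K) {a b : K}
    (ha : a ∈ A.nonunits) (hb : b ∈ A.nonunits) : a + b ∈ A.nonunits := by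
  rw [ValuationSubring.mem_nonunits_iff] at ha hb ⊢
  exact Valuation.map_add_lt _ ha hb

theorem IF_nonunits_mem {K : Type*} [Field K] (A : ValuationSubring K) {a : K}
    (ha : a ∈ A.nonunits) : a ∈ A := by
  rw [ValuationSubring.mem_nonunits_iff] at ha
  exact (A.valuation_le_one_iff _).mp ha.le

/-- (IF) `S58/InertiaFacts.lean` (cf. `frob_facts` in S52/Final, `S05/QbarOrd`) -/
theorem inertia_facts (𝔄 : ValuationSubring Qb) (σ : GQ) (hσ : σ ∈ 𝔄.inertiaSubgroupIn ℚ) :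
    σ ∈ 𝔄.decompositionSubgroup ℚ ∧ (∀ x : Qb, σ x ∈ 𝔄 ↔ x ∈ 𝔄) ∧
      (∀ x : Qb, σ x ∈ 𝔄.nonunits ↔ x ∈ 𝔄.nonunits) ∧ (∀ x ∈ 𝔄, σ x - x ∈ 𝔄.nonunits) := by
  have hinv : σ⁻¹ ∈ 𝔄.inertiaSubgroupIn ℚ := inv_mem hσ
  have key : ∀ τ ∈ 𝔄.inertiaSubgroupIn ℚ, ∀ x : Qb, x ∈ 𝔄.nonunits → τ x ∈ 𝔄.nonunits := by
    intro τ hτ x hx
    have h1 := (Fermat.Agent.S36Lib.inertia_mem hτ (IF_nonunits_mem 𝔄 hx)).2
    have h2 := IF_nonunits_add 𝔄 h1 hx
    rwa [sub_add_cancel] at h2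
  have hcancel : ∀ x : Qb, σ⁻¹ (σ x) = x := fun x => by
    rw [← AlgEquiv.mul_apply, inv_mul_cancel, AlgEquiv.one_apply]
  refine ⟨?_, ?_, ?_, ?_⟩
  · obtain ⟨s, -, rfl⟩ := hσ
    exact s.2
  · intro x
    constructor
    · intro hx
      have := (Fermat.Agent.S36Lib.inertia_mem hinv hx).1
      rwa [hcancel] at this
    · intro hx
      exact (Fermat.Agent.S36Lib.inertia_mem hσ hx).1
  · intro x
    constructor
    · intro hx
      have := key _ hinv _ hx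
      rwa [hcancel] at this
    · exact key _ hσ x
  · intro x hx
    exact (Fermat.Agent.S36Lib.inertia_mem hσ hx).2

end Fermat.Agent.S58Lib
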