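import Fermat.Agent.S58.Defs
import Fermat.Agent.S58.Col
import Fermat.Agent.S58.IntTors
import Fermat.Agent.S58.InertiaFacts

/-!
# S58, (C1): a torsion point with nonsingular reduction is fixed by inertia
-/

set_option autoImplicit false

namespace Fermat.Agent.S58Lib

open WeierstrassCurve WeierstrassCurve.Affine Fermat.Agent.S40Lib

local notation "Qb" => AlgebraicClosure ℚ
local notation "GQ" => (AlgebraicClosure ℚ ≃ₐ[ℚ] AlgebraicClosure ℚ)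

theorem C1_smul_some (W : WeierstrassCurve ℤ) (σ : GQ) {x y : Qb}
    (h : (FW_V W).toAffine.Nonsingular x y) :
    ∃ h' : (FW_V W).toAffine.Nonsingular (σ x) (σ y),
      σ • (Point.some x y h : EPt W) = Point.some _ _ h' := by
  rw [Point.algEquiv_smul_def, Point.map_some]
  exact ⟨_, rfl⟩

theorem C1_mul_nonunits {K : Type*} [Field K] (A : ValuationSubring K) {a b : K} (ha : a ∈ A)
    (hb : b ∈ A.nonunits) : a * b ∈ A.nonunits := by
  rw [ValuationSubring.mem_nonunits_iff] at hb ⊢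
  rw [map_mul]
  exact lt_of_le_of_lt (mul_le_of_le_one_left' ((A.valuation_le_one_iff _).mpr ha)) hb

theorem C1_neg_nonunits {K : Type*} [Field K] (A : ValuationSubring K) {a : K}
    (ha : a ∈ A.nonunits) : -a ∈ A.nonunits := by
  rw [ValuationSubring.mem_nonunits_iff] at ha ⊢
  rwa [Valuation.map_neg]

theorem C1_sub_nonunits {K : Type*} [Field K] (A : ValuationSubring K) {a b : K}
    (ha : a ∈ A.nonunits) (hb : b ∈ A.nonunits) : a - b ∈ A.nonunits := by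
  rw [sub_eq_add_neg]
  exact IF_nonunits_add A ha (C1_neg_nonunits A hb)

/-- (C1) `S58/Nonsing.lean`.  A torsion point with nonsingular reduction is fixed by inertia. -/
theorem smul_eq_of_nonsing (W : WeierstrassCurve ℤ) (hΔ : W.Δ ≠ 0) (𝔄 : ValuationSubring Qb)
    {q m : ℕ} (hq : q.Prime) (h𝔄 : 𝔄.LiesOverPrime q) (hm : Odd m) (hqm : ¬ q ∣ m)
    (σ : GQ) (hσ : σ ∈ 𝔄.inertiaSubgroupIn ℚ) {x y : Qb}
    (h : (FW_V W).toAffine.Nonsingular x y) (hu : m • (Point.some x y h : EPt W) = 0)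
    (hns : 2 * y + (W.a₁ : Qb) * x + (W.a₃ : Qb) ∉ 𝔄.nonunits ∨
      3 * x ^ 2 + 2 * (W.a₂ : Qb) * x + (W.a₄ : Qb) - (W.a₁ : Qb) * y ∉ 𝔄.nonunits) :
    σ • (Point.some x y h : EPt W) = Point.some x y h := by
  obtain ⟨-, hmem, -, hsub⟩ := inertia_facts 𝔄 σ hσ
  obtain ⟨hx, hy⟩ := mem_of_torsion W hΔ 𝔄 hq h𝔄 hm hqm h hu
  obtain ⟨h', hσP⟩ := C1_smul_some W σ h
  have hx' : σ x ∈ 𝔄 := (hmem x).mpr hx
  have hy' : σ y ∈ 𝔄 := (hmem y).mpr hy
  have hδx := hsub x hx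
  have hδy := hsub y hy
  have E := K_equation W h
  have E' := K_equation W h'
  set P : EPt W := Point.some x y h with hP
  have hmD : m • -(σ • P - P) = 0 := by
    have h1 : m • (σ • P) = 0 := by
      rw [smul_comm, hu]
      rfl
    rw [neg_nsmul, nsmul_sub, h1, hu, sub_self, neg_zero]
  rcases hQ : -(σ • P - P) with _ | ⟨x₃, y₃, h₃⟩
  · exact sub_eq_zero.mp (neg_eq_zero.1 hQ)
  exfalso
  rw [hQ] at hmD
  have hsum : Point.some _ _ h' + Point.some _ _ ((Affine.nonsingular_neg x y).mpr h) +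
      Point.some x₃ y₃ h₃ = 0 := by
    rw [← hQ, ← hσP, ← Point.neg_some h, ← hP]
    abel
  obtain ⟨l, n, e1, e2, -, s1, s2, -⟩ := col_nec (FW_V W) h' _ h₃ hsum
  rw [K_a₁, K_a₂] at s1
  rw [K_a₁, K_a₃, K_a₄] at s2
  rw [Affine.negY, K_a₁, K_a₃] at e2
  obtain ⟨hx₃, -⟩ := mem_of_torsion W hΔ 𝔄 hq h𝔄 hm hqm h₃ hmD
  have ha₁ : (W.a₁ : Qb) ∈ 𝔄 := intCast_mem 𝔄 _
  have ha₂ : (W.a₂ : Qb) ∈ 𝔄 := intCast_mem 𝔄 _
  have hl : l ∈ 𝔄 := by
    refine KO_quad_mem 𝔄 (a := (W.a₁ : Qb)) (b := -((W.a₂ : Qb) + σ x + x + x₃)) ha₁ ?_ ?_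
    · exact 𝔄.neg_mem _ (𝔄.add_mem _ _ (𝔄.add_mem _ _ (𝔄.add_mem _ _ ha₂ hx') hx) hx₃)
    · linear_combination -s1
  -- `N' = l δx`
  have hN' : σ y + y + (W.a₁ : Qb) * x + (W.a₃ : Qb) = l * (σ x - x) := by
    linear_combination e1 - e2
  have hN : 2 * y + (W.a₁ : Qb) * x + (W.a₃ : Qb) ∈ 𝔄.nonunits := by
    have e : 2 * y + (W.a₁ : Qb) * x + (W.a₃ : Qb) = l * (σ x - x) - (σ y - y) := by
      linear_combination hN'
    rw [e]
    exact C1_sub_nonunits 𝔄 (C1_mul_nonunits 𝔄 hl hδx) hδy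
  have hM : 3 * x ^ 2 + 2 * (W.a₂ : Qb) * x + (W.a₄ : Qb) - (W.a₁ : Qb) * y ∈ 𝔄.nonunits := by
    by_cases hδ : σ x = x
    · have e : 3 * x ^ 2 + 2 * (W.a₂ : Qb) * x + (W.a₄ : Qb) - (W.a₁ : Qb) * y
          = -(l + (W.a₁ : Qb)) * (2 * y + (W.a₁ : Qb) * x + (W.a₃ : Qb)) := by
        rw [hδ] at s1 s2
        have hn : n = -y - (W.a₁ : Qb) * x - (W.a₃ : Qb) - l * x := by linear_combination -e2
        have hx3 : x₃ = l ^ 2 + (W.a₁ : Qb) * l - (W.a₂ : Qb) - 2 * x := by linear_combination s1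
        rw [hn, hx3] at s2
        linear_combination -s2
      rw [e]
      exact C1_mul_nonunits 𝔄 (𝔄.neg_mem _ (𝔄.add_mem _ _ hl ha₁)) hN
    · have hδ0 : σ x - x ≠ 0 := sub_ne_zero.mpr hδ
      have hM' : (σ y - y) * l = σ x ^ 2 + σ x * x + x ^ 2 + (W.a₂ : Qb) * (σ x + x) + (W.a₄ : Qb)
          - (W.a₁ : Qb) * σ y := by
        apply mul_right_cancel₀ hδ0
        linear_combination E' - E - (σ y - y) * hN'
      have e : 3 * x ^ 2 + 2 * (W.a₂ : Qb) * x + (W.a₄ : Qb) - (W.a₁ : Qb) * y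
          = l * (σ y - y) - ((σ x + 2 * x + (W.a₂ : Qb)) * (σ x - x) - (W.a₁ : Qb) * (σ y - y)) := by
        linear_combination -hM'
      rw [e]
      refine C1_sub_nonunits 𝔄 (C1_mul_nonunits 𝔄 hl hδy) (C1_sub_nonunits 𝔄
        (C1_mul_nonunits 𝔄 ?_ hδx) (C1_mul_nonunits 𝔄 ha₁ hδy))
      exact 𝔄.add_mem _ _ (𝔄.add_mem _ _ hx' (𝔄.mul_mem _ _ (KO_ofNat_mem 𝔄 2) hx)) ha₂
  rcases hns with h1 | h1
  · exact h1 hN
  · exact h1 hM

end Fermat.Agent.S58Lib
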