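import Fermat.Agent.S58.Defs
import Fermat.Agent.S58.Col
import Fermat.Agent.S58.IntTors
import Fermat.Agent.S58.Nonsing
import Fermat.Agent.S58.CritNonsing

/-!
# S58, (FAR): torsion points close to the node (`ξ² / c` integral) are fixed by inertia
-/

set_option autoImplicit false

namespace Fermat.Agent.S58Lib

open WeierstrassCurve WeierstrassCurve.Affine Fermat.Agent.S40Lib

local notation "Qb" => AlgebraicClosure ℚ
local notation "GQ" => (AlgebraicClosure ℚ ≃ₐ[ℚ] AlgebraicClosure ℚ)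

/-- (FAR) `S58/Far.lean`.  `ξ²/c ∈ 𝔄`: `x(2P) - x₀ = (ξ⁴ - 8cξ - b₂'c)/(4ξ³ + b₂'ξ² + 4c)`, numerator `/c`
is a unit, denominator `/c` is integral: `x(2P) - x₀` is a unit by (K), so `2P` is fixed by (NS) + (C1),
and `P = ((m+1)/2) • 2P`. -/
theorem far_node (W : WeierstrassCurve ℤ) (hΔ : W.Δ ≠ 0) (𝔄 : ValuationSubring Qb)
    {q m : ℕ} (hq : q.Prime) (h𝔄 : 𝔄.LiesOverPrime q) (hm : Odd m) (hqm : ¬ q ∣ m)
    {x₀ y₀ c : Qb} (hC : CritData W 𝔄 x₀ y₀ c)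
    (σ : GQ) (hσ : σ ∈ 𝔄.inertiaSubgroupIn ℚ) {x y : Qb}
    (h : (FW_V W).toAffine.Nonsingular x y) (hu : m • (Point.some x y h : EPt W) = 0)
    (hfar : (x - x₀) ^ 2 / c ∈ 𝔄) :
    σ • (Point.some x y h : EPt W) = Point.some x y h := by
  obtain ⟨k, hk⟩ := hm
  set P : EPt W := Point.some x y h with hP
  have hP0 : P ≠ 0 := by rw [hP]; exact Point.some_ne_zero _
  have hkP : (k + 1) • (P + P) = P := by
    have : (k + 1) • (P + P) = m • P + P := by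
      rw [← two_smul ℕ P, ← mul_smul, ← succ_nsmul, hk]
      congr 1
      ring
    rw [this, hu, zero_add]
  rcases hQ : -(P + P) with _ | ⟨x₃, y₃, h₃⟩
  · exfalso
    apply hP0
    have h0 : P + P = 0 := neg_eq_zero.1 hQ
    rw [← hkP, h0, nsmul_zero]
  have hsum : P + P + Point.some x₃ y₃ h₃ = 0 := by rw [← hQ, add_neg_cancel]
  have hm3 : m • (Point.some x₃ y₃ h₃ : EPt W) = 0 := by
    rw [← hQ, neg_nsmul, nsmul_add, hu, add_zero, neg_zero]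
  obtain ⟨l, n, e1, -, -, s1, s2, -⟩ := col_nec (FW_V W) h h h₃ hsum
  rw [NS_a₁, NS_a₂] at s1
  rw [NS_a₁, NS_a₃, NS_a₄] at s2
  have hloc := NS_local W hC h
  have c₁ := hC.e₁
  have c₂ := hC.e₂
  have hb2 := NS_b₂ W
  obtain ⟨hx₃, hy₃⟩ := mem_of_torsion W hΔ 𝔄 hq h𝔄 ⟨k, hk⟩ hqm h₃ hm3
  set ξ := x - x₀ with hξdef
  set η := y - y₀ with hηdef
  set B := (W.b₂ : Qb) + 12 * x₀ with hB
  set t := ξ ^ 2 / c with ht
  have hc0 := hC.hc0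
  have htc : ξ ^ 2 = t * c := by rw [ht]; field_simp
  have hξm : ξ ∈ 𝔄.nonunits := by
    apply L2_nonunits_of_pow 𝔄 (n := 2)
    rw [htc]
    exact L2_nonunits_mul 𝔄 hfar hC.hcm
  have hξA := NS_nu_mem hξm
  have hBA : B ∈ 𝔄 :=
    𝔄.add_mem _ _ (NS_int_mem 𝔄 _) (𝔄.mul_mem _ _ (NS_ofNat_mem 𝔄 12) hC.hx)
  -- the slope
  have hx : x = ξ + x₀ := by rw [hξdef]; ring
  have hy : y = η + y₀ := by rw [hηdef]; ring
  have hMN : l * (2 * η + (W.a₁ : Qb) * ξ) =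
      3 * ξ ^ 2 + 2 * ((W.a₂ : Qb) + 3 * x₀) * ξ - (W.a₁ : Qb) * η := by
    have hn : n = y - l * x := by rw [e1]; ring
    rw [hn] at s2
    have hx3 : x₃ = l ^ 2 + (W.a₁ : Qb) * l - (W.a₂ : Qb) - x - x := by linear_combination s1
    rw [hx3, hx, hy] at s2
    linear_combination s2 - l * c₁ + c₂
  have hden : (2 * η + (W.a₁ : Qb) * ξ) ^ 2 = c * (4 * ξ * t + B * t + 4) := by
    have : c * (4 * ξ * t + B * t + 4) = 4 * ξ * (t * c) + B * (t * c) + 4 * c := by ring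
    rw [this, ← htc, hB, hb2]
    linear_combination 4 * hloc
  have hnum : (2 * η + (W.a₁ : Qb) * ξ) ^ 2 * (x₃ - x₀) = c * (ξ ^ 2 * t - 8 * ξ - B) := by
    have hx3 : x₃ - x₀ = l ^ 2 + (W.a₁ : Qb) * l - ((W.a₂ : Qb) + 3 * x₀) - 2 * ξ := by
      rw [hξdef]; linear_combination s1
    have : c * (ξ ^ 2 * t - 8 * ξ - B) = ξ ^ 2 * (t * c) - 8 * c * ξ - B * c := by ring
    rw [this, ← htc, hx3, hB, hb2]
    have h5 : (2 * η + (W.a₁ : Qb) * ξ) ^ 2 *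
        (l ^ 2 + (W.a₁ : Qb) * l - ((W.a₂ : Qb) + 3 * x₀) - 2 * ξ) =
        (l * (2 * η + (W.a₁ : Qb) * ξ)) ^ 2 +
          (W.a₁ : Qb) * (l * (2 * η + (W.a₁ : Qb) * ξ)) * (2 * η + (W.a₁ : Qb) * ξ) -
          (((W.a₂ : Qb) + 3 * x₀) + 2 * ξ) * (2 * η + (W.a₁ : Qb) * ξ) ^ 2 := by ring
    rw [h5, hMN]
    linear_combination (-4 * ((W.a₂ : Qb) + 3 * x₀) - (W.a₁ : Qb) ^ 2 - 8 * ξ) * hloc
  have hrel : (4 * ξ * t + B * t + 4) * (x₃ - x₀) = ξ ^ 2 * t - 8 * ξ - B := by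
    rw [hden, mul_assoc] at hnum
    exact mul_left_cancel₀ hc0 hnum
  have hξ₃ : x₃ - x₀ ∉ 𝔄.nonunits := by
    intro h3
    apply NS_b₂'_unit W hC
    have e : (W.b₂ : Qb) + 12 * x₀ =
        (ξ * t - 8) * ξ - (4 * ξ * t + B * t + 4) * (x₃ - x₀) := by
      rw [hrel]; ring
    rw [e]
    refine NS_nu_sub (L2_nonunits_mul 𝔄 (𝔄.sub_mem (𝔄.mul_mem _ _ hξA hfar) (NS_ofNat_mem 𝔄 8)) hξm)
      (L2_nonunits_mul 𝔄 ?_ h3)
    exact 𝔄.add_mem _ _ (𝔄.add_mem _ _ (𝔄.mul_mem _ _ (𝔄.mul_mem _ _ (NS_ofNat_mem 𝔄 4) hξA) hfar)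
      (𝔄.mul_mem _ _ hBA hfar)) (NS_ofNat_mem 𝔄 4)
  have hfix := smul_eq_of_nonsing W hΔ 𝔄 hq h𝔄 ⟨k, hk⟩ hqm σ hσ h₃ hm3
    (nonsing_of_unit W 𝔄 hC h₃ hx₃ hy₃ hξ₃)
  have hPQ : P = -((k + 1) • (Point.some x₃ y₃ h₃ : EPt W)) := by
    rw [← hQ, neg_nsmul, neg_neg, hkP]
  rw [hPQ, smul_neg, smul_comm, hfix]

end Fermat.Agent.S58Lib
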