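import Fermat.Agent.S58.Nonsing

/-!
# S58, (IG): inertia acts trivially on the torsion at a prime of good reduction
-/

set_option autoImplicit false

namespace Fermat.Agent.S58Lib

open WeierstrassCurve WeierstrassCurve.Affine Fermat.Agent.S40Lib

local notation "Qb" => AlgebraicClosure ℚ
local notation "GQ" => (AlgebraicClosure ℚ ≃ₐ[ℚ] AlgebraicClosure ℚ)

theorem IG_residue_eq_zero (𝔄 : ValuationSubring Qb) {a : Qb} (ha : a ∈ 𝔄)
    (h : a ∈ 𝔄.nonunits) : IsLocalRing.residue 𝔄 ⟨a, ha⟩ = 0 := by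
  rw [IsLocalRing.residue_eq_zero_iff, 𝔄.valuation_lt_one_iff]
  exact (ValuationSubring.mem_nonunits_iff 𝔄).mp h

/-- (IG) `S58/InertiaGood.lean`.  Good reduction: reduce the equation to the residue field,
`equation_iff_nonsingular_of_Δ_ne_zero`, then (C1). -/
theorem inertia_fix_good (W : WeierstrassCurve ℤ) (𝔄 : ValuationSubring Qb)
    {q m : ℕ} (hq : q.Prime) (h𝔄 : 𝔄.LiesOverPrime q) (hgood : ¬ (q : ℤ) ∣ W.Δ) (hm : Odd m)
    (hqm : ¬ q ∣ m) (σ : GQ) (hσ : σ ∈ 𝔄.inertiaSubgroupIn ℚ) (u : EPt W) (hu : m • u = 0) :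
    σ • u = u := by
  have hΔ : W.Δ ≠ 0 := by
    intro h0
    apply hgood
    rw [h0]
    exact dvd_zero _
  rcases u with _ | ⟨x, y, h⟩
  · rfl
  obtain ⟨hx, hy⟩ := mem_of_torsion W hΔ 𝔄 hq h𝔄 hm hqm h hu
  apply smul_eq_of_nonsing W hΔ 𝔄 hq h𝔄 hm hqm σ hσ h hu
  by_contra hcon
  rw [not_or, not_not, not_not] at hcon
  obtain ⟨hN, hM⟩ := hcon
  set κ := IsLocalRing.ResidueField 𝔄
  set π : 𝔄 →+* κ := IsLocalRing.residue 𝔄 with hπ
  set X : 𝔄 := ⟨x, hx⟩ with hX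
  set Y : 𝔄 := ⟨y, hy⟩ with hY
  have E : Y ^ 2 + (W.a₁ : 𝔄) * X * Y + (W.a₃ : 𝔄) * Y
      = X ^ 3 + (W.a₂ : 𝔄) * X ^ 2 + (W.a₄ : 𝔄) * X + (W.a₆ : 𝔄) := by
    apply Subtype.ext
    push_cast
    exact K_equation W h
  have Eκ := congrArg π E
  simp only [map_add, map_mul, map_pow, map_intCast] at Eκ
  have hNκ : 2 * π Y + (W.a₁ : κ) * π X + (W.a₃ : κ) = 0 := by
    have h1 : π (2 * Y + (W.a₁ : 𝔄) * X + (W.a₃ : 𝔄)) = 0 := by
      have := IG_residue_eq_zero 𝔄 (IF_nonunits_mem 𝔄 hN) hN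
      rw [← this]
      congr 1
    simpa only [map_add, map_mul, map_intCast, map_ofNat] using h1
  have hMκ : 3 * π X ^ 2 + 2 * (W.a₂ : κ) * π X + (W.a₄ : κ) - (W.a₁ : κ) * π Y = 0 := by
    have h1 : π (3 * X ^ 2 + 2 * (W.a₂ : 𝔄) * X + (W.a₄ : 𝔄) - (W.a₁ : 𝔄) * Y) = 0 := by
      have := IG_residue_eq_zero 𝔄 (IF_nonunits_mem 𝔄 hM) hM
      rw [← this]
      congr 1
    simpa only [map_add, map_sub, map_mul, map_pow, map_intCast, map_ofNat] using h1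
  have hΔκ : (W.map (Int.castRingHom κ)).Δ ≠ 0 := by
    rw [WeierstrassCurve.map_Δ, eq_intCast]
    intro h0
    have h1 : π (W.Δ : 𝔄) = 0 := by rw [map_intCast]; exact h0
    rw [hπ, IsLocalRing.residue_eq_zero_iff, 𝔄.valuation_lt_one_iff] at h1
    have h2 := Fermat.Agent.S05Lib.val_int_eq_one hq h𝔄 hgood
    push_cast at h1
    rw [h2] at h1
    exact lt_irrefl _ h1
  have hEq : (W.map (Int.castRingHom κ)).toAffine.Equation (π X) (π Y) := by
    rw [Affine.equation_iff]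
    simp only [WeierstrassCurve.map_a₁, WeierstrassCurve.map_a₂, WeierstrassCurve.map_a₃,
      WeierstrassCurve.map_a₄, WeierstrassCurve.map_a₆, eq_intCast]
    exact Eκ
  have hNS := (Affine.equation_iff_nonsingular_of_Δ_ne_zero hΔκ).mp hEq
  rw [Affine.nonsingular_iff'] at hNS
  simp only [WeierstrassCurve.map_a₁, WeierstrassCurve.map_a₂, WeierstrassCurve.map_a₃,
      WeierstrassCurve.map_a₄, eq_intCast] at hNS
  rcases hNS.2 with h1 | h1
  · apply h1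
    linear_combination -hMκ
  · exact h1 hNκ

end Fermat.Agent.S58Lib
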