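import Fermat.Agent.S58.Defs
import Fermat.Agent.S58.Col
import Fermat.Agent.S58.IntTors
import Fermat.Agent.S58.Nonsing
import Fermat.Agent.S58.CritNonsing
import Fermat.Agent.S40.TR1

/-!
# S58, (NEAR): torsion points not too close to the node (`c / ξ²` in the maximal ideal)
-/

set_option autoImplicit false

namespace Fermat.Agent.S58Lib

open WeierstrassCurve WeierstrassCurve.Affine Fermat.Agent.S40Lib

local notation "Qb" => AlgebraicClosure ℚ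
local notation "GQ" => (AlgebraicClosure ℚ ≃ₐ[ℚ] AlgebraicClosure ℚ)

theorem NEAR_inv_nu (𝔄 : ValuationSubring Qb) {x : Qb} (hx : x ∉ 𝔄) : x⁻¹ ∈ 𝔄.nonunits := by
  rw [L1_not_mem_iff] at hx
  rw [ValuationSubring.mem_nonunits_iff, map_inv₀]
  exact inv_lt_one_of_one_lt₀ hx

theorem NEAR_inv_mem (𝔄 : ValuationSubring Qb) {x : Qb} (hx : x ∉ 𝔄.nonunits) : x⁻¹ ∈ 𝔄 := by
  rw [ValuationSubring.mem_nonunits_iff, not_lt] at hx
  rw [← 𝔄.valuation_le_one_iff, map_inv₀]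
  exact inv_le_one_of_one_le₀ hx

theorem NEAR_unit_mul (𝔄 : ValuationSubring Qb) {x y : Qb} (hx : x ∉ 𝔄.nonunits)
    (hy : y ∉ 𝔄.nonunits) : x * y ∉ 𝔄.nonunits := fun h =>
  (L2_nonunits_of_mul 𝔄 h).elim hx hy

theorem NEAR_unit_add (𝔄 : ValuationSubring Qb) {x y : Qb} (hx : x ∉ 𝔄.nonunits)
    (hy : y ∈ 𝔄.nonunits) : x + y ∉ 𝔄.nonunits := by
  intro h
  apply hx
  have e : x = (x + y) - y := by ring
  rw [e]
  exact NS_nu_sub h hy

/-- a root of a monic quadratic polynomial with integral coefficients is integral -/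
theorem NEAR_quad_mem (𝔄 : ValuationSubring Qb) {s a r : Qb} (ha : a ∈ 𝔄) (hr : r ∈ 𝔄)
    (h : s ^ 2 + a * s = r) : s ∈ 𝔄 := by
  by_contra hs
  have hs0 : s ≠ 0 := by
    rintro rfl
    exact hs 𝔄.zero_mem
  have hinv := NEAR_inv_nu 𝔄 hs
  apply L3_one_not_mem 𝔄
  have e : (1 : Qb) = (r * s⁻¹ - a) * s⁻¹ := by
    rw [← h]
    field_simp
    ring
  rw [e]
  exact L2_nonunits_mul 𝔄 (𝔄.sub_mem (𝔄.mul_mem _ _ hr (NS_nu_mem hinv)) ha) hinv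

theorem NEAR_smul_some (W : WeierstrassCurve ℤ) (σ : GQ) {x y : Qb}
    (h : (FW_V W).toAffine.Nonsingular x y) :
    ∃ h' : (FW_V W).toAffine.Nonsingular (σ x) (σ y),
      σ • (Point.some x y h : EPt W) = Point.some _ _ h' := by
  rw [Point.algEquiv_smul_def, Point.map_some]
  exact ⟨_, rfl⟩

/-- (NEAR) `S58/Near.lean`.  `ξ = x - x₀ ∈ 𝔪`, `c/ξ² ∈ 𝔪`.  `s = η/ξ` is integral,
`s² + a₁s - a₂' = ξ + c/ξ²`, `2s + a₁` is a unit, `u = σs + s + a₁` is a unit.  If `σξ = ξ` then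
`σP = P`.  Otherwise `δ = σξ - ξ`, `δ/ξ ∈ 𝔄`, the slope of `σP - P` is `λ = σs + uξ/δ`;
if `δ/ξ ∈ 𝔪` then `x(σP - P) ∉ 𝔄`: contradiction with (K); if `δ/ξ` is a unit then
`x(σP - P) - x₀ = e (2σs + a₁ + e) + σ(c/ξ²) - ξ`, `e = uξ/δ`, is a unit: (NS) + (C1).
(Same computation as `near_node` in `S13/TwoInertia.lean`.) -/
theorem near_node (W : WeierstrassCurve ℤ) (hΔ : W.Δ ≠ 0) (𝔄 : ValuationSubring Qb)
    {q m : ℕ} (hq : q.Prime) (h𝔄 : 𝔄.LiesOverPrime q) (hm : Odd m) (hqm : ¬ q ∣ m)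
    {x₀ y₀ c : Qb} (hC : CritData W 𝔄 x₀ y₀ c)
    (σ : GQ) (hσ : σ ∈ 𝔄.inertiaSubgroupIn ℚ) {x y : Qb}
    (h : (FW_V W).toAffine.Nonsingular x y) (hu : m • (Point.some x y h : EPt W) = 0)
    (hξ : x - x₀ ∈ 𝔄.nonunits) (hξ0 : x - x₀ ≠ 0) (hnear : c / (x - x₀) ^ 2 ∈ 𝔄.nonunits) :
    σ • (σ • (Point.some x y h : EPt W) - Point.some x y h)
      = σ • (Point.some x y h : EPt W) - Point.some x y h := by
  have hdec : σ ∈ 𝔄.decompositionSubgroup ℚ := by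
    obtain ⟨s, -, rfl⟩ := hσ
    exact s.2
  obtain ⟨hσx₀, hσy₀⟩ := hC.fix σ hdec
  have hσc : σ c = c := by
    rw [hC.hc]
    simp only [map_sub, map_add, map_mul, map_pow, hσx₀, hσy₀, map_intCast]
  have hσnu : ∀ {a : Qb}, a ∈ 𝔄.nonunits → σ a ∈ 𝔄.nonunits := by
    intro a ha
    rw [ValuationSubring.mem_nonunits_iff] at *
    rwa [val_inertia 𝔄 hσ]
  obtain ⟨h', hσP⟩ := NEAR_smul_some W σ h
  have hloc := NS_local W hC h
  have hloc' := NS_local W hC h'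
  have c₁ := hC.e₁
  have hb2 := NS_b₂ W
  have hξσ : σ x - x₀ = σ (x - x₀) := by rw [map_sub, hσx₀]
  have hησ : σ y - y₀ = σ (y - y₀) := by rw [map_sub, hσy₀]
  set ξ := x - x₀ with hξdef
  set η := y - y₀ with hηdef
  set ξ' := σ x - x₀ with hξ'def
  set η' := σ y - y₀ with hη'def
  set A2 := (W.a₂ : Qb) + 3 * x₀ with hA2
  set κ := c / ξ ^ 2 with hκ
  have hξ'0 : ξ' ≠ 0 := by rw [hξσ]; exact (map_ne_zero σ).2 hξ0
  have hξ' : ξ' ∈ 𝔄.nonunits := by rw [hξσ]; exact hσnu hξ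
  have hκσ : c / ξ' ^ 2 = σ κ := by rw [hκ, map_div₀, map_pow, hσc, hξσ]
  set κ' := c / ξ' ^ 2 with hκ'
  have hκ'm : κ' ∈ 𝔄.nonunits := by rw [hκσ]; exact hσnu hnear
  have hsσ : η' / ξ' = σ (η / ξ) := by rw [map_div₀, hξσ, hησ]
  set s := η / ξ with hs
  set s' := η' / ξ' with hs'
  have hη : η = s * ξ := by rw [hs]; field_simp
  have hη' : η' = s' * ξ' := by rw [hs']; field_simp
  have ha₁ : (W.a₁ : Qb) ∈ 𝔄 := NS_int_mem 𝔄 _
  have hA2m : A2 ∈ 𝔄 := 𝔄.add_mem _ _ (NS_int_mem 𝔄 _) (𝔄.mul_mem _ _ (NS_ofNat_mem 𝔄 3) hC.hx)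
  have hq1 : s ^ 2 + (W.a₁ : Qb) * s = ξ + A2 + κ := by
    rw [hs, hκ]
    field_simp
    linear_combination hloc
  have hq2 : s' ^ 2 + (W.a₁ : Qb) * s' = ξ' + A2 + κ' := by
    rw [hs', hκ']
    field_simp
    linear_combination hloc'
  have hsA : s ∈ 𝔄 := NEAR_quad_mem 𝔄 ha₁
    (𝔄.add_mem _ _ (𝔄.add_mem _ _ (NS_nu_mem hξ) hA2m) (NS_nu_mem hnear)) hq1
  have hs'A : s' ∈ 𝔄 := by rw [hsσ]; exact (Fermat.Agent.S36Lib.inertia_mem hσ hsA).1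
  have hd : s' - s ∈ 𝔄.nonunits := by rw [hsσ]; exact (Fermat.Agent.S36Lib.inertia_mem hσ hsA).2
  have h2s : 2 * s + (W.a₁ : Qb) ∉ 𝔄.nonunits := by
    intro h2
    apply NS_b₂'_unit W hC
    have e : (W.b₂ : Qb) + 12 * x₀ =
        (2 * s + (W.a₁ : Qb)) * (2 * s + (W.a₁ : Qb)) - 4 * (ξ + κ) := by
      rw [hb2]
      linear_combination (-4 : Qb) * hq1
    rw [e]
    exact NS_nu_sub (L2_nonunits_mul 𝔄 (NS_nu_mem h2) h2)
      (L2_nonunits_mul 𝔄 (NS_ofNat_mem 𝔄 4) (L2_nonunits_add 𝔄 hξ hnear))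
  set u := s' + s + (W.a₁ : Qb) with hudef
  have huu : u ∉ 𝔄.nonunits := by
    have e : u = (2 * s + (W.a₁ : Qb)) + (s' - s) := by rw [hudef]; ring
    rw [e]
    exact NEAR_unit_add 𝔄 h2s hd
  have hu0 : u ≠ 0 := by
    intro h0
    apply huu
    rw [h0]
    exact L2_zero_mem_nonunits 𝔄
  by_cases hδ : ξ' = ξ
  · -- `σ P = P`
    have hκκ : κ' = κ := by rw [hκ', hκ, hδ]
    have h1 : (s' - s) * u = 0 := by
      rw [hudef]
      linear_combination hq2 - hq1 + hδ + hκκ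
    have hss : s' = s := sub_eq_zero.1 ((mul_eq_zero.1 h1).resolve_right hu0)
    have hηη : η' = η := by rw [hη, hη', hss, hδ]
    have hxx : σ x = x := by
      have : σ x - x₀ = x - x₀ := hδ
      linear_combination this
    have hyy : σ y = y := by
      have : σ y - y₀ = y - y₀ := hηη
      linear_combination this
    have hPP : σ • (Point.some x y h : EPt W) = Point.some x y h := by
      rw [hσP, Point.some.injEq]
      exact ⟨hxx, hyy⟩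
    rw [hPP, sub_self, smul_zero]
  -- the difference
  set P : EPt W := Point.some x y h with hP
  have hmD : m • -(σ • P - P) = 0 := by
    have h1 : m • (σ • P) = 0 := by
      rw [smul_comm, hu]
      rfl
    rw [neg_nsmul, nsmul_sub, h1, hu, sub_self, neg_zero]
  rcases hQ : -(σ • P - P) with _ | ⟨x₃, y₃, h₃⟩
  · have h0 : σ • P - P = 0 := neg_eq_zero.1 hQ
    rw [h0]
    rfl
  rw [hQ] at hmD
  have hsum : Point.some _ _ h' + Point.some _ _ ((Affine.nonsingular_neg x y).mpr h) +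
      Point.some x₃ y₃ h₃ = 0 := by
    rw [← hQ, ← hσP, ← Point.neg_some h, ← hP]
    abel
  obtain ⟨l, n, e1, e2, -, s1, -, -⟩ := col_nec (FW_V W) h' _ h₃ hsum
  rw [NS_a₁, NS_a₂] at s1
  rw [Affine.negY, NS_a₁, NS_a₃] at e2
  obtain ⟨hx₃, hy₃⟩ := mem_of_torsion W hΔ 𝔄 hq h𝔄 hm hqm h₃ hmD
  set δ := ξ' - ξ with hδdef
  have hδ0 : δ ≠ 0 := sub_ne_zero.2 hδ
  set e := u * ξ / δ with hedef
  have heδ : e * δ = u * ξ := by rw [hedef]; field_simp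
  have hl : l = s' + e := by
    have h1 : l * δ = (s' + e) * δ := by
      rw [add_mul, heδ, hudef, hδdef]
      have hx' : σ x = ξ' + x₀ := by rw [hξ'def]; ring
      have hx : x = ξ + x₀ := by rw [hξdef]; ring
      have hy' : σ y = s' * ξ' + y₀ := by rw [← hη', hη'def]; ring
      have hy : y = s * ξ + y₀ := by rw [← hη, hηdef]; ring
      rw [hx', hy'] at e1
      rw [hx, hy] at e2
      linear_combination e2 - e1 + c₁
    exact mul_right_cancel₀ hδ0 h1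
  have hx3 : x₃ - x₀ = e * (2 * s' + (W.a₁ : Qb) + e) + κ' - ξ := by
    have : x₃ - x₀ = l ^ 2 + (W.a₁ : Qb) * l - A2 - ξ' - ξ := by
      rw [hξ'def, hξdef, hA2]
      linear_combination s1
    rw [this, hl]
    linear_combination hq2
  have hξ₃A : x₃ - x₀ ∈ 𝔄 := 𝔄.sub_mem hx₃ hC.hx
  have heA : e ∈ 𝔄 := by
    refine NEAR_quad_mem 𝔄 (a := 2 * s' + (W.a₁ : Qb)) (r := (x₃ - x₀) - κ' + ξ)
      (𝔄.add_mem _ _ (𝔄.mul_mem _ _ (NS_ofNat_mem 𝔄 2) hs'A) ha₁)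
      (𝔄.add_mem _ _ (𝔄.sub_mem hξ₃A (NS_nu_mem hκ'm)) (NS_nu_mem hξ)) ?_
    rw [hx3]
    ring
  -- `ρ = σξ / ξ` is a unit
  set ρ := ξ' / ξ with hρ
  have hρv : 𝔄.valuation ρ = 1 := by
    rw [hρ, map_div₀, hξσ, val_inertia 𝔄 hσ]
    exact div_self ((Valuation.ne_zero_iff _).2 hξ0)
  have hρA : ρ ∈ 𝔄 := (𝔄.valuation_le_one_iff _).1 hρv.le
  have hρu : ρ ∉ 𝔄.nonunits := by
    rw [ValuationSubring.mem_nonunits_iff, hρv]
    exact lt_irrefl _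
  have heu : e ∉ 𝔄.nonunits := by
    intro he
    apply L3_one_not_mem 𝔄
    have e' : (1 : Qb) = ((ρ - 1) * u⁻¹) * e := by
      rw [hedef, hρ, hδdef]
      have : ξ' - ξ ≠ 0 := hδ0
      field_simp
    rw [e']
    exact L2_nonunits_mul 𝔄 (𝔄.mul_mem _ _ (𝔄.sub_mem hρA 𝔄.one_mem) (NEAR_inv_mem 𝔄 huu)) he
  have hfac : 2 * s' + (W.a₁ : Qb) + e = e * ρ + (s' - s) := by
    have : e * ρ = u + e := by
      rw [hedef, hρ, hδdef]
      have : ξ' - ξ ≠ 0 := hδ0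
      field_simp
      ring
    rw [this, hudef]
    ring
  have hξ₃ : x₃ - x₀ ∉ 𝔄.nonunits := by
    have e' : x₃ - x₀ = e * (e * ρ + (s' - s)) + (κ' - ξ) := by rw [hx3, hfac]; ring
    rw [e']
    exact NEAR_unit_add 𝔄 (NEAR_unit_mul 𝔄 heu (NEAR_unit_add 𝔄 (NEAR_unit_mul 𝔄 heu hρu) hd))
      (NS_nu_sub hκ'm hξ)
  have hfix := smul_eq_of_nonsing W hΔ 𝔄 hq h𝔄 hm hqm σ hσ h₃ hmD
    (nonsing_of_unit W 𝔄 hC h₃ hx₃ hy₃ hξ₃)
  have hD : σ • P - P = -(Point.some x₃ y₃ h₃ : EPt W) := by rw [← hQ, neg_neg]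
  rw [hD, smul_neg, hfix]

end Fermat.Agent.S58Lib
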