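import Fermat.Agent.S58.Crit
import Fermat.Agent.S58.CritNonsing
import Fermat.Agent.S58.IntTors
import Fermat.Agent.S58.Nonsing
import Fermat.Agent.S58.InertiaGood
import Fermat.Agent.S58.Near
import Fermat.Agent.S58.Far

set_option autoImplicit false

namespace Fermat.Agent.S58Lib

open WeierstrassCurve WeierstrassCurve.Affine Fermat.Agent.S40Lib

local notation "Qb" => AlgebraicClosure ℚ
local notation "GQ" => (AlgebraicClosure ℚ ≃ₐ[ℚ] AlgebraicClosure ℚ)

/-- (E4) `S58/InertiaSq.lean` -/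
theorem inertia_sq (W : WeierstrassCurve ℤ) (hΔ : W.Δ ≠ 0) (hss : W.IsSemistableModel)
    {q m : ℕ} (hq : q.Prime) (hm : Odd m) (hqm : ¬ q ∣ m) (𝔄 : ValuationSubring Qb)
    (h𝔄 : 𝔄.LiesOverPrime q) (σ : GQ) (hσ : σ ∈ 𝔄.inertiaSubgroupIn ℚ) (u : EPt W)
    (hu : m • u = 0) : σ • (σ • u - u) = σ • u - u := by
  by_cases hgood : (q : ℤ) ∣ W.Δ
  · obtain ⟨x₀, y₀, c, hC⟩ := exists_crit W hΔ 𝔄 hq h𝔄 hgood (hss q hq hgood)
    have hfix : σ • u = u → σ • (σ • u - u) = σ • u - u := by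
      intro h'
      rw [h', sub_self, smul_zero]
    rcases u with _ | ⟨x, y, h⟩
    · exact hfix rfl
    · obtain ⟨hx, hy⟩ := mem_of_torsion W hΔ 𝔄 hq h𝔄 hm hqm h hu
      by_cases hξ : x - x₀ ∈ 𝔄.nonunits
      · by_cases hfar : (x - x₀) ^ 2 / c ∈ 𝔄
        · exact hfix (far_node W hΔ 𝔄 hq h𝔄 hm hqm hC σ hσ h hu hfar)
        · have hξ0 : x - x₀ ≠ 0 := by
            intro h0
            apply hfar
            rw [h0]
            simp
          refine near_node W hΔ 𝔄 hq h𝔄 hm hqm hC σ hσ h hu hξ hξ0 ?_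
          rw [ValuationSubring.mem_nonunits_iff, ← not_le]
          intro hle
          apply hfar
          rw [← ValuationSubring.valuation_le_one_iff]
          have e : (x - x₀) ^ 2 / c = (c / (x - x₀) ^ 2)⁻¹ := by rw [inv_div]
          rw [e, map_inv₀]
          exact inv_le_one_of_one_le₀ hle
      · exact hfix (smul_eq_of_nonsing W hΔ 𝔄 hq h𝔄 hm hqm σ hσ h hu
          (nonsing_of_unit W 𝔄 hC h hx hy hξ))
  · rw [inertia_fix_good W 𝔄 hq h𝔄 hgood hm hqm σ hσ u hu, sub_self, smul_zero]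

end Fermat.Agent.S58Lib
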