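import Fermat.Agent.S58.Rho
import Fermat.Agent.S58.Cmp
import Fermat.Agent.S58.CoeffEq
import Fermat.Agent.S58.InertiaSq

/-!
# S58, modular side, leaf (ST36): no prime `q` with `q² ‖ M`
-/

set_option autoImplicit false
set_option synthInstance.maxHeartbeats 400000
set_option linter.unusedVariables false

namespace Fermat.Agent.S58Lib

open WeierstrassCurve WeierstrassCurve.Affine Fermat.Agent.S40Lib Polynomial CuspForm
open ModularFormClass CongruenceSubgroup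
open Fermat.Agent.S31Lib (newton)

local notation "Qb" => AlgebraicClosure ℚ
local notation "GQ" => (AlgebraicClosure ℚ ≃ₐ[ℚ] AlgebraicClosure ℚ)

/-- Krull intersection in the form we use -/
theorem ST36_eq_of_forall_mem {O : Type} [CommRing O] [IsDomain O] [IsDiscreteValuationRing O]
    (x y : O) (h : ∀ n : ℕ, x - y ∈ IsLocalRing.maximalIdeal O ^ n) : x = y := by
  have h1 : x - y ∈ (⨅ n : ℕ, IsLocalRing.maximalIdeal O ^ n) := by
    rw [Ideal.mem_iInf]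
    exact h
  rw [Ideal.iInf_pow_eq_bot_of_isLocalRing _ (IsLocalRing.maximalIdeal.isMaximal O).ne_top,
    Ideal.mem_bot, sub_eq_zero] at h1
  exact h1

/-- an integer divisible by `lam ^ n` lies in `𝔪 ^ n` -/
theorem ST36_cast_mem {O : Type} [CommRing O] [IsLocalRing O] {lam : ℕ}
    (hO : (lam : O) ∈ IsLocalRing.maximalIdeal O) (n : ℕ) (z : ℤ) (hz : ((lam ^ n : ℕ) : ℤ) ∣ z) :
    (z : O) ∈ IsLocalRing.maximalIdeal O ^ n := by
  obtain ⟨e, rfl⟩ := hz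
  push_cast
  exact Ideal.mul_mem_right _ _ (Ideal.pow_mem_pow hO n)

/-- (ST36) -/
theorem factorization_ne_two (W : WeierstrassCurve ℤ) (hΔ : W.Δ ≠ 0) (hss : W.IsSemistableModel)
    {M N : ℕ} [NeZero M] (hN0 : N ≠ 0) (hMN : M ∣ N) {g : CuspForm (Gamma0 M) 2} (hg : g.IsNewform)
    (hbad : ∀ ℓ : ℕ, ℓ.Prime → (ℓ : ℤ) ∣ W.Δ → ℓ ∣ N)
    (hga : ∀ ℓ : ℕ, ℓ.Prime → ¬ ℓ ∣ N → qCoeff g ℓ = (W.apOfModel ℓ : ℂ))
    {q : ℕ} (hq : q.Prime) : M.factorization q ≠ 2 := by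
  classical
  intro hfac
  obtain ⟨lam, hlam, hlam2, hqlam⟩ : ∃ lam : ℕ, lam.Prime ∧ lam ≠ 2 ∧ q ≠ lam := by
    by_cases h3 : q = 3
    · exact ⟨5, by norm_num, by norm_num, by omega⟩
    · exact ⟨3, by norm_num, by norm_num, h3⟩
  haveI : Fact lam.Prime := ⟨hlam⟩
  set S : Finset ℕ := N.primeFactors ∪ {lam} with hS
  have hlamS : lam ∈ S := by simp [hS]
  have hNS : ∀ ℓ : ℕ, ℓ.Prime → ℓ ∣ N → ℓ ∈ S := fun ℓ hℓ hℓN =>
    Finset.mem_union_left _ (Nat.mem_primeFactors.2 ⟨hℓ, hℓN, hN0⟩)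
  have hMS : ∀ ℓ : ℕ, ℓ.Prime → ℓ ∣ M → ℓ ∈ S := fun ℓ hℓ hℓM => hNS ℓ hℓ (hℓM.trans hMN)
  have hbadS : ∀ ℓ : ℕ, ℓ.Prime → (ℓ : ℤ) ∣ W.Δ → ℓ ∈ S := fun ℓ hℓ h => hNS ℓ hℓ (hbad ℓ hℓ h)
  have ha : ∀ ℓ : ℕ, ℓ.Prime → ℓ ∉ S → qCoeff g ℓ = (W.apOfModel ℓ : ℂ) := fun ℓ hℓ hℓS =>
    hga ℓ hℓ (fun h => hℓS (hNS ℓ hℓ h))
  obtain ⟨O, _, _, _, hlamO, ρ, hρ, hρq⟩ := exists_rho36 hg lam S hlamS hMS W.apOfModel ha
  apply hρq q hq hqlam hfac
  intro P hP σ hσ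
  have key : ∀ n : ℕ, LinearMap.trace O ρ.V (ρ.ρ σ) - 2 ∈ IsLocalRing.maximalIdeal O ^ n ∧
      LinearMap.det (ρ.ρ σ) - 1 ∈ IsLocalRing.maximalIdeal O ^ n := by
    intro n
    obtain ⟨s, d, hs, hd, hrel, hcyc⟩ := cmp W hΔ hlam hlam2 S hlamS hbadS ρ hρ σ n
    have hodd : Odd (lam ^ n) := (hlam.odd_of_ne_two hlam2).pow
    have hqm : ¬ q ∣ lam ^ n := fun h =>
      hqlam ((Nat.prime_dvd_prime_iff_eq hq hlam).1 (hq.dvd_of_dvd_pow h))
    have hd1 : ((lam ^ n : ℕ) : ℤ) ∣ d - 1 := (hcyc q hq hqlam P hP).1 hσ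
    have h1 : ((lam ^ n : ℕ) : ℤ) ∣ s - 2 := ME_dvd_of_rel W (lam ^ n) σ _ _ _ _ hrel
      (fun u hu => by
        have h := inertia_sq W hΔ hss hq hodd hqm P hP σ hσ u hu
        rw [smul_sub] at h
        have e : σ • σ • u - (2 : ℤ) • σ • u + (1 : ℤ) • u
            = (σ • σ • u - σ • u) - (σ • u - u) := by
          rw [two_zsmul, one_zsmul]
          abel
        rw [e, h, sub_self])
      hd1 (exists_exact_order W hΔ hlam hlam2 n)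
    constructor
    · have e : LinearMap.trace O ρ.V (ρ.ρ σ) - 2
          = (LinearMap.trace O ρ.V (ρ.ρ σ) - (s : O)) + ((s - 2 : ℤ) : O) := by
        push_cast
        ring
      rw [e]
      exact Ideal.add_mem _ hs (ST36_cast_mem hlamO n _ h1)
    · have e : LinearMap.det (ρ.ρ σ) - 1
          = (LinearMap.det (ρ.ρ σ) - (d : O)) + ((d - 1 : ℤ) : O) := by
        push_cast
        ring
      rw [e]
      exact Ideal.add_mem _ hd (ST36_cast_mem hlamO n _ hd1)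
  have htr : LinearMap.trace O ρ.V (ρ.ρ σ) = 2 := ST36_eq_of_forall_mem _ _ (fun n => (key n).1)
  have hdet : LinearMap.det (ρ.ρ σ) = 1 := ST36_eq_of_forall_mem _ _ (fun n => (key n).2)
  rw [charpoly_eq_trace_det, htr, hdet, map_ofNat, map_one]
  ring

end Fermat.Agent.S58Lib
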