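import Fermat.Agent.S58.Count

/-!
# S58 (AP3): the traces of the normal forms modulo 3
-/

set_option autoImplicit false

namespace Fermat.Agent.S58Lib

open WeierstrassCurve WeierstrassCurve.Affine Fermat.Agent.S40Lib

theorem AP3_cast {z : ℤ} {c : ℤ} (h : (3 : ℤ) ∣ z - c) : ((z : ℤ) : ZMod 3) = (c : ZMod 3) := by
  have := (ZMod.intCast_zmod_eq_zero_iff_dvd (z - c) 3).mpr h
  push_cast at this
  exact sub_eq_zero.mp this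

theorem AP3_red (W : WeierstrassCurve ℤ) (c₁ c₂ c₃ c₄ c₆ : ℤ) (h₁ : (3 : ℤ) ∣ W.a₁ - c₁)
    (h₂ : (3 : ℤ) ∣ W.a₂ - c₂) (h₃ : (3 : ℤ) ∣ W.a₃ - c₃) (h₄ : (3 : ℤ) ∣ W.a₄ - c₄)
    (h₆ : (3 : ℤ) ∣ W.a₆ - c₆) :
    W.reductionMod 3 = ⟨(c₁ : ZMod 3), (c₂ : ZMod 3), (c₃ : ZMod 3), (c₄ : ZMod 3), (c₆ : ZMod 3)⟩ := by
  unfold WeierstrassCurve.reductionMod
  ext
  · exact AP3_cast h₁
  · exact AP3_cast h₂
  · exact AP3_cast h₃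
  · exact AP3_cast h₄
  · exact AP3_cast h₆

theorem AP3_ap (V : WeierstrassCurve (ZMod 3)) (hΔ : V.Δ ≠ 0) (n : ℕ)
    (hn : (Finset.univ.filter (fun p : ZMod 3 × ZMod 3 =>
      p.2 ^ 2 + V.a₁ * p.1 * p.2 + V.a₃ * p.2 = p.1 ^ 3 + V.a₂ * p.1 ^ 2 + V.a₄ * p.1 + V.a₆)).card
        = n) : V.traceOfFrobenius = 3 - n := by
  haveI : Fact (Nat.Prime 3) := ⟨Nat.prime_three⟩
  unfold WeierstrassCurve.traceOfFrobenius WeierstrassCurve.card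
  rw [card_eq_filter 3 V hΔ, hn, Nat.card_zmod]
  push_cast
  ring

/-- (AP3o) `S58/ApThree.lean` -/
theorem ap_three_ord (W : WeierstrassCurve ℤ) (h₁ : (3 : ℤ) ∣ W.a₁) (h₃ : (3 : ℤ) ∣ W.a₃)
    (h₄ : (3 : ℤ) ∣ W.a₄) :
    ((3 : ℤ) ∣ W.a₂ - 1 → (3 : ℤ) ∣ W.a₆ - 1 → W.apOfModel 3 = -2) ∧
    ((3 : ℤ) ∣ W.a₂ - 1 → (3 : ℤ) ∣ W.a₆ + 1 → W.apOfModel 3 = 1) ∧
    ((3 : ℤ) ∣ W.a₂ + 1 → (3 : ℤ) ∣ W.a₆ - 1 → W.apOfModel 3 = -1) ∧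
    ((3 : ℤ) ∣ W.a₂ + 1 → (3 : ℤ) ∣ W.a₆ + 1 → W.apOfModel 3 = 2) := by
  have h₁' : (3 : ℤ) ∣ W.a₁ - 0 := by simpa using h₁
  have h₃' : (3 : ℤ) ∣ W.a₃ - 0 := by simpa using h₃
  have h₄' : (3 : ℤ) ∣ W.a₄ - 0 := by simpa using h₄
  refine ⟨fun h₂ h₆ => ?_, fun h₂ h₆ => ?_, fun h₂ h₆ => ?_, fun h₂ h₆ => ?_⟩
  · unfold WeierstrassCurve.apOfModel
    rw [AP3_red W 0 1 0 0 1 h₁' h₂ h₃' h₄' h₆, AP3_ap _ (by decide) 5 (by decide)]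
    norm_num
  · unfold WeierstrassCurve.apOfModel
    rw [AP3_red W 0 1 0 0 (-1) h₁' h₂ h₃' h₄' (by simpa using h₆),
      AP3_ap _ (by decide) 2 (by decide)]
    norm_num
  · unfold WeierstrassCurve.apOfModel
    rw [AP3_red W 0 (-1) 0 0 1 h₁' (by simpa using h₂) h₃' h₄' h₆,
      AP3_ap _ (by decide) 4 (by decide)]
    norm_num
  · unfold WeierstrassCurve.apOfModel
    rw [AP3_red W 0 (-1) 0 0 (-1) h₁' (by simpa using h₂) h₃' h₄' (by simpa using h₆),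
      AP3_ap _ (by decide) 1 (by decide)]
    norm_num

/-- (AP3s) `S58/ApThree.lean` -/
theorem ap_three_ss (W : WeierstrassCurve ℤ) (h₁ : (3 : ℤ) ∣ W.a₁) (h₂ : (3 : ℤ) ∣ W.a₂)
    (h₃ : (3 : ℤ) ∣ W.a₃) :
    W.apOfModel 3 = (3 : ℤ) + 1
      - (Nat.card (Fermat.Agent.S52Lib.Pt ((W.a₄ : ℤ) : ZMod 3) ((W.a₆ : ℤ) : ZMod 3)) : ℤ) := by
  have hV : W.reductionMod 3
      = Fermat.Agent.S52Lib.SW ((W.a₄ : ℤ) : ZMod 3) ((W.a₆ : ℤ) : ZMod 3) := by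
    rw [AP3_red W 0 0 0 W.a₄ W.a₆ (by simpa using h₁) (by simpa using h₂) (by simpa using h₃)
      (by simp) (by simp)]
    simp [Fermat.Agent.S52Lib.SW]
  unfold WeierstrassCurve.apOfModel WeierstrassCurve.traceOfFrobenius WeierstrassCurve.card
  rw [hV, Nat.card_zmod]
  rfl

end Fermat.Agent.S58Lib
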