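import Fermat.Agent.S58.Trans

/-!
# S58 (APT): `a_ℓ` is invariant under translations
-/

set_option autoImplicit false

namespace Fermat.Agent.S58Lib

open WeierstrassCurve WeierstrassCurve.Affine Fermat.Agent.S40Lib

/-- (APT) -/
theorem apOfModel_trans (W : WeierstrassCurve ℤ) (r s t : ℤ) {ℓ : ℕ} (hℓ : ℓ.Prime) :
    (trans W r s t).apOfModel ℓ = W.apOfModel ℓ := by
  haveI : Fact ℓ.Prime := ⟨hℓ⟩
  unfold WeierstrassCurve.apOfModel WeierstrassCurve.traceOfFrobenius WeierstrassCurve.card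
    WeierstrassCurve.reductionMod
  rw [trans_map]
  obtain ⟨θ, -⟩ := exists_transEquiv (W.map (Int.castRingHom (ZMod ℓ)))
    (Int.castRingHom (ZMod ℓ) r) (Int.castRingHom (ZMod ℓ) s) (Int.castRingHom (ZMod ℓ) t)
  rw [Nat.card_congr θ.toEquiv]

end Fermat.Agent.S58Lib
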