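import Fermat.Agent.S58.Count

/-!
# S58 (AP2): the traces of the normal forms modulo 2
-/

set_option autoImplicit false

namespace Fermat.Agent.S58Lib

open WeierstrassCurve WeierstrassCurve.Affine Fermat.Agent.S40Lib

theorem AP2_cast {z : ℤ} {c : ℤ} (h : (2 : ℤ) ∣ z - c) : ((z : ℤ) : ZMod 2) = (c : ZMod 2) := by
  have := (ZMod.intCast_zmod_eq_zero_iff_dvd (z - c) 2).mpr h
  push_cast at this
  exact sub_eq_zero.mp this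

theorem AP2_red (W : WeierstrassCurve ℤ) (c₁ c₂ c₃ c₄ c₆ : ℤ) (h₁ : (2 : ℤ) ∣ W.a₁ - c₁)
    (h₂ : (2 : ℤ) ∣ W.a₂ - c₂) (h₃ : (2 : ℤ) ∣ W.a₃ - c₃) (h₄ : (2 : ℤ) ∣ W.a₄ - c₄)
    (h₆ : (2 : ℤ) ∣ W.a₆ - c₆) :
    W.reductionMod 2 = ⟨(c₁ : ZMod 2), (c₂ : ZMod 2), (c₃ : ZMod 2), (c₄ : ZMod 2), (c₆ : ZMod 2)⟩ := by
  unfold WeierstrassCurve.reductionMod
  ext
  · exact AP2_cast h₁
  · exact AP2_cast h₂
  · exact AP2_cast h₃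
  · exact AP2_cast h₄
  · exact AP2_cast h₆

theorem AP2_ap (V : WeierstrassCurve (ZMod 2)) (hΔ : V.Δ ≠ 0) (n : ℕ)
    (hn : (Finset.univ.filter (fun p : ZMod 2 × ZMod 2 =>
      p.2 ^ 2 + V.a₁ * p.1 * p.2 + V.a₃ * p.2 = p.1 ^ 3 + V.a₂ * p.1 ^ 2 + V.a₄ * p.1 + V.a₆)).card
        = n) : V.traceOfFrobenius = 2 - n := by
  haveI : Fact (Nat.Prime 2) := ⟨Nat.prime_two⟩
  unfold WeierstrassCurve.traceOfFrobenius WeierstrassCurve.card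
  rw [card_eq_filter 2 V hΔ, hn, Nat.card_zmod]
  push_cast
  ring

/-- (AP2o) `S58/ApTwo.lean` -/
theorem ap_two_ord (W : WeierstrassCurve ℤ) (h₁ : (2 : ℤ) ∣ W.a₁ - 1) (h₃ : (2 : ℤ) ∣ W.a₃)
    (h₄ : (2 : ℤ) ∣ W.a₄) (h₆ : (2 : ℤ) ∣ W.a₆ - 1) :
    ((2 : ℤ) ∣ W.a₂ → W.apOfModel 2 = -1) ∧ ((2 : ℤ) ∣ W.a₂ - 1 → W.apOfModel 2 = 1) := by
  have h₃' : (2 : ℤ) ∣ W.a₃ - 0 := by simpa using h₃
  have h₄' : (2 : ℤ) ∣ W.a₄ - 0 := by simpa using h₄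
  refine ⟨fun h₂ => ?_, fun h₂ => ?_⟩
  · unfold WeierstrassCurve.apOfModel
    rw [AP2_red W 1 0 0 0 1 h₁ (by simpa using h₂) h₃' h₄' h₆, AP2_ap _ (by decide) 3 (by decide)]
    norm_num
  · unfold WeierstrassCurve.apOfModel
    rw [AP2_red W 1 1 0 0 1 h₁ h₂ h₃' h₄' h₆, AP2_ap _ (by decide) 1 (by decide)]
    norm_num

/-- (AP2s) `S58/ApTwo.lean` -/
theorem ap_two_ss (W : WeierstrassCurve ℤ) (h₁ : (2 : ℤ) ∣ W.a₁) (h₂ : (2 : ℤ) ∣ W.a₂)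
    (h₃ : (2 : ℤ) ∣ W.a₃ - 1) :
    ((2 : ℤ) ∣ W.a₄ → W.apOfModel 2 = 0) ∧
    ((2 : ℤ) ∣ W.a₄ - 1 → (2 : ℤ) ∣ W.a₆ → W.apOfModel 2 = -2) ∧
    ((2 : ℤ) ∣ W.a₄ - 1 → (2 : ℤ) ∣ W.a₆ - 1 → W.apOfModel 2 = 2) := by
  have h₁' : (2 : ℤ) ∣ W.a₁ - 0 := by simpa using h₁
  have h₂' : (2 : ℤ) ∣ W.a₂ - 0 := by simpa using h₂
  refine ⟨fun h₄ => ?_, fun h₄ h₆ => ?_, fun h₄ h₆ => ?_⟩
  · rcases Int.even_or_odd W.a₆ with h₆ | h₆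
    · have h₆' : (2 : ℤ) ∣ W.a₆ - 0 := by simpa using h₆.two_dvd
      unfold WeierstrassCurve.apOfModel
      rw [AP2_red W 0 0 1 0 0 h₁' h₂' h₃ (by simpa using h₄) h₆',
        AP2_ap _ (by decide) 2 (by decide)]
      norm_num
    · have h₆' : (2 : ℤ) ∣ W.a₆ - 1 := by
        obtain ⟨k, hk⟩ := h₆
        exact ⟨k, by rw [hk]; ring⟩
      unfold WeierstrassCurve.apOfModel
      rw [AP2_red W 0 0 1 0 1 h₁' h₂' h₃ (by simpa using h₄) h₆',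
        AP2_ap _ (by decide) 2 (by decide)]
      norm_num
  · unfold WeierstrassCurve.apOfModel
    rw [AP2_red W 0 0 1 1 0 h₁' h₂' h₃ h₄ (by simpa using h₆), AP2_ap _ (by decide) 4 (by decide)]
    norm_num
  · unfold WeierstrassCurve.apOfModel
    rw [AP2_red W 0 0 1 1 1 h₁' h₂' h₃ h₄ h₆, AP2_ap _ (by decide) 0 (by decide)]
    norm_num

end Fermat.Agent.S58Lib
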