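import Fermat.Agent.S58.Defs

/-!
# S58 (CL3): normal forms modulo 3
-/

set_option autoImplicit false

namespace Fermat.Agent.S58Lib

open WeierstrassCurve

set_option maxRecDepth 1000000 in
theorem CL3_dec : ∀ a1 a2 a3 a4 a6 : ZMod 3,
    (-(a1 ^ 2 + 4 * a2) ^ 2 * (a1 ^ 2 * a6 + 4 * a2 * a6 - a1 * a3 * a4 + a2 * a3 ^ 2 - a4 ^ 2)
      - 8 * (2 * a4 + a1 * a3) ^ 3 - 27 * (a3 ^ 2 + 4 * a6) ^ 2
      + 9 * (a1 ^ 2 + 4 * a2) * (2 * a4 + a1 * a3) * (a3 ^ 2 + 4 * a6)) ≠ 0 →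
    ∃ r s t : ZMod 3, a1 + 2 * s = 0 ∧ a3 + r * a1 + 2 * t = 0 ∧
      ((a4 - s * a3 + 2 * r * a2 - (t + r * s) * a1 + 3 * r ^ 2 - 2 * s * t = 0 ∧
        a2 - s * a1 + 3 * r - s ^ 2 ≠ 0 ∧
        a6 + r * a4 + r ^ 2 * a2 + r ^ 3 - t * a3 - t ^ 2 - r * t * a1 ≠ 0) ∨
       (a2 - s * a1 + 3 * r - s ^ 2 = 0 ∧
        a4 - s * a3 + 2 * r * a2 - (t + r * s) * a1 + 3 * r ^ 2 - 2 * s * t ≠ 0)) := by
  decide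

/-- (CL3) `S58/ClassThree.lean`: normal forms mod 3: `s = a₁`, `t = a₃` kill `a₁, a₃`; then `r`. -/
theorem exists_nf_three (W : WeierstrassCurve ℤ) (hgood : ¬ (3 : ℤ) ∣ W.Δ) :
    ∃ r s t : ℤ, (3 : ℤ) ∣ (trans W r s t).a₁ ∧ (3 : ℤ) ∣ (trans W r s t).a₃ ∧
      (((3 : ℤ) ∣ (trans W r s t).a₄ ∧ ¬ (3 : ℤ) ∣ (trans W r s t).a₂ ∧
          ¬ (3 : ℤ) ∣ (trans W r s t).a₆) ∨
        ((3 : ℤ) ∣ (trans W r s t).a₂ ∧ ¬ (3 : ℤ) ∣ (trans W r s t).a₄)) := by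
  have key : ∀ z : ℤ, (3 : ℤ) ∣ z ↔ ((z : ℤ) : ZMod 3) = 0 := fun z =>
    (ZMod.intCast_zmod_eq_zero_iff_dvd z 3).symm
  have hΔ : ((W.Δ : ℤ) : ZMod 3) ≠ 0 := fun h => hgood ((key _).mpr h)
  obtain ⟨r, s, t, h⟩ := CL3_dec (W.a₁ : ZMod 3) (W.a₂ : ZMod 3) (W.a₃ : ZMod 3) (W.a₄ : ZMod 3)
    (W.a₆ : ZMod 3) (by
      intro h
      apply hΔ
      rw [← h]
      simp only [WeierstrassCurve.Δ, WeierstrassCurve.b₂, WeierstrassCurve.b₄,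
        WeierstrassCurve.b₆, WeierstrassCurve.b₈]
      push_cast
      ring)
  obtain ⟨r, rfl⟩ := ZMod.intCast_surjective r
  obtain ⟨s, rfl⟩ := ZMod.intCast_surjective s
  obtain ⟨t, rfl⟩ := ZMod.intCast_surjective t
  refine ⟨r, s, t, ?_⟩
  simp only [key, trans]
  push_cast
  exact h

end Fermat.Agent.S58Lib
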