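import Fermat.Agent.S58.Defs

/-!
# S58 (CL2): normal forms modulo 2
-/

set_option autoImplicit false

namespace Fermat.Agent.S58Lib

open WeierstrassCurve

set_option maxRecDepth 1000000 in
theorem CL2_dec : ∀ a1 a2 a3 a4 a6 : ZMod 2,
    (-(a1 ^ 2 + 4 * a2) ^ 2 * (a1 ^ 2 * a6 + 4 * a2 * a6 - a1 * a3 * a4 + a2 * a3 ^ 2 - a4 ^ 2)
      - 8 * (2 * a4 + a1 * a3) ^ 3 - 27 * (a3 ^ 2 + 4 * a6) ^ 2
      + 9 * (a1 ^ 2 + 4 * a2) * (2 * a4 + a1 * a3) * (a3 ^ 2 + 4 * a6)) ≠ 0 →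
    ∃ r s t : ZMod 2,
      (a1 + 2 * s - 1 = 0 ∧ a3 + r * a1 + 2 * t = 0 ∧
        a4 - s * a3 + 2 * r * a2 - (t + r * s) * a1 + 3 * r ^ 2 - 2 * s * t = 0 ∧
        a6 + r * a4 + r ^ 2 * a2 + r ^ 3 - t * a3 - t ^ 2 - r * t * a1 - 1 = 0) ∨
      (a1 + 2 * s = 0 ∧ a2 - s * a1 + 3 * r - s ^ 2 = 0 ∧ a3 + r * a1 + 2 * t - 1 = 0) := by
  decide

/-- (CL2) `S58/ClassTwo.lean`: normal forms mod 2 (16 curves, `decide` over `ZMod 2`) -/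
theorem exists_nf_two (W : WeierstrassCurve ℤ) (hgood : ¬ (2 : ℤ) ∣ W.Δ) :
    ∃ r s t : ℤ,
      ((2 : ℤ) ∣ (trans W r s t).a₁ - 1 ∧ (2 : ℤ) ∣ (trans W r s t).a₃ ∧
        (2 : ℤ) ∣ (trans W r s t).a₄ ∧ (2 : ℤ) ∣ (trans W r s t).a₆ - 1) ∨
      ((2 : ℤ) ∣ (trans W r s t).a₁ ∧ (2 : ℤ) ∣ (trans W r s t).a₂ ∧
        (2 : ℤ) ∣ (trans W r s t).a₃ - 1) := by
  have key : ∀ z : ℤ, (2 : ℤ) ∣ z ↔ ((z : ℤ) : ZMod 2) = 0 := fun z =>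
    (ZMod.intCast_zmod_eq_zero_iff_dvd z 2).symm
  have hΔ : ((W.Δ : ℤ) : ZMod 2) ≠ 0 := fun h => hgood ((key _).mpr h)
  obtain ⟨r, s, t, h⟩ := CL2_dec (W.a₁ : ZMod 2) (W.a₂ : ZMod 2) (W.a₃ : ZMod 2) (W.a₄ : ZMod 2)
    (W.a₆ : ZMod 2) (by
      intro h
      apply hΔ
      rw [← h]
      simp only [WeierstrassCurve.Δ, WeierstrassCurve.b₂, WeierstrassCurve.b₄,
        WeierstrassCurve.b₆, WeierstrassCurve.b₈]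
      push_cast
      ring)
  obtain ⟨r, rfl⟩ := ZMod.intCast_surjective r
  obtain ⟨s, rfl⟩ := ZMod.intCast_surjective s
  obtain ⟨t, rfl⟩ := ZMod.intCast_surjective t
  refine ⟨r, s, t, ?_⟩
  simp only [key, trans]
  push_cast
  exact h

end Fermat.Agent.S58Lib
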