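import Mathlib

/-!
# S58 (COF): a homomorphism vanishing off a finite subset of an infinite group is zero
-/

set_option autoImplicit false

namespace Fermat.Agent.S58Lib

/-- (COF) -/
theorem eq_zero_of_cofinite {G G' : Type*} [AddCommGroup G] [AddCommGroup G'] [Infinite G]
    (ψ : G →+ G') (B : Set G) (hB : B.Finite) (h : ∀ g, g ∉ B → ψ g = 0) (g : G) : ψ g = 0 := by
  have hB' : ((fun x => x - g) '' B).Finite := hB.image _
  obtain ⟨x, hx⟩ := (hB.union hB').exists_notMem
  rw [Set.mem_union, not_or] at hx
  have h1 : ψ x = 0 := h x hx.1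
  have h2 : ψ (g + x) = 0 := by
    apply h
    intro hm
    exact hx.2 ⟨g + x, hm, by abel⟩
  rw [map_add, h1, add_zero] at h2
  exact h2

end Fermat.Agent.S58Lib
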