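import Fermat.Agent.S58.Defs

/-!
# S58 (CNT): counting the points of a nonsingular Weierstrass curve over `ZMod ℓ`
-/

set_option autoImplicit false

namespace Fermat.Agent.S58Lib

open WeierstrassCurve WeierstrassCurve.Affine Fermat.Agent.S40Lib

/-- points = `∞` + solutions of the equation -/
private noncomputable def CNT_equiv {F : Type*} [Field F] (V : WeierstrassCurve F) (hΔ : V.Δ ≠ 0) :
    V.toAffine.Point ≃ Option {p : F × F // p.2 ^ 2 + V.a₁ * p.1 * p.2 + V.a₃ * p.2
      = p.1 ^ 3 + V.a₂ * p.1 ^ 2 + V.a₄ * p.1 + V.a₆} where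
  toFun P := match P with
    | Point.zero => none
    | Point.some x y h => some ⟨(x, y), (V.toAffine.equation_iff x y).mp h.1⟩
  invFun o := match o with
    | none => Point.zero
    | some p => Point.some p.1.1 p.1.2
        ((equation_iff_nonsingular_of_Δ_ne_zero (W := V.toAffine) hΔ).mp
          ((V.toAffine.equation_iff _ _).mpr p.2))
  left_inv P := by
    cases P <;> rfl
  right_inv o := by
    cases o <;> rfl

/-- (CNT) `S58/Count.lean` -/
theorem card_eq_filter (ℓ : ℕ) [Fact ℓ.Prime] (V : WeierstrassCurve (ZMod ℓ)) (hΔ : V.Δ ≠ 0) :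
    Nat.card V.toAffine.Point = 1 + (Finset.univ.filter (fun p : ZMod ℓ × ZMod ℓ =>
      p.2 ^ 2 + V.a₁ * p.1 * p.2 + V.a₃ * p.2 = p.1 ^ 3 + V.a₂ * p.1 ^ 2 + V.a₄ * p.1 + V.a₆)).card := by
  rw [Nat.card_congr (CNT_equiv V hΔ), Nat.card_eq_fintype_card, Fintype.card_option,
    Fintype.card_subtype, add_comm]

end Fermat.Agent.S58Lib
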