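import Fermat.Agent.S58.Defs
import Fermat.Agent.S58.CritNonsing

/-!
# S58, (CP): the critical point near the node at a prime of multiplicative reduction
-/

set_option autoImplicit false

namespace Fermat.Agent.S58Lib

open WeierstrassCurve WeierstrassCurve.Affine Fermat.Agent.S40Lib
open scoped Pointwise

local notation "Qb" => AlgebraicClosure ℚ
local notation "GQ" => (AlgebraicClosure ℚ ≃ₐ[ℚ] AlgebraicClosure ℚ)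

theorem CP_inv_mem (𝔄 : ValuationSubring Qb) {x : Qb} (hx : x ∉ 𝔄.nonunits) : x⁻¹ ∈ 𝔄 := by
  rw [ValuationSubring.mem_nonunits_iff, not_lt] at hx
  rw [← 𝔄.valuation_le_one_iff, map_inv₀]
  exact inv_le_one_of_one_le₀ hx

theorem CP_ne_zero (𝔄 : ValuationSubring Qb) {x : Qb} (hx : x ∉ 𝔄.nonunits) : x ≠ 0 := by
  rintro rfl
  exact hx (L2_zero_mem_nonunits 𝔄)

theorem CP_dec_mem (𝔄 : ValuationSubring Qb) {σ : GQ} (hσ : σ ∈ 𝔄.decompositionSubgroup ℚ)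
    {a : Qb} (ha : a ∈ 𝔄) : σ a ∈ 𝔄 := by
  have h1 : σ • 𝔄 = 𝔄 := hσ
  have h2 := ValuationSubring.smul_mem_pointwise_smul σ a 𝔄 ha
  rw [h1] at h2
  exact h2

theorem CP_dec_nu (𝔄 : ValuationSubring Qb) {σ : GQ} (hσ : σ ∈ 𝔄.decompositionSubgroup ℚ)
    {a : Qb} (ha : σ a ∈ 𝔄.nonunits) : a ∈ 𝔄.nonunits := by
  by_contra hna
  have hinv := CP_inv_mem 𝔄 hna
  have h0 := CP_ne_zero 𝔄 hna
  apply L3_one_not_mem 𝔄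
  have e : (1 : Qb) = σ a⁻¹ * σ a := by rw [← map_mul, inv_mul_cancel₀ h0, map_one]
  rw [e]
  exact L2_nonunits_mul 𝔄 (CP_dec_mem 𝔄 hσ hinv) ha

theorem CP_int_nu (𝔄 : ValuationSubring Qb) {q : ℕ} (h𝔄 : 𝔄.LiesOverPrime q) {n : ℤ}
    (h : (q : ℤ) ∣ n) : (n : Qb) ∈ 𝔄.nonunits := by
  obtain ⟨k, rfl⟩ := h
  have hq : (q : Qb) ∈ 𝔄.nonunits := h𝔄
  have e : (((q : ℤ) * k : ℤ) : Qb) = (k : Qb) * (q : Qb) := by push_cast; ring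
  rw [e]
  exact L2_nonunits_mul 𝔄 (NS_int_mem 𝔄 k) hq

theorem CP_int_unit (𝔄 : ValuationSubring Qb) {q : ℕ} (hq : q.Prime) (h𝔄 : 𝔄.LiesOverPrime q)
    {n : ℤ} (h : ¬ (q : ℤ) ∣ n) : (n : Qb) ∉ 𝔄.nonunits := by
  intro hn
  have hq' : (q : Qb) ∈ 𝔄.nonunits := h𝔄
  obtain ⟨u, v, huv⟩ := ((Nat.prime_iff_prime_int.1 hq).coprime_iff_not_dvd).2 h
  apply L3_one_not_mem 𝔄
  have e : (1 : Qb) = (u : Qb) * (q : Qb) + (v : Qb) * (n : Qb) := by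
    have := congrArg (fun z : ℤ => (z : Qb)) huv
    push_cast at this
    exact this.symm
  rw [e]
  exact L2_nonunits_add 𝔄 (L2_nonunits_mul 𝔄 (NS_int_mem 𝔄 u) hq')
    (L2_nonunits_mul 𝔄 (NS_int_mem 𝔄 v) hn)

/-- the algebraic core of (CP) -/
theorem CP_core (𝔄 : ValuationSubring Qb) {a₁ a₂ a₃ a₄ a₆ B2 B4 B6 C4 C6 D : Qb}
    (ha₁ : a₁ ∈ 𝔄) (ha₂ : a₂ ∈ 𝔄) (ha₃ : a₃ ∈ 𝔄) (ha₄ : a₄ ∈ 𝔄)
    (hB2 : B2 ∈ 𝔄) (hB4 : B4 ∈ 𝔄) (hB6 : B6 ∈ 𝔄) (hC6 : C6 ∈ 𝔄)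
    (f₁ : ∀ σ : GQ, σ a₁ = a₁) (f₃ : ∀ σ : GQ, σ a₃ = a₃) (fB2 : ∀ σ : GQ, σ B2 = B2)
    (fC4 : ∀ σ : GQ, σ C4 = C4) (fC6 : ∀ σ : GQ, σ C6 = C6)
    (r1 : B2 = a₁ ^ 2 + 4 * a₂) (r2 : B4 = 2 * a₄ + a₁ * a₃) (r3 : B6 = a₃ ^ 2 + 4 * a₆)
    (r4 : C4 = B2 ^ 2 - 24 * B4) (r5 : C6 = -B2 ^ 3 + 36 * B2 * B4 - 216 * B6)
    (r6 : 1728 * D = C4 ^ 3 - C6 ^ 2)
    (hDm : D ∈ 𝔄.nonunits) (hD0 : D ≠ 0) (hC4u : C4 ∉ 𝔄.nonunits) :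
    ∃ x₀ y₀ c : Qb, x₀ ∈ 𝔄 ∧ y₀ ∈ 𝔄 ∧
      (∀ σ ∈ 𝔄.decompositionSubgroup ℚ, σ x₀ = x₀ ∧ σ y₀ = y₀) ∧
      2 * y₀ + a₁ * x₀ + a₃ = 0 ∧
      3 * x₀ ^ 2 + 2 * a₂ * x₀ + a₄ - a₁ * y₀ = 0 ∧
      c = x₀ ^ 3 + a₂ * x₀ ^ 2 + a₄ * x₀ + a₆ - y₀ ^ 2 - a₁ * x₀ * y₀ - a₃ * y₀ ∧
      (B2 + 12 * x₀)⁻¹ ∈ 𝔄 ∧ B2 + 12 * x₀ ≠ 0 ∧ c ≠ 0 ∧ c ∈ 𝔄.nonunits := by
  have hC40 := CP_ne_zero 𝔄 hC4u
  have hC4i := CP_inv_mem 𝔄 hC4u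
  -- the good square root of `c₄`
  obtain ⟨w, hw, hT⟩ : ∃ w : Qb, w ^ 2 = C4 ∧ (w ^ 3 - C6) / (2 * C4) ∉ 𝔄.nonunits := by
    obtain ⟨w, hw⟩ := IsAlgClosed.exists_pow_nat_eq C4 (n := 2) (by norm_num)
    by_cases h1 : (w ^ 3 - C6) / (2 * C4) ∈ 𝔄.nonunits
    · refine ⟨-w, by rw [neg_sq, hw], fun h2 => hC4u ?_⟩
      have h3 : C6 ∈ 𝔄.nonunits := by
        have e : C6 = (-C4) * ((w ^ 3 - C6) / (2 * C4) + ((-w) ^ 3 - C6) / (2 * C4)) := by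
          field_simp
          ring
        rw [e]
        have hC4A : C4 ∈ 𝔄 := by
          rw [r4]
          exact 𝔄.sub_mem (𝔄.pow_mem hB2 2) (𝔄.mul_mem _ _ (NS_ofNat_mem 𝔄 24) hB4)
        exact L2_nonunits_mul 𝔄 (𝔄.neg_mem _ hC4A) (L2_nonunits_add 𝔄 h1 h2)
      apply L2_nonunits_of_pow 𝔄 (n := 3)
      have e : C4 ^ 3 = 1728 * D + C6 * C6 := by linear_combination -r6
      rw [e]
      exact L2_nonunits_add 𝔄 (L2_nonunits_mul 𝔄 (NS_ofNat_mem 𝔄 1728) hDm)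
        (L2_nonunits_mul 𝔄 hC6 h3)
    · exact ⟨w, hw, h1⟩
  set T := (w ^ 3 - C6) / (2 * C4) with hTdef
  have hT0 := CP_ne_zero 𝔄 hT
  have hTi := CP_inv_mem 𝔄 hT
  have hT2 : T * (2 * C4) = w ^ 3 - C6 := by rw [hTdef]; field_simp
  have hw0 : w ≠ 0 := by
    rintro rfl
    apply hC40
    rw [← hw]
    ring
  have hprod : (w ^ 3 - C6) * (w ^ 3 + C6) = 1728 * D := by
    linear_combination (w ^ 4 + w ^ 2 * C4 + C4 ^ 2) * hw - r6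
  have k2 : (w ^ 3 + C6) * T * C4 = 864 * D := by
    linear_combination (1 / 2 : Qb) * hprod + ((w ^ 3 + C6) / 2) * hT2
  have hwu : w ∉ 𝔄.nonunits := by
    intro h
    apply hC4u
    rw [← hw, sq]
    exact L2_nonunits_mul 𝔄 (NS_nu_mem h) h
  set x₀ := (w - B2) / 12 with hx₀
  set y₀ := -(a₁ * x₀ + a₃) / 2 with hy₀
  set c := -(w ^ 3 + C6) / 864 with hc
  have hBw : B2 + 12 * x₀ = w := by rw [hx₀]; ring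
  have he₁ : 2 * y₀ + a₁ * x₀ + a₃ = 0 := by rw [hy₀]; ring
  have hg : 6 * x₀ ^ 2 + B2 * x₀ + B4 = 0 := by
    rw [hx₀]
    linear_combination (1 / 24 : Qb) * hw + (1 / 24 : Qb) * r4
  have he₂ : 3 * x₀ ^ 2 + 2 * a₂ * x₀ + a₄ - a₁ * y₀ = 0 := by
    rw [hy₀]
    linear_combination (1 / 2 : Qb) * hg - (x₀ / 2) * r1 - (1 / 2 : Qb) * r2
  have k1 : x₀ * C4 - (18 * B6 - B2 * B4) = (w ^ 3 + C6) / 12 := by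
    rw [hx₀]
    linear_combination (-w / 12) * hw - (B2 / 12) * r4 - (1 / 12 : Qb) * r5
  have hx₀A : x₀ ∈ 𝔄 := by
    have e : x₀ = (18 * B6 - B2 * B4) * C4⁻¹ + 72 * D * C4⁻¹ * C4⁻¹ * T⁻¹ := by
      have h1 : x₀ * (C4 * C4 * T) =
          ((18 * B6 - B2 * B4) * C4⁻¹ + 72 * D * C4⁻¹ * C4⁻¹ * T⁻¹) * (C4 * C4 * T) := by
        have h2 : ((18 * B6 - B2 * B4) * C4⁻¹ + 72 * D * C4⁻¹ * C4⁻¹ * T⁻¹) * (C4 * C4 * T) =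
            (18 * B6 - B2 * B4) * C4 * T + 72 * D := by
          field_simp
        rw [h2]
        linear_combination (C4 * T) * k1 + (1 / 12 : Qb) * k2
      exact mul_right_cancel₀ (mul_ne_zero (mul_ne_zero hC40 hC40) hT0) h1
    rw [e]
    refine 𝔄.add_mem _ _ (𝔄.mul_mem _ _ (𝔄.sub_mem (𝔄.mul_mem _ _ (NS_ofNat_mem 𝔄 18) hB6)
      (𝔄.mul_mem _ _ hB2 hB4)) hC4i) (𝔄.mul_mem _ _ (𝔄.mul_mem _ _ (𝔄.mul_mem _ _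
      (𝔄.mul_mem _ _ (NS_ofNat_mem 𝔄 72) (NS_nu_mem hDm)) hC4i) hC4i) hTi)
  have hy₀A : y₀ ∈ 𝔄 := by
    by_cases h2 : (2 : Qb) ∈ 𝔄.nonunits
    · have ha₁u : a₁ ∉ 𝔄.nonunits := by
        intro ha
        apply hC4u
        have e : C4 = (a₁ ^ 3 + 8 * a₁ * a₂) * a₁ + (8 * a₂ ^ 2 - 12 * B4) * 2 := by
          rw [r4, r1]; ring
        rw [e]
        refine L2_nonunits_add 𝔄 (L2_nonunits_mul 𝔄 ?_ ha) (L2_nonunits_mul 𝔄 ?_ h2)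
        · exact 𝔄.add_mem _ _ (𝔄.pow_mem ha₁ 3)
            (𝔄.mul_mem _ _ (𝔄.mul_mem _ _ (NS_ofNat_mem 𝔄 8) ha₁) ha₂)
        · exact 𝔄.sub_mem (𝔄.mul_mem _ _ (NS_ofNat_mem 𝔄 8) (𝔄.pow_mem ha₂ 2))
            (𝔄.mul_mem _ _ (NS_ofNat_mem 𝔄 12) hB4)
      have ha₁0 := CP_ne_zero 𝔄 ha₁u
      have e : y₀ = (3 * x₀ ^ 2 + 2 * a₂ * x₀ + a₄) * a₁⁻¹ := by
        rw [eq_mul_inv_iff_mul_eq₀ ha₁0]
        linear_combination -he₂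
      rw [e]
      refine 𝔄.mul_mem _ _ (𝔄.add_mem _ _ (𝔄.add_mem _ _ (𝔄.mul_mem _ _ (NS_ofNat_mem 𝔄 3)
        (𝔄.pow_mem hx₀A 2)) (𝔄.mul_mem _ _ (𝔄.mul_mem _ _ (NS_ofNat_mem 𝔄 2) ha₂) hx₀A)) ha₄)
        (CP_inv_mem 𝔄 ha₁u)
    · rw [hy₀, div_eq_mul_inv]
      exact 𝔄.mul_mem _ _ (𝔄.neg_mem _ (𝔄.add_mem _ _ (𝔄.mul_mem _ _ ha₁ hx₀A) ha₃))
        (CP_inv_mem 𝔄 h2)
  refine ⟨x₀, y₀, c, hx₀A, hy₀A, ?_, he₁, he₂, ?_, ?_, ?_, ?_, ?_⟩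
  · intro σ hσ
    have hσw : σ w = w := by
      have h1 : (σ w) ^ 2 = w ^ 2 := by rw [← map_pow, hw, fC4]
      rcases sq_eq_sq_iff_eq_or_eq_neg.1 h1 with h | h
      · exact h
      · exfalso
        apply hT
        apply CP_dec_nu 𝔄 hσ
        have e : σ T = (-(432 * (C4⁻¹ * C4⁻¹ * T⁻¹))) * D := by
          rw [hTdef, map_div₀, map_sub, map_pow, map_mul, h, fC6, fC4, map_ofNat, ← hTdef]
          have h3 : ((-w) ^ 3 - C6) / (2 * C4) * (2 * C4 * C4 * T) =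
              (-(432 * (C4⁻¹ * C4⁻¹ * T⁻¹))) * D * (2 * C4 * C4 * T) := by
            have h4 : ((-w) ^ 3 - C6) / (2 * C4) * (2 * C4 * C4 * T) = -((w ^ 3 + C6) * T * C4) := by
              field_simp
              ring
            have h5 : (-(432 * (C4⁻¹ * C4⁻¹ * T⁻¹))) * D * (2 * C4 * C4 * T) = -(864 * D) := by
              field_simp
              ring
            rw [h4, h5, k2]
          exact mul_right_cancel₀ (mul_ne_zero (mul_ne_zero (mul_ne_zero two_ne_zero hC40) hC40)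
            hT0) h3
        rw [e]
        exact L2_nonunits_mul 𝔄 (𝔄.neg_mem _ (𝔄.mul_mem _ _ (NS_ofNat_mem 𝔄 432)
          (𝔄.mul_mem _ _ (𝔄.mul_mem _ _ hC4i hC4i) hTi))) hDm
    have hσx : σ x₀ = x₀ := by
      rw [hx₀, map_div₀, map_sub, hσw, fB2, map_ofNat]
    refine ⟨hσx, ?_⟩
    rw [hy₀, map_div₀, map_neg, map_add, map_mul, f₁, f₃, hσx, map_ofNat]
  · have hf : x₀ ^ 3 + a₂ * x₀ ^ 2 + a₄ * x₀ + a₆ - y₀ ^ 2 - a₁ * x₀ * y₀ - a₃ * y₀ =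
        (4 * x₀ ^ 3 + B2 * x₀ ^ 2 + 2 * B4 * x₀ + B6) / 4 := by
      rw [hy₀, r1, r2, r3]
      ring
    have hf2 : 4 * x₀ ^ 3 + B2 * x₀ ^ 2 + 2 * B4 * x₀ + B6 = -(w ^ 3 + C6) / 216 := by
      rw [hx₀]
      linear_combination (w / 144) * hw + (w / 144) * r4 + (1 / 216 : Qb) * r5
    rw [hf, hf2, hc]
    ring
  · rw [hBw]
    exact CP_inv_mem 𝔄 hwu
  · rw [hBw]
    exact hw0
  · intro h0
    apply hD0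
    have h1 : w ^ 3 + C6 = 0 := by
      rw [hc] at h0
      linear_combination (-864 : Qb) * h0
    rw [h1, mul_zero] at hprod
    linear_combination (-1 / 1728 : Qb) * hprod
  · have h1 : c * (T * C4) = -D := by
      rw [hc]
      linear_combination (-1 / 864 : Qb) * k2
    have e : c = (-(T⁻¹ * C4⁻¹)) * D := by
      rw [eq_div_of_mul_eq (mul_ne_zero hT0 hC40) h1]
      field_simp
    rw [e]
    exact L2_nonunits_mul 𝔄 (𝔄.neg_mem _ (𝔄.mul_mem _ _ hTi hC4i)) hDm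

/-- (CP) `S58/Crit.lean`.  `g = 6x² + b₂x + b₄`, `x_s = (18b₆ - b₂b₄)/c₄`: `c₄² g(x_s) = -72Δ`,
`c₄ g'(x_s) = -c₆`, `c₆² = c₄³ - 1728Δ`.  If `x₀, x₁` are the roots of `g`, `6(x_s - x₀)` and
`6(x_s - x₁)` are the roots of `T² - g'(x_s) T + 6 g(x_s)`: integral, sum a unit, product in `𝔪`; so
exactly one root `x₀` has `x₀ - x_s ∈ 𝔪` (hence it is fixed by the decomposition group).
`y₀ = -(a₁x₀ + a₃)/2 = (3x₀² + 2a₂x₀ + a₄)/a₁`.  `Δ = -c (b₂'³ + 432c)`, `72 c = (x_s - x₀) b₂'²`. -/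
theorem exists_crit (W : WeierstrassCurve ℤ) (hΔ0 : W.Δ ≠ 0) (𝔄 : ValuationSubring Qb) {q : ℕ}
    (hq : q.Prime) (h𝔄 : 𝔄.LiesOverPrime q) (hΔ : (q : ℤ) ∣ W.Δ) (hc4 : ¬ (q : ℤ) ∣ W.c₄) :
    ∃ x₀ y₀ c : Qb, CritData W 𝔄 x₀ y₀ c := by
  have r1 : (W.b₂ : Qb) = (W.a₁ : Qb) ^ 2 + 4 * (W.a₂ : Qb) := NS_b₂ W
  have r2 : (W.b₄ : Qb) = 2 * (W.a₄ : Qb) + (W.a₁ : Qb) * (W.a₃ : Qb) := by
    rw [WeierstrassCurve.b₄]; push_cast; ring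
  have r3 : (W.b₆ : Qb) = (W.a₃ : Qb) ^ 2 + 4 * (W.a₆ : Qb) := by
    rw [WeierstrassCurve.b₆]; push_cast; ring
  have r4 : (W.c₄ : Qb) = (W.b₂ : Qb) ^ 2 - 24 * (W.b₄ : Qb) := by
    rw [WeierstrassCurve.c₄]; push_cast; ring
  have r5 : (W.c₆ : Qb) = -(W.b₂ : Qb) ^ 3 + 36 * (W.b₂ : Qb) * (W.b₄ : Qb) - 216 * (W.b₆ : Qb) := by
    rw [WeierstrassCurve.c₆]; push_cast; ring
  have r6 : 1728 * (W.Δ : Qb) = (W.c₄ : Qb) ^ 3 - (W.c₆ : Qb) ^ 2 := by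
    have := congrArg (fun z : ℤ => (z : Qb)) W.c_relation
    push_cast at this
    exact this
  have hDm : (W.Δ : Qb) ∈ 𝔄.nonunits := CP_int_nu 𝔄 h𝔄 hΔ
  have hD0 : (W.Δ : Qb) ≠ 0 := by exact_mod_cast hΔ0
  have hC4u : (W.c₄ : Qb) ∉ 𝔄.nonunits := CP_int_unit 𝔄 hq h𝔄 hc4
  obtain ⟨x₀, y₀, c, h1, h2, h3, h4, h5, h6, h7, h8, h9, h10⟩ :=
    CP_core 𝔄 (a₆ := (W.a₆ : Qb)) (NS_int_mem 𝔄 W.a₁) (NS_int_mem 𝔄 W.a₂) (NS_int_mem 𝔄 W.a₃)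
      (NS_int_mem 𝔄 W.a₄) (NS_int_mem 𝔄 W.b₂) (NS_int_mem 𝔄 W.b₄) (NS_int_mem 𝔄 W.b₆)
      (NS_int_mem 𝔄 W.c₆) (fun σ => map_intCast σ _) (fun σ => map_intCast σ _)
      (fun σ => map_intCast σ _) (fun σ => map_intCast σ _) (fun σ => map_intCast σ _)
      r1 r2 r3 r4 r5 r6 hDm hD0 hC4u
  exact ⟨x₀, y₀, c, ⟨h1, h2, h3, h4, h5, h6, h7, h8, h9, h10⟩⟩

end Fermat.Agent.S58Lib
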