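import Fermat.Agent.S40.FrobW
import Fermat.Agent.S40.TorMod

/-!
# S58: definitions for the elliptic curve side
-/

set_option autoImplicit false

namespace Fermat.Agent.S58Lib

open WeierstrassCurve WeierstrassCurve.Affine Fermat.Agent.S40Lib

local notation "Qb" => AlgebraicClosure ℚ

/-- the curve in the coordinates `x' = x - r`, `y' = y - s (x - r) - t` -/
def trans {R : Type*} [CommRing R] (V : WeierstrassCurve R) (r s t : R) : WeierstrassCurve R where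
  a₁ := V.a₁ + 2 * s
  a₂ := V.a₂ - s * V.a₁ + 3 * r - s ^ 2
  a₃ := V.a₃ + r * V.a₁ + 2 * t
  a₄ := V.a₄ - s * V.a₃ + 2 * r * V.a₂ - (t + r * s) * V.a₁ + 3 * r ^ 2 - 2 * s * t
  a₆ := V.a₆ + r * V.a₄ + r ^ 2 * V.a₂ + r ^ 3 - t * V.a₃ - t ^ 2 - r * t * V.a₁

/-- `Vb` is the reduction of `V` -/
structure RedData {K κ : Type*} [Field K] [Field κ] (O : ValuationSubring K) (π : O →+* κ)
    (V : WeierstrassCurve K) (Vb : WeierstrassCurve κ) : Prop where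
  h₁ : ∃ h : V.a₁ ∈ O, π ⟨V.a₁, h⟩ = Vb.a₁
  h₂ : ∃ h : V.a₂ ∈ O, π ⟨V.a₂, h⟩ = Vb.a₂
  h₃ : ∃ h : V.a₃ ∈ O, π ⟨V.a₃, h⟩ = Vb.a₃
  h₄ : ∃ h : V.a₄ ∈ O, π ⟨V.a₄, h⟩ = Vb.a₄
  h₆ : ∃ h : V.a₆ ∈ O, π ⟨V.a₆, h⟩ = Vb.a₆

/-- the data of the critical point `(x₀, y₀)` of `F = y² + a₁xy + a₃y - x³ - a₂x² - a₄x - a₆` near the
node: in the coordinates `ξ = x - x₀`, `η = y - y₀` the curve is `η² + a₁ξη = ξ³ + a₂'ξ² + c` with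
`a₂' = a₂ + 3x₀`, `b₂' = b₂ + 12x₀` a unit, `c` in the maximal ideal, `c ≠ 0`. -/
structure CritData (W : WeierstrassCurve ℤ) (𝔄 : ValuationSubring Qb) (x₀ y₀ c : Qb) : Prop where
  hx : x₀ ∈ 𝔄
  hy : y₀ ∈ 𝔄
  fix : ∀ σ ∈ 𝔄.decompositionSubgroup ℚ, σ x₀ = x₀ ∧ σ y₀ = y₀
  e₁ : 2 * y₀ + (W.a₁ : Qb) * x₀ + (W.a₃ : Qb) = 0
  e₂ : 3 * x₀ ^ 2 + 2 * (W.a₂ : Qb) * x₀ + (W.a₄ : Qb) - (W.a₁ : Qb) * y₀ = 0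
  hc : c = x₀ ^ 3 + (W.a₂ : Qb) * x₀ ^ 2 + (W.a₄ : Qb) * x₀ + (W.a₆ : Qb) - y₀ ^ 2
    - (W.a₁ : Qb) * x₀ * y₀ - (W.a₃ : Qb) * y₀
  hb : ((W.b₂ : Qb) + 12 * x₀)⁻¹ ∈ 𝔄
  hb0 : (W.b₂ : Qb) + 12 * x₀ ≠ 0
  hc0 : c ≠ 0
  hcm : c ∈ 𝔄.nonunits

end Fermat.Agent.S58Lib
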