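import Fermat.Agent.S58.Defs

/-!
# S58 (FH): the Frobenius endomorphism of the group of points in characteristic `ℓ`
-/

set_option autoImplicit false

namespace Fermat.Agent.S58Lib

open WeierstrassCurve WeierstrassCurve.Affine Fermat.Agent.S40Lib

/-- (FH) -/
theorem exists_frobHom (W : WeierstrassCurve ℤ) {κ : Type*} [Field κ] [DecidableEq κ] (ℓ : ℕ)
    [Fact ℓ.Prime] [CharP κ ℓ] :
    ∃ Φ : (W.map (Int.castRingHom κ)).toAffine.Point →+ (W.map (Int.castRingHom κ)).toAffine.Point,
      ∀ x y (h : (W.map (Int.castRingHom κ)).toAffine.Nonsingular x y),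
        ∃ h' : (W.map (Int.castRingHom κ)).toAffine.Nonsingular (x ^ ℓ) (y ^ ℓ),
          Φ (Point.some x y h) = Point.some _ _ h' := by
  refine ⟨Point.map (W' := W) (frobenius κ ℓ).toIntAlgHom, ?_⟩
  intro x y h
  exact ⟨_, Point.map_some (W' := W) (f := (frobenius κ ℓ).toIntAlgHom) h⟩

end Fermat.Agent.S58Lib
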