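import Fermat.Agent.S58.Defs

/-!
# S58 (RD): the reduction data of an integral Weierstrass curve
-/

set_option autoImplicit false

namespace Fermat.Agent.S58Lib

open WeierstrassCurve WeierstrassCurve.Affine Fermat.Agent.S40Lib

local notation "Qb" => AlgebraicClosure ℚ

private theorem RD_aux (𝔄 : ValuationSubring Qb) (n : ℤ) :
    ∃ h : (n : Qb) ∈ 𝔄, IsLocalRing.residue 𝔄 ⟨(n : Qb), h⟩
      = Int.castRingHom (IsLocalRing.ResidueField 𝔄) n := by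
  refine ⟨intCast_mem 𝔄 n, ?_⟩
  have e : (⟨(n : Qb), intCast_mem 𝔄 n⟩ : 𝔄) = (n : 𝔄) := Subtype.ext (by simp)
  rw [e, map_intCast, eq_intCast]

/-- (RD) -/
theorem redData_int (W : WeierstrassCurve ℤ) (𝔄 : ValuationSubring Qb) :
    RedData 𝔄 (IsLocalRing.residue 𝔄) (FW_V W)
      (W.map (Int.castRingHom (IsLocalRing.ResidueField 𝔄))) := by
  rw [FW_map_eq]
  exact ⟨RD_aux 𝔄 W.a₁, RD_aux 𝔄 W.a₂, RD_aux 𝔄 W.a₃, RD_aux 𝔄 W.a₄, RD_aux 𝔄 W.a₆⟩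

end Fermat.Agent.S58Lib
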