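import Fermat.Agent.S58.Trans

/-!
# S58 (INF): infinitely many points, after a translation
-/

set_option autoImplicit false

namespace Fermat.Agent.S58Lib

open WeierstrassCurve WeierstrassCurve.Affine Fermat.Agent.S40Lib

/-- (INF) -/
theorem infinite_trans (W : WeierstrassCurve ℤ) (r s t : ℤ) {κ : Type*} [Field κ] [DecidableEq κ]
    [Infinite (W.map (Int.castRingHom κ)).toAffine.Point] :
    Infinite ((trans W r s t).map (Int.castRingHom κ)).toAffine.Point := by
  rw [trans_map]
  obtain ⟨θ, -⟩ := exists_transEquiv (W.map (Int.castRingHom κ))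
    (Int.castRingHom κ r) (Int.castRingHom κ s) (Int.castRingHom κ t)
  exact Infinite.of_injective θ θ.injective

end Fermat.Agent.S58Lib
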