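import Fermat.Agent.S58.Col

/-!
# S58 (F2s): the Frobenius relation on `y² + y = x³ + a₄x + a₆` in characteristic 2
(certificates generated by a small script)
-/

set_option autoImplicit false

namespace Fermat.Agent.S58Lib

open WeierstrassCurve WeierstrassCurve.Affine Fermat.Agent.S40Lib

private lemma F2s_nonsing {κ : Type*} [Field κ] (h2 : (2 : κ) = 0) (V : WeierstrassCurve κ)
    (h₁ : V.a₁ = 0) (h₃ : V.a₃ = 1) {X Y : κ}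
    (h : V.toAffine.Equation X Y) : V.toAffine.Nonsingular X Y := by
  rw [nonsingular_iff]
  refine ⟨h, Or.inr ?_⟩
  simp only [h₁, h₃]
  intro h0
  have : (0 : κ) = 1 := by linear_combination -h0 + Y * h2
  exact zero_ne_one this

/-- `a₄ = 0` : `φ²T + 2T = 0` -/
private lemma F2s_zero {κ : Type*} [Field κ] [DecidableEq κ] (h2 : (2 : κ) = 0)
    (V : WeierstrassCurve κ)
    (h₁ : V.a₁ = 0) (h₂ : V.a₂ = 0) (h₃ : V.a₃ = 1) (h₄ : V.a₄ = 0) (c : κ) (h₆ : V.a₆ = c)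
    (hcc : c * c = c) {x y : κ}
    (h : V.toAffine.Nonsingular x y)
    (hFF : V.toAffine.Nonsingular ((x ^ 2) ^ 2) ((y ^ 2) ^ 2)) :
    Point.some _ _ hFF + (2 : ℤ) • Point.some _ _ h = 0 := by
  have hc : y ^ 2 + y = x ^ 3 + c := by
    have := (V.toAffine.equation_iff x y).mp h.1
    rw [h₁, h₂, h₃, h₄, h₆] at this
    linear_combination this
  have hA : Point.some _ _ h + Point.some _ _ h + Point.some _ _ hFF = 0 := by
    refine col_suff V h h hFF (l := x ^ 2) (n := y + x ^ 3) ?_ ?_ ?_ ?_ ?_ ?_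
    · linear_combination (-x^3) * h2
    · linear_combination (-x^3) * h2
    · linear_combination (x^3 + y^2 - y + c + 1) * hc + (1) * hcc + (-x^3*y + x^3*c - y*c - y + c) * h2
    · rw [h₁, h₂]
      linear_combination (x) * h2
    · rw [h₁, h₃, h₄]
      linear_combination (2*x^5 + x^2*y + x^2) * h2
    · rw [h₃, h₆]
      linear_combination (-1) * hc + (-x^3*y - x^3) * h2
  rw [two_zsmul, add_comm]
  exact hA

/-- `a₄ = 1` -/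
private lemma F2s_one {κ : Type*} [Field κ] [DecidableEq κ] (h2 : (2 : κ) = 0)
    (V : WeierstrassCurve κ)
    (h₁ : V.a₁ = 0) (h₂ : V.a₂ = 0) (h₃ : V.a₃ = 1) (h₄ : V.a₄ = 1) (c : κ) (h₆ : V.a₆ = c)
    (hcc : c * c = c) {x y : κ}
    (h : V.toAffine.Nonsingular x y) (hF : V.toAffine.Nonsingular (x ^ 2) (y ^ 2))
    (hFF : V.toAffine.Nonsingular ((x ^ 2) ^ 2) ((y ^ 2) ^ 2)) :
    ∃ hE : V.toAffine.Nonsingular (x ^ 8 + 1) (x ^ 12 + x ^ 8 + x ^ 6 + x ^ 4 + x ^ 2 + y ^ 2),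
      (2 : ℤ) • Point.some _ _ hF = Point.some _ _ hE ∧
      ∀ (Y₃ : κ) (hR : V.toAffine.Nonsingular (x ^ 8 + 1) Y₃),
        Y₃ = (x ^ 12 + x ^ 8 + x ^ 6 + x ^ 4 + x ^ 2 + y ^ 2) + c →
        Point.some _ _ hFF + Point.some _ _ hR + (2 : ℤ) • Point.some _ _ h = 0 := by
  have hc : y ^ 2 + y = x ^ 3 + x + c := by
    have := (V.toAffine.equation_iff x y).mp h.1
    rw [h₁, h₂, h₃, h₄, h₆] at this
    linear_combination this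
  have hDe : V.toAffine.Equation (x ^ 4 + 1) (x ^ 6 + x ^ 4 + x ^ 3 + x ^ 2 + x + y) := by
    rw [equation_iff, h₁, h₂, h₃, h₄, h₆]
    linear_combination (1) * hc + (x^10 + x^9 + 2*x^7 + x^6*y + 2*x^6 + 2*x^5 + x^4*y + x^3*y + 2*x^3 + x^2*y + x^2 + x*y + x - 1) * h2
  have hD := F2s_nonsing h2 V h₁ h₃ hDe
  have hEe : V.toAffine.Equation (x ^ 8 + 1) (x ^ 12 + x ^ 8 + x ^ 6 + x ^ 4 + x ^ 2 + y ^ 2) := by
    rw [equation_iff, h₁, h₂, h₃, h₄, h₆]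
    linear_combination (x^3 + x + y^2 - y + c) * hc + (1) * hcc + (x^20 + x^18 + 2*x^14 + x^12*y^2 + 2*x^12 + 2*x^10 + x^8*y^2 + x^6*y^2 + 2*x^6 + x^4*y^2 + 2*x^4 - x^3*y + x^3*c + x^2*y^2 + x^2 - x*y + x*c + y^2 - y*c - 1) * h2
  have hE := F2s_nonsing h2 V h₁ h₃ hEe
  have hA : Point.some _ _ h + Point.some _ _ h + -Point.some _ _ hD = 0 := by
    rw [Point.neg_some]
    refine col_suff V h h _ (l := x ^ 2 + 1) (n := y + x ^ 3 + x) ?_ ?_ ?_ ?_ ?_ ?_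
    · linear_combination (-x^3 - x) * h2
    · linear_combination (-x^3 - x) * h2
    · rw [negY, h₁, h₃]
      linear_combination (-x^6 - x^4 - x^3 - x^2 - x - y - 1) * h2
    · rw [h₁, h₂]
      linear_combination (-x^2 + x) * h2
    · rw [h₁, h₃, h₄]
      linear_combination (2*x^5 + 2*x^3 + x^2*y + x^2 + 2*x + y) * h2
    · rw [h₃, h₆]
      linear_combination (-1) * hc + (-x^4 - x^3*y - x^3 - x*y - x) * h2
  have hA' : Point.some _ _ hF + Point.some _ _ hF + -Point.some _ _ hE = 0 := by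
    rw [Point.neg_some]
    refine col_suff V hF hF _ (l := x ^ 4 + 1) (n := y ^ 2 + x ^ 6 + x ^ 2) ?_ ?_ ?_ ?_ ?_ ?_
    · linear_combination (-x^6 - x^2) * h2
    · linear_combination (-x^6 - x^2) * h2
    · rw [negY, h₁, h₃]
      linear_combination (-x^12 - x^8 - x^6 - x^4 - x^2 - y^2 - 1) * h2
    · rw [h₁, h₂]
      linear_combination (-x^4 + x^2) * h2
    · rw [h₁, h₃, h₄]
      linear_combination (2*x^10 + 2*x^6 + x^4*y^2 + x^4 + 2*x^2 + y^2) * h2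
    · rw [h₃, h₆]
      linear_combination (-x^3 - x - y^2 + y - c) * hc + (-1) * hcc + (-x^8 - x^6*y^2 - x^6 - x^4 + x^3*y - x^3*c - x^2*y^2 - x^2 + x*y - x*c - y^2 + y*c) * h2
  refine ⟨hE, ?_, ?_⟩
  · rw [two_zsmul]
    exact add_neg_eq_zero.mp hA'
  · intro Y₃ hR hY₃
    have h2T : (2 : ℤ) • Point.some _ _ h = Point.some _ _ hD := by
      rw [two_zsmul]
      exact add_neg_eq_zero.mp hA
    rw [h2T]
    refine col_suff V hFF hR hD (l := x ^ 4) (n := y ^ 4 + x ^ 8) ?_ ?_ ?_ ?_ ?_ ?_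
    · linear_combination (-x^8) * h2
    · rw [hY₃]
      linear_combination (-x^3 - x - y^2 + y - c) * hc + (-1) * hcc + (-x^4 + x^3*y - x^3*c + x*y - x*c + y*c) * h2
    · linear_combination (-x^3 - x - y^2 + y - c - 1) * hc + (-1) * hcc + (-x^8 - x^4 + x^3*y - x^3*c + x*y - x*c + y*c + y - c) * h2
    · rw [h₁, h₂]
      linear_combination (x^4 + 1) * h2
    · rw [h₁, h₃, h₄]
      linear_combination (2*x^12 + x^8 + x^4*y^4 + 2*x^4) * h2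
    · rw [h₃, h₆]
      linear_combination (-x^9 - 3*x^7 - x^6*y^2 + 3*x^6*y - 3*x^6*c - 6*x^6 - 3*x^5 - 2*x^4*y^2 + 6*x^4*y - 6*x^4*c - 12*x^4 - x^3*y^4 + 2*x^3*y^3 - 2*x^3*y^2*c - 3*x^3*y^2 + 4*x^3*y*c + 4*x^3*y - 3*x^3*c^2 - 8*x^3*c - 5*x^3 - x^2*y^2 + 3*x^2*y - 3*x^2*c - 6*x^2 - x*y^4 + 2*x*y^3 - 2*x*y^2*c - 3*x*y^2 + 4*x*y*c + 4*x*y - 3*x*c^2 - 8*x*c - 4*x - y^6 + y^5 - y^4*c - y^4 + y^3 - y^2*c^2 - y^2*c + y*c^2 - c^3) * hc + (-6*x^6 - 12*x^4 + 8*x^3*y - 4*x^3*c - 12*x^3 - 6*x^2 + 8*x*y - 4*x*c - 12*x - c^2 - c - 1) * hcc + (-2*x^10 + 2*x^9*y - 2*x^9*c - 3*x^9 - x^8*y^4 - 3*x^8 + 6*x^7*y - 6*x^7*c - 9*x^7 + 5*x^6*y*c + 5*x^6*y - 10*x^6*c - 4*x^6 + 6*x^5*y - 6*x^5*c - 9*x^5 + 10*x^4*y*c + 10*x^4*y - 20*x^4*c - 4*x^4 + 10*x^3*y*c + 4*x^3*y - 10*x^3*c - 3*x^3 + 5*x^2*y*c + 5*x^2*y - 10*x^2*c - 2*x^2 + 10*x*y*c + 2*x*y - 8*x*c + y^5*c - y^4 + y^3*c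 - y^2*c^2 + y*c^3) * h2

/-- (F2s) `S58/RelTwoSS.lean`: `y² + y = x³ + a₄x + a₆` in characteristic 2 (no exceptional point:
all the formulas are polynomial). -/
theorem rel2_ss {κ : Type*} [Field κ] [DecidableEq κ] [CharP κ 2] (V : WeierstrassCurve κ)
    (h₁ : V.a₁ = 0) (h₂ : V.a₂ = 0) (h₃ : V.a₃ = 1) (e : ℤ)
    (h₄₆ : (V.a₄ = 0 ∧ (V.a₆ = 0 ∨ V.a₆ = 1) ∧ e = 0) ∨ (V.a₄ = 1 ∧ V.a₆ = 0 ∧ e = -2) ∨
      (V.a₄ = 1 ∧ V.a₆ = 1 ∧ e = 2)) {x y : κ}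
    (h : V.toAffine.Nonsingular x y) (hF : V.toAffine.Nonsingular (x ^ 2) (y ^ 2))
    (hFF : V.toAffine.Nonsingular ((x ^ 2) ^ 2) ((y ^ 2) ^ 2)) :
    Point.some _ _ hFF - e • Point.some _ _ hF + (2 : ℤ) • Point.some _ _ h = 0 := by
  have h2 : (2 : κ) = 0 := by
    have := CharP.cast_eq_zero κ 2
    exact_mod_cast this
  rcases h₄₆ with ⟨h₄, h₆, rfl⟩ | ⟨h₄, h₆, rfl⟩ | ⟨h₄, h₆, rfl⟩
  · rw [zero_zsmul, sub_zero]
    refine F2s_zero h2 V h₁ h₂ h₃ h₄ V.a₆ rfl ?_ h hFF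
    rcases h₆ with h₆ | h₆ <;> rw [h₆] <;> ring
  · obtain ⟨hE, h2F, hB⟩ := F2s_one h2 V h₁ h₂ h₃ h₄ 0 h₆ (by ring) h hF hFF
    rw [neg_zsmul, sub_neg_eq_add, h2F]
    exact hB _ hE (by ring)
  · obtain ⟨hE, h2F, hB⟩ := F2s_one h2 V h₁ h₂ h₃ h₄ 1 h₆ (by ring) h hF hFF
    rw [h2F, sub_eq_add_neg, Point.neg_some]
    refine hB _ _ ?_
    rw [negY, h₁, h₃]
    linear_combination (-(x ^ 12 + x ^ 8 + x ^ 6 + x ^ 4 + x ^ 2 + y ^ 2) - 1) * h2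

end Fermat.Agent.S58Lib
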