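import Fermat.Agent.S58.RelTwoOrd
import Fermat.Agent.S58.RelTwoSS
import Fermat.Agent.S58.ApTwo
import Fermat.Agent.S58.Cofinite

/-!
# S58 (R4n): the Frobenius relation for a curve in normal form, `ℓ = 2`
-/

set_option autoImplicit false

namespace Fermat.Agent.S58Lib

open WeierstrassCurve WeierstrassCurve.Affine Fermat.Agent.S40Lib

/-- the points with a given `x`-coordinate -/
theorem R4n_finite_one {κ : Type*} [Field κ] [DecidableEq κ] (V : WeierstrassCurve κ) (x : κ) :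
    {P : V.toAffine.Point | ∃ y h, P = Point.some x y h}.Finite := by
  by_cases hex : ∃ y₀, V.toAffine.Nonsingular x y₀
  · obtain ⟨y₀, h₀⟩ := hex
    refine Set.Finite.subset (Set.toFinite {Point.some x y₀ h₀, -Point.some x y₀ h₀}) ?_
    rintro P ⟨y, h, rfl⟩
    rcases Y_eq_of_X_eq h.1 h₀.1 rfl with rfl | hy
    · exact Or.inl rfl
    · refine Or.inr ?_
      rw [Set.mem_singleton_iff, Point.neg_some]
      simp only [Point.some.injEq, true_and]
      exact hy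
  · refine Set.Finite.subset Set.finite_empty ?_
    rintro P ⟨y, h, rfl⟩
    exact hex ⟨y, h⟩

/-- the points whose `x`-coordinate lies in a finite set -/
theorem R4n_finite {κ : Type*} [Field κ] [DecidableEq κ] (V : WeierstrassCurve κ) (S : Finset κ) :
    {P : V.toAffine.Point | ∀ x y h, P = Point.some x y h → x ∈ S}.Finite := by
  have h1 : (⋃ x ∈ S, {P : V.toAffine.Point | ∃ y h, P = Point.some x y h}).Finite :=
    Set.Finite.biUnion S.finite_toSet (fun x _ => R4n_finite_one V x)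
  refine Set.Finite.subset ((Set.finite_singleton (0 : V.toAffine.Point)).union h1) ?_
  intro P hP
  cases P with
  | zero => exact Or.inl rfl
  | some x y h =>
    refine Or.inr ?_
    rw [Set.mem_iUnion₂]
    exact ⟨x, hP x y h rfl, y, h, rfl⟩

/-- the abstract argument -/
theorem R4n_of_generic {κ : Type*} [Field κ] [DecidableEq κ] (V : WeierstrassCurve κ)
    [Infinite V.toAffine.Point] (ℓ c : ℕ) (a : ℤ)
    (Φ : V.toAffine.Point →+ V.toAffine.Point)
    (hΦ : ∀ x y (h : V.toAffine.Nonsingular x y),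
        ∃ h' : V.toAffine.Nonsingular (x ^ ℓ) (y ^ ℓ), Φ (Point.some x y h) = Point.some _ _ h')
    (S : Finset κ)
    (H : ∀ (x y : κ) (h : V.toAffine.Nonsingular x y)
      (hF : V.toAffine.Nonsingular (x ^ ℓ) (y ^ ℓ))
      (hFF : V.toAffine.Nonsingular ((x ^ ℓ) ^ ℓ) ((y ^ ℓ) ^ ℓ)), x ∉ S →
      c • (Point.some _ _ hFF - a • Point.some _ _ hF + (ℓ : ℤ) • Point.some _ _ h) = 0)
    (T : V.toAffine.Point) :
    c • (Φ (Φ T) - a • Φ T + (ℓ : ℤ) • T) = 0 := by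
  have key := eq_zero_of_cofinite
    (c • (Φ.comp Φ - a • Φ + (ℓ : ℤ) • AddMonoidHom.id V.toAffine.Point))
    {P : V.toAffine.Point | ∀ x y h, P = Point.some x y h → x ∈ S} (R4n_finite V S) ?_ T
  · exact key
  · intro P hP
    rw [Set.mem_setOf_eq] at hP
    push_neg at hP
    obtain ⟨x, y, h, rfl, hx⟩ := hP
    obtain ⟨hF, e1⟩ := hΦ x y h
    obtain ⟨hFF, e2⟩ := hΦ _ _ hF
    show c • (Φ (Φ (Point.some x y h)) - a • Φ (Point.some x y h)
      + (ℓ : ℤ) • Point.some x y h) = 0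
    rw [e1, e2]
    exact H x y h hF hFF hx

theorem R4n_cast_eq {κ : Type*} [Field κ] (ℓ : ℕ) [CharP κ ℓ] {a b : ℤ} (h : (ℓ : ℤ) ∣ a - b) :
    (a : κ) = (b : κ) := by
  have := (CharP.intCast_eq_zero_iff κ ℓ (a - b)).mpr h
  rw [Int.cast_sub, sub_eq_zero] at this
  exact this

/-- (R4n) `ℓ = 2` -/
theorem frob_rel_nf_two (W : WeierstrassCurve ℤ)
    (hnf : ((2 : ℤ) ∣ W.a₁ - 1 ∧ (2 : ℤ) ∣ W.a₃ ∧ (2 : ℤ) ∣ W.a₄ ∧ (2 : ℤ) ∣ W.a₆ - 1) ∨
      ((2 : ℤ) ∣ W.a₁ ∧ (2 : ℤ) ∣ W.a₂ ∧ (2 : ℤ) ∣ W.a₃ - 1))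
    {κ : Type*} [Field κ] [DecidableEq κ] [CharP κ 2]
    [Infinite (W.map (Int.castRingHom κ)).toAffine.Point]
    (Φ : (W.map (Int.castRingHom κ)).toAffine.Point →+ (W.map (Int.castRingHom κ)).toAffine.Point)
    (hΦ : ∀ x y (h : (W.map (Int.castRingHom κ)).toAffine.Nonsingular x y),
        ∃ h' : (W.map (Int.castRingHom κ)).toAffine.Nonsingular (x ^ 2) (y ^ 2),
          Φ (Point.some x y h) = Point.some _ _ h')
    (T : (W.map (Int.castRingHom κ)).toAffine.Point) :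
    Φ (Φ T) - W.apOfModel 2 • Φ T + (2 : ℤ) • T = 0 := by
  have c0 : ∀ {a : ℤ}, (2 : ℤ) ∣ a → (a : κ) = 0 := by
    intro a h
    have := R4n_cast_eq (κ := κ) 2 (a := a) (b := 0) (by simpa using h)
    simpa using this
  have c1 : ∀ {a : ℤ}, (2 : ℤ) ∣ a - 1 → (a : κ) = 1 := by
    intro a h
    have := R4n_cast_eq (κ := κ) 2 (a := a) (b := 1) (by simpa using h)
    simpa using this
  have par : ∀ a : ℤ, (2 : ℤ) ∣ a ∨ (2 : ℤ) ∣ a - 1 := by
    intro a
    omega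
  have main := R4n_of_generic (W.map (Int.castRingHom κ)) 2 1 (W.apOfModel 2) Φ hΦ {0, 1} ?_ T
  · rw [one_smul] at main
    exact main
  · intro x y h hF hFF hx
    rw [one_smul]
    simp only [Finset.mem_insert, Finset.mem_singleton, not_or] at hx
    rcases hnf with ⟨h1, h3, h4, h6⟩ | ⟨h1, h2, h3⟩
    · refine rel2_ord (W.map (Int.castRingHom κ)) (c1 h1) (c0 h3) (c0 h4) (c1 h6) _ ?_ h hF hFF
        hx.1 hx.2
      rcases par W.a₂ with h2 | h2
      · exact Or.inl ⟨c0 h2, (ap_two_ord W h1 h3 h4 h6).1 h2⟩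
      · exact Or.inr ⟨c1 h2, (ap_two_ord W h1 h3 h4 h6).2 h2⟩
    · refine rel2_ss (W.map (Int.castRingHom κ)) (c0 h1) (c0 h2) (c1 h3) _ ?_ h hF hFF
      rcases par W.a₄ with h4 | h4
      · refine Or.inl ⟨c0 h4, ?_, (ap_two_ss W h1 h2 h3).1 h4⟩
        rcases par W.a₆ with h6 | h6
        · exact Or.inl (c0 h6)
        · exact Or.inr (c1 h6)
      · rcases par W.a₆ with h6 | h6
        · exact Or.inr (Or.inl ⟨c1 h4, c0 h6, (ap_two_ss W h1 h2 h3).2.1 h4 h6⟩)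
        · exact Or.inr (Or.inr ⟨c1 h4, c1 h6, (ap_two_ss W h1 h2 h3).2.2 h4 h6⟩)

end Fermat.Agent.S58Lib
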