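import Fermat.Agent.S58.Col

set_option autoImplicit false

namespace Fermat.Agent.S58Lib

open WeierstrassCurve WeierstrassCurve.Affine

section F3o

variable {κ : Type*} [Field κ] [DecidableEq κ]

private lemma F3o_some_eq {V : WeierstrassCurve κ} {x y x' y' : κ}
    (h : V.toAffine.Nonsingular x y) (h' : V.toAffine.Nonsingular x' y') (hx : x = x')
    (hy : y = y') : Point.some x y h = Point.some x' y' h' := by
  subst hx hy; rfl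

private lemma F3o_col (V : WeierstrassCurve κ) (h₁ : V.a₁ = 0) (h₃ : V.a₃ = 0) (h₄ : V.a₄ = 0)
    {y f X₁ X₂ X₃ Y₁ Y₂ Y₃ B C : κ} (hy : y ^ 2 = f)
    (n₁ : V.toAffine.Nonsingular X₁ (y * Y₁)) (n₂ : V.toAffine.Nonsingular X₂ (y * Y₂))
    (n₃ : V.toAffine.Nonsingular X₃ (y * Y₃))
    (e₁ : Y₁ = B * X₁ + C) (e₂ : Y₂ = B * X₂ + C) (e₃ : Y₃ = B * X₃ + C)
    (s₁ : X₁ + X₂ + X₃ = f * B ^ 2 - V.a₂)
    (s₂ : X₁ * X₂ + X₁ * X₃ + X₂ * X₃ = -(2 * f * B * C))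
    (s₃ : X₁ * X₂ * X₃ = f * C ^ 2 - V.a₆) :
    Point.some _ _ n₁ + Point.some _ _ n₂ + Point.some _ _ n₃ = 0 :=
  col_suff V n₁ n₂ n₃ (l := y * B) (n := y * C) (by rw [e₁]; ring) (by rw [e₂]; ring)
    (by rw [e₃]; ring) (by rw [h₁, s₁, ← hy]; ring) (by rw [h₁, h₃, h₄, s₂, ← hy]; ring)
    (by rw [h₃, s₃, ← hy]; ring)

private lemma F3o_ns (V : WeierstrassCurve κ) (h₁ : V.a₁ = 0) (h₃ : V.a₃ = 0) (h₄ : V.a₄ = 0)
    (hΔ : V.Δ ≠ 0) {y f X Y : κ} (hy : y ^ 2 = f) (h : f * Y ^ 2 = X ^ 3 + V.a₂ * X ^ 2 + V.a₆) :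
    V.toAffine.Nonsingular X (y * Y) := by
  rw [← Affine.equation_iff_nonsingular_of_Δ_ne_zero (W := V.toAffine) hΔ, Affine.equation_iff]
  show (y * Y) ^ 2 + V.a₁ * X * (y * Y) + V.a₃ * (y * Y) = X ^ 3 + V.a₂ * X ^ 2 + V.a₄ * X + V.a₆
  rw [h₁, h₃, h₄, mul_pow, hy, h]; ring

private lemma F3o_neg (V : WeierstrassCurve κ) (h₁ : V.a₁ = 0) (h₃ : V.a₃ = 0) {X y Y : κ}
    (n : V.toAffine.Nonsingular X (y * Y)) (n' : V.toAffine.Nonsingular X (y * (-Y))) :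
    Point.some _ _ n' = -Point.some _ _ n := by
  rw [Point.neg_some]
  apply F3o_some_eq _ _ rfl
  show _ = -(y * Y) - V.a₁ * X - V.a₃
  rw [h₁, h₃]; ring


private lemma F3o_dblA [CharP κ 3] (V : WeierstrassCurve κ) (h₁ : V.a₁ = 0) (h₃ : V.a₃ = 0) (h₄ : V.a₄ = 0)
    (h₂ : V.a₂ = 1) (h₆ : V.a₆ = 1) (hΔ : V.Δ ≠ 0) {x y F : κ}
    (hFd : F = x ^ 3 + x ^ 2 + 1) (hy : y ^ 2 = F) (hf : F ≠ 0) (nT : V.toAffine.Nonsingular x (y * 1)) :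
    ∃ nD : V.toAffine.Nonsingular ((x ^ 4 + x + 2) / (F)) (y * ((2 * x ^ 6 + x ^ 5 + x ^ 3 + x ^ 2 + x + 2) / (F ^ 2))),
      Point.some _ _ nT + Point.some _ _ nT = Point.some _ _ nD := by
  have nD : V.toAffine.Nonsingular ((x ^ 4 + x + 2) / (F)) (y * ((2 * x ^ 6 + x ^ 5 + x ^ 3 + x ^ 2 + x + 2) / (F ^ 2))) :=
    F3o_ns V h₁ h₃ h₄ hΔ hy (by rw [h₂, h₆]; field_simp; subst hFd; rw [← sub_eq_zero]; ring_nf; try reduce_mod_char!)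
  have nD' : V.toAffine.Nonsingular ((x ^ 4 + x + 2) / (F)) (y * (-((2 * x ^ 6 + x ^ 5 + x ^ 3 + x ^ 2 + x + 2) / (F ^ 2)))) :=
    F3o_ns V h₁ h₃ h₄ hΔ hy (by rw [h₂, h₆]; field_simp; subst hFd; rw [← sub_eq_zero]; ring_nf; try reduce_mod_char!)
  refine ⟨nD, ?_⟩
  have hc := F3o_col V h₁ h₃ h₄ hy nT nT nD' (B := (x) / (F)) (C := (x ^ 3 + 1) / (F))
    (by field_simp; subst hFd; rw [← sub_eq_zero]; ring_nf; try reduce_mod_char!) (by field_simp; subst hFd; rw [← sub_eq_zero]; ring_nf; try reduce_mod_char!)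
    (by field_simp; subst hFd; rw [← sub_eq_zero]; ring_nf; try reduce_mod_char!)
    (by rw [h₂]; field_simp; subst hFd; rw [← sub_eq_zero]; ring_nf; try reduce_mod_char!)
    (by field_simp; subst hFd; rw [← sub_eq_zero]; ring_nf; try reduce_mod_char!)
    (by rw [h₆]; field_simp; subst hFd; rw [← sub_eq_zero]; ring_nf; try reduce_mod_char!)
  rw [F3o_neg V h₁ h₃ nD nD'] at hc
  exact add_neg_eq_zero.mp hc

private lemma F3o_triA [CharP κ 3] (V : WeierstrassCurve κ) (h₁ : V.a₁ = 0) (h₃ : V.a₃ = 0) (h₄ : V.a₄ = 0)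
    (h₂ : V.a₂ = 1) (h₆ : V.a₆ = 1) (hΔ : V.Δ ≠ 0) {x y F S : κ}
    (hFd : F = x ^ 3 + x ^ 2 + 1) (hSd : S = x + 1) (hy : y ^ 2 = F) (hf : F ≠ 0) (hs : S ≠ 0)
    (nT : V.toAffine.Nonsingular x (y * 1)) :
    ∃ nR : V.toAffine.Nonsingular (((x ^ 3 + 2 * x + 1) / (S ^ 2)) ^ 3) (y * (F * ((x ^ 3 + x) / (S ^ 3)) ^ 3)),
      (3 : ℤ) • Point.some _ _ nT = Point.some _ _ nR := by
  obtain ⟨nD, hD⟩ := F3o_dblA V h₁ h₃ h₄ h₂ h₆ hΔ hFd hy hf nT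
  have nR : V.toAffine.Nonsingular (((x ^ 3 + 2 * x + 1) / (S ^ 2)) ^ 3) (y * (F * ((x ^ 3 + x) / (S ^ 3)) ^ 3)) :=
    F3o_ns V h₁ h₃ h₄ hΔ hy (by rw [h₂, h₆]; field_simp; subst hFd hSd; rw [← sub_eq_zero]; ring_nf; try reduce_mod_char!)
  have nR' : V.toAffine.Nonsingular (((x ^ 3 + 2 * x + 1) / (S ^ 2)) ^ 3) (y * (-(F * ((x ^ 3 + x) / (S ^ 3)) ^ 3))) :=
    F3o_ns V h₁ h₃ h₄ hΔ hy (by rw [h₂, h₆]; field_simp; subst hFd hSd; rw [← sub_eq_zero]; ring_nf; try reduce_mod_char!)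
  refine ⟨nR, ?_⟩
  have hc := F3o_col V h₁ h₃ h₄ hy nT nD nR' (B := (2 * x ^ 6 + x ^ 5 + x ^ 4 + x ^ 3 + x ^ 2 + 2 * x + 2) / (S ^ 3 * F)) (C := (x ^ 7 + 2 * x ^ 4 + x ^ 3 + 2 * x ^ 2 + x + 1) / (S ^ 3 * F))
    (by field_simp; subst hFd hSd; rw [← sub_eq_zero]; ring_nf; try reduce_mod_char!) (by field_simp; subst hFd hSd; rw [← sub_eq_zero]; ring_nf; try reduce_mod_char!)
    (by field_simp; subst hFd hSd; rw [← sub_eq_zero]; ring_nf; try reduce_mod_char!)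
    (by rw [h₂]; field_simp; subst hFd hSd; rw [← sub_eq_zero]; ring_nf; try reduce_mod_char!)
    (by field_simp; subst hFd hSd; rw [← sub_eq_zero]; ring_nf; try reduce_mod_char!)
    (by rw [h₆]; field_simp; subst hFd hSd; rw [← sub_eq_zero]; ring_nf; try reduce_mod_char!)
  rw [F3o_neg V h₁ h₃ nR nR', ← hD] at hc
  rw [← add_neg_eq_zero.mp hc]
  abel

private lemma F3o_relA [CharP κ 3] (V : WeierstrassCurve κ) (h₁ : V.a₁ = 0) (h₃ : V.a₃ = 0) (h₄ : V.a₄ = 0)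
    (h₂ : V.a₂ = 1) (h₆ : V.a₆ = 1) (hΔ : V.Δ ≠ 0) {x y F S : κ}
    (hFd : F = x ^ 3 + x ^ 2 + 1) (hSd : S = x + 1) (hy : y ^ 2 = F) (hf : F ≠ 0) (hs : S ≠ 0)
    (nT : V.toAffine.Nonsingular x (y * 1)) (nF : V.toAffine.Nonsingular (x ^ 3) (y * F)) :
    ∃ nQ : V.toAffine.Nonsingular ((x ^ 3 + 2 * x + 1) / (S ^ 2)) (y * ((x ^ 3 + x) / (S ^ 3))),
      Point.some _ _ nQ + Point.some _ _ nF = (-2 : ℤ) • Point.some _ _ nT := by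
  obtain ⟨nD, hD⟩ := F3o_dblA V h₁ h₃ h₄ h₂ h₆ hΔ hFd hy hf nT
  have nQ : V.toAffine.Nonsingular ((x ^ 3 + 2 * x + 1) / (S ^ 2)) (y * ((x ^ 3 + x) / (S ^ 3))) :=
    F3o_ns V h₁ h₃ h₄ hΔ hy (by rw [h₂, h₆]; field_simp; subst hFd hSd; rw [← sub_eq_zero]; ring_nf; try reduce_mod_char!)
  have nD' : V.toAffine.Nonsingular ((x ^ 4 + x + 2) / (F)) (y * (-((2 * x ^ 6 + x ^ 5 + x ^ 3 + x ^ 2 + x + 2) / (F ^ 2)))) :=
    F3o_ns V h₁ h₃ h₄ hΔ hy (by rw [h₂, h₆]; field_simp; subst hFd; rw [← sub_eq_zero]; ring_nf; try reduce_mod_char!)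
  refine ⟨nQ, ?_⟩
  have hc := F3o_col V h₁ h₃ h₄ hy nQ nF nD (B := (x ^ 4 + x ^ 2 + 2) / (S * F)) (C := (2 * x ^ 5 + 2 * x ^ 3 + 2 * x ^ 2 + x + 1) / (S * F))
    (by field_simp; subst hFd hSd; rw [← sub_eq_zero]; ring_nf; try reduce_mod_char!) (by field_simp; subst hFd hSd; rw [← sub_eq_zero]; ring_nf; try reduce_mod_char!)
    (by field_simp; subst hFd hSd; rw [← sub_eq_zero]; ring_nf; try reduce_mod_char!)
    (by rw [h₂]; field_simp; subst hFd hSd; rw [← sub_eq_zero]; ring_nf; try reduce_mod_char!)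
    (by field_simp; subst hFd hSd; rw [← sub_eq_zero]; ring_nf; try reduce_mod_char!)
    (by rw [h₆]; field_simp; subst hFd hSd; rw [← sub_eq_zero]; ring_nf; try reduce_mod_char!)
  rw [← hD] at hc
  rw [add_eq_zero_iff_eq_neg.mp hc]; abel

private lemma F3o_finA [CharP κ 3] (V : WeierstrassCurve κ) (h₁ : V.a₁ = 0) (h₃ : V.a₃ = 0) (h₄ : V.a₄ = 0)
    (h₂ : V.a₂ = 1) (h₆ : V.a₆ = 1) (hΔ : V.Δ ≠ 0) {x y : κ}
    (h : V.toAffine.Nonsingular x y) (hF : V.toAffine.Nonsingular (x ^ 3) (y ^ 3))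
    (hFF : V.toAffine.Nonsingular ((x ^ 3) ^ 3) ((y ^ 3) ^ 3))
    (hf0 : x ^ 3 + x ^ 2 + 1 ≠ 0) (hs0 : x + 1 ≠ 0) :
    Point.some _ _ hFF - (-2 : ℤ) • Point.some _ _ hF + (3 : ℤ) • Point.some _ _ h = 0 := by
  obtain ⟨F, hFd⟩ : ∃ F : κ, F = x ^ 3 + x ^ 2 + 1 := ⟨_, rfl⟩
  obtain ⟨S, hSd⟩ : ∃ S : κ, S = x + 1 := ⟨_, rfl⟩
  have hf : F ≠ 0 := hFd ▸ hf0
  have hs : S ≠ 0 := hSd ▸ hs0
  have hy : y ^ 2 = F := by
    have := (Affine.equation_iff (W := V.toAffine) x y).mp h.1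
    have e' : y ^ 2 + V.a₁ * x * y + V.a₃ * y = x ^ 3 + V.a₂ * x ^ 2 + V.a₄ * x + V.a₆ := this
    rw [h₁, h₂, h₃, h₄, h₆] at e'
    have e3 : F = x ^ 3 + 1 * x ^ 2 + 0 * x + 1 := by rw [hFd, ← sub_eq_zero]; ring_nf; try reduce_mod_char!
    rw [e3, ← e']; ring
  have ef : F ^ 3 = (x ^ 3) ^ 3 + (x ^ 3) ^ 2 + 1 := by rw [hFd, ← sub_eq_zero]; ring_nf; try reduce_mod_char!
  have es : S ^ 3 = (x ^ 3) + 1 := by rw [hSd, ← sub_eq_zero]; ring_nf; try reduce_mod_char!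
  have hy' : (y ^ 3) ^ 2 = F ^ 3 := by rw [← hy]; ring
  have nT : V.toAffine.Nonsingular x (y * 1) := by rw [mul_one]; exact h
  have nT' : V.toAffine.Nonsingular (x ^ 3) (y ^ 3 * 1) := by rw [mul_one]; exact hF
  have nF' : V.toAffine.Nonsingular ((x ^ 3) ^ 3) (y ^ 3 * F ^ 3) := by
    rw [← hy', ← pow_succ']; exact hFF
  obtain ⟨nR, hR⟩ := F3o_triA V h₁ h₃ h₄ h₂ h₆ hΔ hFd hSd hy hf hs nT
  obtain ⟨nQ, hQ⟩ := F3o_relA V h₁ h₃ h₄ h₂ h₆ hΔ ef es hy' (pow_ne_zero _ hf)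
    (pow_ne_zero _ hs) nT' nF'
  have e1 : Point.some _ _ h = Point.some _ _ nT := F3o_some_eq _ _ rfl (mul_one y).symm
  have e2 : Point.some _ _ hF = Point.some _ _ nT' := F3o_some_eq _ _ rfl (mul_one _).symm
  have e3 : Point.some _ _ hFF = Point.some _ _ nF' :=
    F3o_some_eq _ _ rfl (by rw [← hy', ← pow_succ'])
  have e4 : Point.some _ _ nR = Point.some _ _ nQ := by
    apply F3o_some_eq
    · field_simp; rw [← sub_eq_zero]; ring_nf; try reduce_mod_char!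
    · have : y ^ 3 = y * F := by rw [← hy]; ring
      rw [this, mul_assoc]
      congr 2
      field_simp; rw [← sub_eq_zero]; ring_nf; try reduce_mod_char!
  rw [e1, e2, e3, hR, e4, ← hQ]
  abel


private lemma F3o_dblB [CharP κ 3] (V : WeierstrassCurve κ) (h₁ : V.a₁ = 0) (h₃ : V.a₃ = 0) (h₄ : V.a₄ = 0)
    (h₂ : V.a₂ = 1) (h₆ : V.a₆ = -1) (hΔ : V.Δ ≠ 0) {x y F : κ}
    (hFd : F = x ^ 3 + x ^ 2 + 2) (hy : y ^ 2 = F) (hf : F ≠ 0) (nT : V.toAffine.Nonsingular x (y * 1)) :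
    ∃ nD : V.toAffine.Nonsingular ((x ^ 4 + 2 * x + 1) / (F)) (y * ((2 * x ^ 6 + x ^ 5 + 2 * x ^ 3 + 2 * x ^ 2 + 2 * x + 2) / (F ^ 2))),
      Point.some _ _ nT + Point.some _ _ nT = Point.some _ _ nD := by
  have nD : V.toAffine.Nonsingular ((x ^ 4 + 2 * x + 1) / (F)) (y * ((2 * x ^ 6 + x ^ 5 + 2 * x ^ 3 + 2 * x ^ 2 + 2 * x + 2) / (F ^ 2))) :=
    F3o_ns V h₁ h₃ h₄ hΔ hy (by rw [h₂, h₆]; field_simp; subst hFd; rw [← sub_eq_zero]; ring_nf; try reduce_mod_char!)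
  have nD' : V.toAffine.Nonsingular ((x ^ 4 + 2 * x + 1) / (F)) (y * (-((2 * x ^ 6 + x ^ 5 + 2 * x ^ 3 + 2 * x ^ 2 + 2 * x + 2) / (F ^ 2)))) :=
    F3o_ns V h₁ h₃ h₄ hΔ hy (by rw [h₂, h₆]; field_simp; subst hFd; rw [← sub_eq_zero]; ring_nf; try reduce_mod_char!)
  refine ⟨nD, ?_⟩
  have hc := F3o_col V h₁ h₃ h₄ hy nT nT nD' (B := (x) / (F)) (C := (x ^ 3 + 2) / (F))
    (by field_simp; subst hFd; rw [← sub_eq_zero]; ring_nf; try reduce_mod_char!) (by field_simp; subst hFd; rw [← sub_eq_zero]; ring_nf; try reduce_mod_char!)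
    (by field_simp; subst hFd; rw [← sub_eq_zero]; ring_nf; try reduce_mod_char!)
    (by rw [h₂]; field_simp; subst hFd; rw [← sub_eq_zero]; ring_nf; try reduce_mod_char!)
    (by field_simp; subst hFd; rw [← sub_eq_zero]; ring_nf; try reduce_mod_char!)
    (by rw [h₆]; field_simp; subst hFd; rw [← sub_eq_zero]; ring_nf; try reduce_mod_char!)
  rw [F3o_neg V h₁ h₃ nD nD'] at hc
  exact add_neg_eq_zero.mp hc

private lemma F3o_triB [CharP κ 3] (V : WeierstrassCurve κ) (h₁ : V.a₁ = 0) (h₃ : V.a₃ = 0) (h₄ : V.a₄ = 0)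
    (h₂ : V.a₂ = 1) (h₆ : V.a₆ = -1) (hΔ : V.Δ ≠ 0) {x y F S : κ}
    (hFd : F = x ^ 3 + x ^ 2 + 2) (hSd : S = x + 2) (hy : y ^ 2 = F) (hf : F ≠ 0) (hs : S ≠ 0)
    (nT : V.toAffine.Nonsingular x (y * 1)) :
    ∃ nR : V.toAffine.Nonsingular (((x ^ 3 + x + 2) / (S ^ 2)) ^ 3) (y * (F * ((x ^ 3 + 2 * x + 1) / (S ^ 3)) ^ 3)),
      (3 : ℤ) • Point.some _ _ nT = Point.some _ _ nR := by
  obtain ⟨nD, hD⟩ := F3o_dblB V h₁ h₃ h₄ h₂ h₆ hΔ hFd hy hf nT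
  have nR : V.toAffine.Nonsingular (((x ^ 3 + x + 2) / (S ^ 2)) ^ 3) (y * (F * ((x ^ 3 + 2 * x + 1) / (S ^ 3)) ^ 3)) :=
    F3o_ns V h₁ h₃ h₄ hΔ hy (by rw [h₂, h₆]; field_simp; subst hFd hSd; rw [← sub_eq_zero]; ring_nf; try reduce_mod_char!)
  have nR' : V.toAffine.Nonsingular (((x ^ 3 + x + 2) / (S ^ 2)) ^ 3) (y * (-(F * ((x ^ 3 + 2 * x + 1) / (S ^ 3)) ^ 3))) :=
    F3o_ns V h₁ h₃ h₄ hΔ hy (by rw [h₂, h₆]; field_simp; subst hFd hSd; rw [← sub_eq_zero]; ring_nf; try reduce_mod_char!)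
  refine ⟨nR, ?_⟩
  have hc := F3o_col V h₁ h₃ h₄ hy nT nD nR' (B := (2 * x ^ 6 + x ^ 5 + x ^ 4 + 2 * x ^ 3 + 2 * x ^ 2 + x + 2) / (S ^ 3 * F)) (C := (x ^ 7 + x ^ 4 + 2 * x ^ 3 + x ^ 2 + x + 1) / (S ^ 3 * F))
    (by field_simp; subst hFd hSd; rw [← sub_eq_zero]; ring_nf; try reduce_mod_char!) (by field_simp; subst hFd hSd; rw [← sub_eq_zero]; ring_nf; try reduce_mod_char!)
    (by field_simp; subst hFd hSd; rw [← sub_eq_zero]; ring_nf; try reduce_mod_char!)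
    (by rw [h₂]; field_simp; subst hFd hSd; rw [← sub_eq_zero]; ring_nf; try reduce_mod_char!)
    (by field_simp; subst hFd hSd; rw [← sub_eq_zero]; ring_nf; try reduce_mod_char!)
    (by rw [h₆]; field_simp; subst hFd hSd; rw [← sub_eq_zero]; ring_nf; try reduce_mod_char!)
  rw [F3o_neg V h₁ h₃ nR nR', ← hD] at hc
  rw [← add_neg_eq_zero.mp hc]
  abel

private lemma F3o_relB [CharP κ 3] (V : WeierstrassCurve κ) (h₁ : V.a₁ = 0) (h₃ : V.a₃ = 0) (h₄ : V.a₄ = 0)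
    (h₂ : V.a₂ = 1) (h₆ : V.a₆ = -1) (hΔ : V.Δ ≠ 0) {x y F S : κ}
    (hFd : F = x ^ 3 + x ^ 2 + 2) (hSd : S = x + 2) (hy : y ^ 2 = F) (hf : F ≠ 0) (hs : S ≠ 0)
    (nT : V.toAffine.Nonsingular x (y * 1)) (nF : V.toAffine.Nonsingular (x ^ 3) (y * F)) :
    ∃ nQ : V.toAffine.Nonsingular ((x ^ 3 + x + 2) / (S ^ 2)) (y * ((x ^ 3 + 2 * x + 1) / (S ^ 3))),
      Point.some _ _ nQ + Point.some _ _ nF = (1 : ℤ) • Point.some _ _ nT := by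
  have nQ : V.toAffine.Nonsingular ((x ^ 3 + x + 2) / (S ^ 2)) (y * ((x ^ 3 + 2 * x + 1) / (S ^ 3))) :=
    F3o_ns V h₁ h₃ h₄ hΔ hy (by rw [h₂, h₆]; field_simp; subst hFd hSd; rw [← sub_eq_zero]; ring_nf; try reduce_mod_char!)
  have nT' : V.toAffine.Nonsingular x (y * (-1)) :=
    F3o_ns V h₁ h₃ h₄ hΔ hy (by rw [h₂, h₆]; subst hFd; rw [← sub_eq_zero]; ring_nf; try reduce_mod_char!)
  refine ⟨nQ, ?_⟩
  have hc := F3o_col V h₁ h₃ h₄ hy nQ nF nT' (B := (x) / (S)) (C := (2 * x ^ 2 + 2 * x + 1) / (S))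
    (by field_simp; subst hFd hSd; rw [← sub_eq_zero]; ring_nf; try reduce_mod_char!) (by field_simp; subst hFd hSd; rw [← sub_eq_zero]; ring_nf; try reduce_mod_char!)
    (by field_simp; subst hFd hSd; rw [← sub_eq_zero]; ring_nf; try reduce_mod_char!)
    (by rw [h₂]; field_simp; subst hFd hSd; rw [← sub_eq_zero]; ring_nf; try reduce_mod_char!)
    (by field_simp; subst hFd hSd; rw [← sub_eq_zero]; ring_nf; try reduce_mod_char!)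
    (by rw [h₆]; field_simp; subst hFd hSd; rw [← sub_eq_zero]; ring_nf; try reduce_mod_char!)
  rw [F3o_neg V h₁ h₃ nT nT'] at hc
  rw [one_smul]; exact add_neg_eq_zero.mp hc

private lemma F3o_finB [CharP κ 3] (V : WeierstrassCurve κ) (h₁ : V.a₁ = 0) (h₃ : V.a₃ = 0) (h₄ : V.a₄ = 0)
    (h₂ : V.a₂ = 1) (h₆ : V.a₆ = -1) (hΔ : V.Δ ≠ 0) {x y : κ}
    (h : V.toAffine.Nonsingular x y) (hF : V.toAffine.Nonsingular (x ^ 3) (y ^ 3))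
    (hFF : V.toAffine.Nonsingular ((x ^ 3) ^ 3) ((y ^ 3) ^ 3))
    (hf0 : x ^ 3 + x ^ 2 + 2 ≠ 0) (hs0 : x + 2 ≠ 0) :
    Point.some _ _ hFF - (1 : ℤ) • Point.some _ _ hF + (3 : ℤ) • Point.some _ _ h = 0 := by
  obtain ⟨F, hFd⟩ : ∃ F : κ, F = x ^ 3 + x ^ 2 + 2 := ⟨_, rfl⟩
  obtain ⟨S, hSd⟩ : ∃ S : κ, S = x + 2 := ⟨_, rfl⟩
  have hf : F ≠ 0 := hFd ▸ hf0
  have hs : S ≠ 0 := hSd ▸ hs0
  have hy : y ^ 2 = F := by
    have := (Affine.equation_iff (W := V.toAffine) x y).mp h.1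
    have e' : y ^ 2 + V.a₁ * x * y + V.a₃ * y = x ^ 3 + V.a₂ * x ^ 2 + V.a₄ * x + V.a₆ := this
    rw [h₁, h₂, h₃, h₄, h₆] at e'
    have e3 : F = x ^ 3 + 1 * x ^ 2 + 0 * x + -1 := by rw [hFd, ← sub_eq_zero]; ring_nf; try reduce_mod_char!
    rw [e3, ← e']; ring
  have ef : F ^ 3 = (x ^ 3) ^ 3 + (x ^ 3) ^ 2 + 2 := by rw [hFd, ← sub_eq_zero]; ring_nf; try reduce_mod_char!
  have es : S ^ 3 = (x ^ 3) + 2 := by rw [hSd, ← sub_eq_zero]; ring_nf; try reduce_mod_char!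
  have hy' : (y ^ 3) ^ 2 = F ^ 3 := by rw [← hy]; ring
  have nT : V.toAffine.Nonsingular x (y * 1) := by rw [mul_one]; exact h
  have nT' : V.toAffine.Nonsingular (x ^ 3) (y ^ 3 * 1) := by rw [mul_one]; exact hF
  have nF' : V.toAffine.Nonsingular ((x ^ 3) ^ 3) (y ^ 3 * F ^ 3) := by
    rw [← hy', ← pow_succ']; exact hFF
  obtain ⟨nR, hR⟩ := F3o_triB V h₁ h₃ h₄ h₂ h₆ hΔ hFd hSd hy hf hs nT
  obtain ⟨nQ, hQ⟩ := F3o_relB V h₁ h₃ h₄ h₂ h₆ hΔ ef es hy' (pow_ne_zero _ hf)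
    (pow_ne_zero _ hs) nT' nF'
  have e1 : Point.some _ _ h = Point.some _ _ nT := F3o_some_eq _ _ rfl (mul_one y).symm
  have e2 : Point.some _ _ hF = Point.some _ _ nT' := F3o_some_eq _ _ rfl (mul_one _).symm
  have e3 : Point.some _ _ hFF = Point.some _ _ nF' :=
    F3o_some_eq _ _ rfl (by rw [← hy', ← pow_succ'])
  have e4 : Point.some _ _ nR = Point.some _ _ nQ := by
    apply F3o_some_eq
    · field_simp; rw [← sub_eq_zero]; ring_nf; try reduce_mod_char!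
    · have : y ^ 3 = y * F := by rw [← hy]; ring
      rw [this, mul_assoc]
      congr 2
      field_simp; rw [← sub_eq_zero]; ring_nf; try reduce_mod_char!
  rw [e1, e2, e3, hR, e4, ← hQ]
  abel


private lemma F3o_dblC [CharP κ 3] (V : WeierstrassCurve κ) (h₁ : V.a₁ = 0) (h₃ : V.a₃ = 0) (h₄ : V.a₄ = 0)
    (h₂ : V.a₂ = -1) (h₆ : V.a₆ = 1) (hΔ : V.Δ ≠ 0) {x y F : κ}
    (hFd : F = x ^ 3 + 2 * x ^ 2 + 1) (hy : y ^ 2 = F) (hf : F ≠ 0) (nT : V.toAffine.Nonsingular x (y * 1)) :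
    ∃ nD : V.toAffine.Nonsingular ((x ^ 4 + x + 1) / (F)) (y * ((2 * x ^ 6 + 2 * x ^ 5 + x ^ 3 + 2 * x ^ 2 + x + 2) / (F ^ 2))),
      Point.some _ _ nT + Point.some _ _ nT = Point.some _ _ nD := by
  have nD : V.toAffine.Nonsingular ((x ^ 4 + x + 1) / (F)) (y * ((2 * x ^ 6 + 2 * x ^ 5 + x ^ 3 + 2 * x ^ 2 + x + 2) / (F ^ 2))) :=
    F3o_ns V h₁ h₃ h₄ hΔ hy (by rw [h₂, h₆]; field_simp; subst hFd; rw [← sub_eq_zero]; ring_nf; try reduce_mod_char!)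
  have nD' : V.toAffine.Nonsingular ((x ^ 4 + x + 1) / (F)) (y * (-((2 * x ^ 6 + 2 * x ^ 5 + x ^ 3 + 2 * x ^ 2 + x + 2) / (F ^ 2)))) :=
    F3o_ns V h₁ h₃ h₄ hΔ hy (by rw [h₂, h₆]; field_simp; subst hFd; rw [← sub_eq_zero]; ring_nf; try reduce_mod_char!)
  refine ⟨nD, ?_⟩
  have hc := F3o_col V h₁ h₃ h₄ hy nT nT nD' (B := (2 * x) / (F)) (C := (x ^ 3 + 1) / (F))
    (by field_simp; subst hFd; rw [← sub_eq_zero]; ring_nf; try reduce_mod_char!) (by field_simp; subst hFd; rw [← sub_eq_zero]; ring_nf; try reduce_mod_char!)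
    (by field_simp; subst hFd; rw [← sub_eq_zero]; ring_nf; try reduce_mod_char!)
    (by rw [h₂]; field_simp; subst hFd; rw [← sub_eq_zero]; ring_nf; try reduce_mod_char!)
    (by field_simp; subst hFd; rw [← sub_eq_zero]; ring_nf; try reduce_mod_char!)
    (by rw [h₆]; field_simp; subst hFd; rw [← sub_eq_zero]; ring_nf; try reduce_mod_char!)
  rw [F3o_neg V h₁ h₃ nD nD'] at hc
  exact add_neg_eq_zero.mp hc

private lemma F3o_triC [CharP κ 3] (V : WeierstrassCurve κ) (h₁ : V.a₁ = 0) (h₃ : V.a₃ = 0) (h₄ : V.a₄ = 0)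
    (h₂ : V.a₂ = -1) (h₆ : V.a₆ = 1) (hΔ : V.Δ ≠ 0) {x y F S : κ}
    (hFd : F = x ^ 3 + 2 * x ^ 2 + 1) (hSd : S = x + 1) (hy : y ^ 2 = F) (hf : F ≠ 0) (hs : S ≠ 0)
    (nT : V.toAffine.Nonsingular x (y * 1)) :
    ∃ nR : V.toAffine.Nonsingular (((x ^ 3 + x + 1) / (S ^ 2)) ^ 3) (y * (F * ((2 * x ^ 3 + x + 1) / (S ^ 3)) ^ 3)),
      (3 : ℤ) • Point.some _ _ nT = Point.some _ _ nR := by
  obtain ⟨nD, hD⟩ := F3o_dblC V h₁ h₃ h₄ h₂ h₆ hΔ hFd hy hf nT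
  have nR : V.toAffine.Nonsingular (((x ^ 3 + x + 1) / (S ^ 2)) ^ 3) (y * (F * ((2 * x ^ 3 + x + 1) / (S ^ 3)) ^ 3)) :=
    F3o_ns V h₁ h₃ h₄ hΔ hy (by rw [h₂, h₆]; field_simp; subst hFd hSd; rw [← sub_eq_zero]; ring_nf; try reduce_mod_char!)
  have nR' : V.toAffine.Nonsingular (((x ^ 3 + x + 1) / (S ^ 2)) ^ 3) (y * (-(F * ((2 * x ^ 3 + x + 1) / (S ^ 3)) ^ 3))) :=
    F3o_ns V h₁ h₃ h₄ hΔ hy (by rw [h₂, h₆]; field_simp; subst hFd hSd; rw [← sub_eq_zero]; ring_nf; try reduce_mod_char!)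
  refine ⟨nR, ?_⟩
  have hc := F3o_col V h₁ h₃ h₄ hy nT nD nR' (B := (x ^ 6 + x ^ 5 + 2 * x ^ 4 + 2 * x ^ 3 + x ^ 2 + x + 1) / (S ^ 3 * F)) (C := (2 * x ^ 7 + x ^ 4 + x ^ 3 + x ^ 2 + 2 * x + 1) / (S ^ 3 * F))
    (by field_simp; subst hFd hSd; rw [← sub_eq_zero]; ring_nf; try reduce_mod_char!) (by field_simp; subst hFd hSd; rw [← sub_eq_zero]; ring_nf; try reduce_mod_char!)
    (by field_simp; subst hFd hSd; rw [← sub_eq_zero]; ring_nf; try reduce_mod_char!)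
    (by rw [h₂]; field_simp; subst hFd hSd; rw [← sub_eq_zero]; ring_nf; try reduce_mod_char!)
    (by field_simp; subst hFd hSd; rw [← sub_eq_zero]; ring_nf; try reduce_mod_char!)
    (by rw [h₆]; field_simp; subst hFd hSd; rw [← sub_eq_zero]; ring_nf; try reduce_mod_char!)
  rw [F3o_neg V h₁ h₃ nR nR', ← hD] at hc
  rw [← add_neg_eq_zero.mp hc]
  abel

private lemma F3o_relC [CharP κ 3] (V : WeierstrassCurve κ) (h₁ : V.a₁ = 0) (h₃ : V.a₃ = 0) (h₄ : V.a₄ = 0)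
    (h₂ : V.a₂ = -1) (h₆ : V.a₆ = 1) (hΔ : V.Δ ≠ 0) {x y F S : κ}
    (hFd : F = x ^ 3 + 2 * x ^ 2 + 1) (hSd : S = x + 1) (hy : y ^ 2 = F) (hf : F ≠ 0) (hs : S ≠ 0)
    (nT : V.toAffine.Nonsingular x (y * 1)) (nF : V.toAffine.Nonsingular (x ^ 3) (y * F)) :
    ∃ nQ : V.toAffine.Nonsingular ((x ^ 3 + x + 1) / (S ^ 2)) (y * ((2 * x ^ 3 + x + 1) / (S ^ 3))),
      Point.some _ _ nQ + Point.some _ _ nF = (-1 : ℤ) • Point.some _ _ nT := by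
  have nQ : V.toAffine.Nonsingular ((x ^ 3 + x + 1) / (S ^ 2)) (y * ((2 * x ^ 3 + x + 1) / (S ^ 3))) :=
    F3o_ns V h₁ h₃ h₄ hΔ hy (by rw [h₂, h₆]; field_simp; subst hFd hSd; rw [← sub_eq_zero]; ring_nf; try reduce_mod_char!)
  have nT' : V.toAffine.Nonsingular x (y * (-1)) :=
    F3o_ns V h₁ h₃ h₄ hΔ hy (by rw [h₂, h₆]; subst hFd; rw [← sub_eq_zero]; ring_nf; try reduce_mod_char!)
  refine ⟨nQ, ?_⟩
  have hc := F3o_col V h₁ h₃ h₄ hy nQ nF nT (B := (x) / (S)) (C := (2 * x ^ 2 + x + 1) / (S))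
    (by field_simp; subst hFd hSd; rw [← sub_eq_zero]; ring_nf; try reduce_mod_char!) (by field_simp; subst hFd hSd; rw [← sub_eq_zero]; ring_nf; try reduce_mod_char!)
    (by field_simp; subst hFd hSd; rw [← sub_eq_zero]; ring_nf; try reduce_mod_char!)
    (by rw [h₂]; field_simp; subst hFd hSd; rw [← sub_eq_zero]; ring_nf; try reduce_mod_char!)
    (by field_simp; subst hFd hSd; rw [← sub_eq_zero]; ring_nf; try reduce_mod_char!)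
    (by rw [h₆]; field_simp; subst hFd hSd; rw [← sub_eq_zero]; ring_nf; try reduce_mod_char!)
  skip
  rw [neg_one_smul]; exact add_eq_zero_iff_eq_neg.mp hc

private lemma F3o_finC [CharP κ 3] (V : WeierstrassCurve κ) (h₁ : V.a₁ = 0) (h₃ : V.a₃ = 0) (h₄ : V.a₄ = 0)
    (h₂ : V.a₂ = -1) (h₆ : V.a₆ = 1) (hΔ : V.Δ ≠ 0) {x y : κ}
    (h : V.toAffine.Nonsingular x y) (hF : V.toAffine.Nonsingular (x ^ 3) (y ^ 3))
    (hFF : V.toAffine.Nonsingular ((x ^ 3) ^ 3) ((y ^ 3) ^ 3))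
    (hf0 : x ^ 3 + 2 * x ^ 2 + 1 ≠ 0) (hs0 : x + 1 ≠ 0) :
    Point.some _ _ hFF - (-1 : ℤ) • Point.some _ _ hF + (3 : ℤ) • Point.some _ _ h = 0 := by
  obtain ⟨F, hFd⟩ : ∃ F : κ, F = x ^ 3 + 2 * x ^ 2 + 1 := ⟨_, rfl⟩
  obtain ⟨S, hSd⟩ : ∃ S : κ, S = x + 1 := ⟨_, rfl⟩
  have hf : F ≠ 0 := hFd ▸ hf0
  have hs : S ≠ 0 := hSd ▸ hs0
  have hy : y ^ 2 = F := by
    have := (Affine.equation_iff (W := V.toAffine) x y).mp h.1
    have e' : y ^ 2 + V.a₁ * x * y + V.a₃ * y = x ^ 3 + V.a₂ * x ^ 2 + V.a₄ * x + V.a₆ := this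
    rw [h₁, h₂, h₃, h₄, h₆] at e'
    have e3 : F = x ^ 3 + -1 * x ^ 2 + 0 * x + 1 := by rw [hFd, ← sub_eq_zero]; ring_nf; try reduce_mod_char!
    rw [e3, ← e']; ring
  have ef : F ^ 3 = (x ^ 3) ^ 3 + 2 * (x ^ 3) ^ 2 + 1 := by rw [hFd, ← sub_eq_zero]; ring_nf; try reduce_mod_char!
  have es : S ^ 3 = (x ^ 3) + 1 := by rw [hSd, ← sub_eq_zero]; ring_nf; try reduce_mod_char!
  have hy' : (y ^ 3) ^ 2 = F ^ 3 := by rw [← hy]; ring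
  have nT : V.toAffine.Nonsingular x (y * 1) := by rw [mul_one]; exact h
  have nT' : V.toAffine.Nonsingular (x ^ 3) (y ^ 3 * 1) := by rw [mul_one]; exact hF
  have nF' : V.toAffine.Nonsingular ((x ^ 3) ^ 3) (y ^ 3 * F ^ 3) := by
    rw [← hy', ← pow_succ']; exact hFF
  obtain ⟨nR, hR⟩ := F3o_triC V h₁ h₃ h₄ h₂ h₆ hΔ hFd hSd hy hf hs nT
  obtain ⟨nQ, hQ⟩ := F3o_relC V h₁ h₃ h₄ h₂ h₆ hΔ ef es hy' (pow_ne_zero _ hf)
    (pow_ne_zero _ hs) nT' nF'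
  have e1 : Point.some _ _ h = Point.some _ _ nT := F3o_some_eq _ _ rfl (mul_one y).symm
  have e2 : Point.some _ _ hF = Point.some _ _ nT' := F3o_some_eq _ _ rfl (mul_one _).symm
  have e3 : Point.some _ _ hFF = Point.some _ _ nF' :=
    F3o_some_eq _ _ rfl (by rw [← hy', ← pow_succ'])
  have e4 : Point.some _ _ nR = Point.some _ _ nQ := by
    apply F3o_some_eq
    · field_simp; rw [← sub_eq_zero]; ring_nf; try reduce_mod_char!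
    · have : y ^ 3 = y * F := by rw [← hy]; ring
      rw [this, mul_assoc]
      congr 2
      field_simp; rw [← sub_eq_zero]; ring_nf; try reduce_mod_char!
  rw [e1, e2, e3, hR, e4, ← hQ]
  abel


private lemma F3o_dblD [CharP κ 3] (V : WeierstrassCurve κ) (h₁ : V.a₁ = 0) (h₃ : V.a₃ = 0) (h₄ : V.a₄ = 0)
    (h₂ : V.a₂ = -1) (h₆ : V.a₆ = -1) (hΔ : V.Δ ≠ 0) {x y F : κ}
    (hFd : F = x ^ 3 + 2 * x ^ 2 + 2) (hy : y ^ 2 = F) (hf : F ≠ 0) (nT : V.toAffine.Nonsingular x (y * 1)) :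
    ∃ nD : V.toAffine.Nonsingular ((x ^ 4 + 2 * x + 2) / (F)) (y * ((2 * x ^ 6 + 2 * x ^ 5 + 2 * x ^ 3 + x ^ 2 + 2 * x + 2) / (F ^ 2))),
      Point.some _ _ nT + Point.some _ _ nT = Point.some _ _ nD := by
  have nD : V.toAffine.Nonsingular ((x ^ 4 + 2 * x + 2) / (F)) (y * ((2 * x ^ 6 + 2 * x ^ 5 + 2 * x ^ 3 + x ^ 2 + 2 * x + 2) / (F ^ 2))) :=
    F3o_ns V h₁ h₃ h₄ hΔ hy (by rw [h₂, h₆]; field_simp; subst hFd; rw [← sub_eq_zero]; ring_nf; try reduce_mod_char!)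
  have nD' : V.toAffine.Nonsingular ((x ^ 4 + 2 * x + 2) / (F)) (y * (-((2 * x ^ 6 + 2 * x ^ 5 + 2 * x ^ 3 + x ^ 2 + 2 * x + 2) / (F ^ 2)))) :=
    F3o_ns V h₁ h₃ h₄ hΔ hy (by rw [h₂, h₆]; field_simp; subst hFd; rw [← sub_eq_zero]; ring_nf; try reduce_mod_char!)
  refine ⟨nD, ?_⟩
  have hc := F3o_col V h₁ h₃ h₄ hy nT nT nD' (B := (2 * x) / (F)) (C := (x ^ 3 + 2) / (F))
    (by field_simp; subst hFd; rw [← sub_eq_zero]; ring_nf; try reduce_mod_char!) (by field_simp; subst hFd; rw [← sub_eq_zero]; ring_nf; try reduce_mod_char!)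
    (by field_simp; subst hFd; rw [← sub_eq_zero]; ring_nf; try reduce_mod_char!)
    (by rw [h₂]; field_simp; subst hFd; rw [← sub_eq_zero]; ring_nf; try reduce_mod_char!)
    (by field_simp; subst hFd; rw [← sub_eq_zero]; ring_nf; try reduce_mod_char!)
    (by rw [h₆]; field_simp; subst hFd; rw [← sub_eq_zero]; ring_nf; try reduce_mod_char!)
  rw [F3o_neg V h₁ h₃ nD nD'] at hc
  exact add_neg_eq_zero.mp hc

private lemma F3o_triD [CharP κ 3] (V : WeierstrassCurve κ) (h₁ : V.a₁ = 0) (h₃ : V.a₃ = 0) (h₄ : V.a₄ = 0)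
    (h₂ : V.a₂ = -1) (h₆ : V.a₆ = -1) (hΔ : V.Δ ≠ 0) {x y F S : κ}
    (hFd : F = x ^ 3 + 2 * x ^ 2 + 2) (hSd : S = x + 2) (hy : y ^ 2 = F) (hf : F ≠ 0) (hs : S ≠ 0)
    (nT : V.toAffine.Nonsingular x (y * 1)) :
    ∃ nR : V.toAffine.Nonsingular (((x ^ 3 + 2 * x + 2) / (S ^ 2)) ^ 3) (y * (F * ((2 * x ^ 3 + 2 * x) / (S ^ 3)) ^ 3)),
      (3 : ℤ) • Point.some _ _ nT = Point.some _ _ nR := by
  obtain ⟨nD, hD⟩ := F3o_dblD V h₁ h₃ h₄ h₂ h₆ hΔ hFd hy hf nT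
  have nR : V.toAffine.Nonsingular (((x ^ 3 + 2 * x + 2) / (S ^ 2)) ^ 3) (y * (F * ((2 * x ^ 3 + 2 * x) / (S ^ 3)) ^ 3)) :=
    F3o_ns V h₁ h₃ h₄ hΔ hy (by rw [h₂, h₆]; field_simp; subst hFd hSd; rw [← sub_eq_zero]; ring_nf; try reduce_mod_char!)
  have nR' : V.toAffine.Nonsingular (((x ^ 3 + 2 * x + 2) / (S ^ 2)) ^ 3) (y * (-(F * ((2 * x ^ 3 + 2 * x) / (S ^ 3)) ^ 3))) :=
    F3o_ns V h₁ h₃ h₄ hΔ hy (by rw [h₂, h₆]; field_simp; subst hFd hSd; rw [← sub_eq_zero]; ring_nf; try reduce_mod_char!)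
  refine ⟨nR, ?_⟩
  have hc := F3o_col V h₁ h₃ h₄ hy nT nD nR' (B := (x ^ 6 + x ^ 5 + 2 * x ^ 4 + x ^ 3 + 2 * x ^ 2 + 2 * x + 1) / (S ^ 3 * F)) (C := (2 * x ^ 7 + 2 * x ^ 4 + 2 * x ^ 3 + 2 * x ^ 2 + 2 * x + 1) / (S ^ 3 * F))
    (by field_simp; subst hFd hSd; rw [← sub_eq_zero]; ring_nf; try reduce_mod_char!) (by field_simp; subst hFd hSd; rw [← sub_eq_zero]; ring_nf; try reduce_mod_char!)
    (by field_simp; subst hFd hSd; rw [← sub_eq_zero]; ring_nf; try reduce_mod_char!)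
    (by rw [h₂]; field_simp; subst hFd hSd; rw [← sub_eq_zero]; ring_nf; try reduce_mod_char!)
    (by field_simp; subst hFd hSd; rw [← sub_eq_zero]; ring_nf; try reduce_mod_char!)
    (by rw [h₆]; field_simp; subst hFd hSd; rw [← sub_eq_zero]; ring_nf; try reduce_mod_char!)
  rw [F3o_neg V h₁ h₃ nR nR', ← hD] at hc
  rw [← add_neg_eq_zero.mp hc]
  abel

private lemma F3o_relD [CharP κ 3] (V : WeierstrassCurve κ) (h₁ : V.a₁ = 0) (h₃ : V.a₃ = 0) (h₄ : V.a₄ = 0)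
    (h₂ : V.a₂ = -1) (h₆ : V.a₆ = -1) (hΔ : V.Δ ≠ 0) {x y F S : κ}
    (hFd : F = x ^ 3 + 2 * x ^ 2 + 2) (hSd : S = x + 2) (hy : y ^ 2 = F) (hf : F ≠ 0) (hs : S ≠ 0)
    (nT : V.toAffine.Nonsingular x (y * 1)) (nF : V.toAffine.Nonsingular (x ^ 3) (y * F)) :
    ∃ nQ : V.toAffine.Nonsingular ((x ^ 3 + 2 * x + 2) / (S ^ 2)) (y * ((2 * x ^ 3 + 2 * x) / (S ^ 3))),
      Point.some _ _ nQ + Point.some _ _ nF = (2 : ℤ) • Point.some _ _ nT := by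
  obtain ⟨nD, hD⟩ := F3o_dblD V h₁ h₃ h₄ h₂ h₆ hΔ hFd hy hf nT
  have nQ : V.toAffine.Nonsingular ((x ^ 3 + 2 * x + 2) / (S ^ 2)) (y * ((2 * x ^ 3 + 2 * x) / (S ^ 3))) :=
    F3o_ns V h₁ h₃ h₄ hΔ hy (by rw [h₂, h₆]; field_simp; subst hFd hSd; rw [← sub_eq_zero]; ring_nf; try reduce_mod_char!)
  have nD' : V.toAffine.Nonsingular ((x ^ 4 + 2 * x + 2) / (F)) (y * (-((2 * x ^ 6 + 2 * x ^ 5 + 2 * x ^ 3 + x ^ 2 + 2 * x + 2) / (F ^ 2)))) :=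
    F3o_ns V h₁ h₃ h₄ hΔ hy (by rw [h₂, h₆]; field_simp; subst hFd; rw [← sub_eq_zero]; ring_nf; try reduce_mod_char!)
  refine ⟨nQ, ?_⟩
  have hc := F3o_col V h₁ h₃ h₄ hy nQ nF nD' (B := (x ^ 4 + x ^ 2 + 2) / (S * F)) (C := (2 * x ^ 5 + 2 * x ^ 3 + x ^ 2 + x + 2) / (S * F))
    (by field_simp; subst hFd hSd; rw [← sub_eq_zero]; ring_nf; try reduce_mod_char!) (by field_simp; subst hFd hSd; rw [← sub_eq_zero]; ring_nf; try reduce_mod_char!)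
    (by field_simp; subst hFd hSd; rw [← sub_eq_zero]; ring_nf; try reduce_mod_char!)
    (by rw [h₂]; field_simp; subst hFd hSd; rw [← sub_eq_zero]; ring_nf; try reduce_mod_char!)
    (by field_simp; subst hFd hSd; rw [← sub_eq_zero]; ring_nf; try reduce_mod_char!)
    (by rw [h₆]; field_simp; subst hFd hSd; rw [← sub_eq_zero]; ring_nf; try reduce_mod_char!)
  rw [F3o_neg V h₁ h₃ nD nD', ← hD] at hc
  rw [add_neg_eq_zero.mp hc]; abel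

private lemma F3o_finD [CharP κ 3] (V : WeierstrassCurve κ) (h₁ : V.a₁ = 0) (h₃ : V.a₃ = 0) (h₄ : V.a₄ = 0)
    (h₂ : V.a₂ = -1) (h₆ : V.a₆ = -1) (hΔ : V.Δ ≠ 0) {x y : κ}
    (h : V.toAffine.Nonsingular x y) (hF : V.toAffine.Nonsingular (x ^ 3) (y ^ 3))
    (hFF : V.toAffine.Nonsingular ((x ^ 3) ^ 3) ((y ^ 3) ^ 3))
    (hf0 : x ^ 3 + 2 * x ^ 2 + 2 ≠ 0) (hs0 : x + 2 ≠ 0) :
    Point.some _ _ hFF - (2 : ℤ) • Point.some _ _ hF + (3 : ℤ) • Point.some _ _ h = 0 := by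
  obtain ⟨F, hFd⟩ : ∃ F : κ, F = x ^ 3 + 2 * x ^ 2 + 2 := ⟨_, rfl⟩
  obtain ⟨S, hSd⟩ : ∃ S : κ, S = x + 2 := ⟨_, rfl⟩
  have hf : F ≠ 0 := hFd ▸ hf0
  have hs : S ≠ 0 := hSd ▸ hs0
  have hy : y ^ 2 = F := by
    have := (Affine.equation_iff (W := V.toAffine) x y).mp h.1
    have e' : y ^ 2 + V.a₁ * x * y + V.a₃ * y = x ^ 3 + V.a₂ * x ^ 2 + V.a₄ * x + V.a₆ := this
    rw [h₁, h₂, h₃, h₄, h₆] at e'
    have e3 : F = x ^ 3 + -1 * x ^ 2 + 0 * x + -1 := by rw [hFd, ← sub_eq_zero]; ring_nf; try reduce_mod_char!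
    rw [e3, ← e']; ring
  have ef : F ^ 3 = (x ^ 3) ^ 3 + 2 * (x ^ 3) ^ 2 + 2 := by rw [hFd, ← sub_eq_zero]; ring_nf; try reduce_mod_char!
  have es : S ^ 3 = (x ^ 3) + 2 := by rw [hSd, ← sub_eq_zero]; ring_nf; try reduce_mod_char!
  have hy' : (y ^ 3) ^ 2 = F ^ 3 := by rw [← hy]; ring
  have nT : V.toAffine.Nonsingular x (y * 1) := by rw [mul_one]; exact h
  have nT' : V.toAffine.Nonsingular (x ^ 3) (y ^ 3 * 1) := by rw [mul_one]; exact hF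
  have nF' : V.toAffine.Nonsingular ((x ^ 3) ^ 3) (y ^ 3 * F ^ 3) := by
    rw [← hy', ← pow_succ']; exact hFF
  obtain ⟨nR, hR⟩ := F3o_triD V h₁ h₃ h₄ h₂ h₆ hΔ hFd hSd hy hf hs nT
  obtain ⟨nQ, hQ⟩ := F3o_relD V h₁ h₃ h₄ h₂ h₆ hΔ ef es hy' (pow_ne_zero _ hf)
    (pow_ne_zero _ hs) nT' nF'
  have e1 : Point.some _ _ h = Point.some _ _ nT := F3o_some_eq _ _ rfl (mul_one y).symm
  have e2 : Point.some _ _ hF = Point.some _ _ nT' := F3o_some_eq _ _ rfl (mul_one _).symm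
  have e3 : Point.some _ _ hFF = Point.some _ _ nF' :=
    F3o_some_eq _ _ rfl (by rw [← hy', ← pow_succ'])
  have e4 : Point.some _ _ nR = Point.some _ _ nQ := by
    apply F3o_some_eq
    · field_simp; rw [← sub_eq_zero]; ring_nf; try reduce_mod_char!
    · have : y ^ 3 = y * F := by rw [← hy]; ring
      rw [this, mul_assoc]
      congr 2
      field_simp; rw [← sub_eq_zero]; ring_nf; try reduce_mod_char!
  rw [e1, e2, e3, hR, e4, ← hQ]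
  abel


private lemma F3o_fin_set (g : κ → κ) (P : Polynomial κ) (hP : P ≠ 0) (hg : ∀ x, P.eval x = g x) :
    ∃ B : Finset κ, ∀ x, x ∉ B → g x ≠ 0 := by
  refine ⟨P.roots.toFinset, fun x hx h0 => hx ?_⟩
  rw [Multiset.mem_toFinset, Polynomial.mem_roots hP, Polynomial.IsRoot.def, hg, h0]

private lemma F3o_set (a b c : κ) :
    ∃ B : Finset κ, ∀ x, x ∉ B → x ^ 3 + a * x ^ 2 + b ≠ 0 ∧ x + c ≠ 0 := by
  classical
  have hP : (Polynomial.X ^ 3 + Polynomial.C a * Polynomial.X ^ 2 + Polynomial.C b :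
      Polynomial κ) ≠ 0 := by
    intro h
    have := congrArg (fun p => Polynomial.coeff p 3) h
    simp [Polynomial.coeff_X_pow] at this
  have hQ : (Polynomial.X + Polynomial.C c : Polynomial κ) ≠ 0 := Polynomial.X_add_C_ne_zero c
  obtain ⟨B₁, hB₁⟩ := F3o_fin_set (fun x => x ^ 3 + a * x ^ 2 + b) _ hP (fun x => by simp)
  obtain ⟨B₂, hB₂⟩ := F3o_fin_set (fun x => x + c) _ hQ (fun x => by simp)
  refine ⟨B₁ ∪ B₂, fun x hx => ?_⟩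
  rw [Finset.mem_union, not_or] at hx
  exact ⟨hB₁ x hx.1, hB₂ x hx.2⟩

private lemma F3o_disc [CharP κ 3] (V : WeierstrassCurve κ) (h₁ : V.a₁ = 0) (h₃ : V.a₃ = 0)
    (h₄ : V.a₄ = 0) (h₂ : V.a₂ = 1 ∨ V.a₂ = -1) (h₆ : V.a₆ = 1 ∨ V.a₆ = -1) : V.Δ ≠ 0 := by
  have h3 : (3 : κ) = 0 := by exact_mod_cast CharP.cast_eq_zero κ 3
  have e : V.Δ = -V.a₂ ^ 3 * V.a₆ := by
    simp only [WeierstrassCurve.Δ, WeierstrassCurve.b₂, WeierstrassCurve.b₄, WeierstrassCurve.b₆,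
      WeierstrassCurve.b₈, h₁, h₃, h₄]
    linear_combination (-21 * V.a₂ ^ 3 * V.a₆ - 144 * V.a₆ ^ 2) * h3
  rw [e]
  rcases h₂ with h₂ | h₂ <;> rcases h₆ with h₆ | h₆ <;> rw [h₂, h₆] <;> norm_num

end F3o

/-- (F3o) the Frobenius relation on the four ordinary normal forms in characteristic 3. -/
theorem rel3_ord {κ : Type*} [Field κ] [DecidableEq κ] [CharP κ 3] (V : WeierstrassCurve κ)
    (h₁ : V.a₁ = 0) (h₃ : V.a₃ = 0) (h₄ : V.a₄ = 0) (e : ℤ)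
    (h₂₆ : (V.a₂ = 1 ∧ V.a₆ = 1 ∧ e = -2) ∨ (V.a₂ = 1 ∧ V.a₆ = -1 ∧ e = 1) ∨
      (V.a₂ = -1 ∧ V.a₆ = 1 ∧ e = -1) ∨ (V.a₂ = -1 ∧ V.a₆ = -1 ∧ e = 2)) :
    ∃ B : Finset κ, ∀ (x y : κ) (h : V.toAffine.Nonsingular x y)
      (hF : V.toAffine.Nonsingular (x ^ 3) (y ^ 3))
      (hFF : V.toAffine.Nonsingular ((x ^ 3) ^ 3) ((y ^ 3) ^ 3)), x ∉ B →
      Point.some _ _ hFF - e • Point.some _ _ hF + (3 : ℤ) • Point.some _ _ h = 0 := by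
  rcases h₂₆ with ⟨h₂, h₆, rfl⟩ | ⟨h₂, h₆, rfl⟩ | ⟨h₂, h₆, rfl⟩ | ⟨h₂, h₆, rfl⟩
  · obtain ⟨B, hB⟩ := F3o_set (κ := κ) 1 1 1
    refine ⟨B, fun x y h hF hFF hx => ?_⟩
    have hΔ := F3o_disc V h₁ h₃ h₄ (Or.inl h₂) (Or.inl h₆)
    refine F3o_finA V h₁ h₃ h₄ h₂ h₆ hΔ h hF hFF ?_ ?_
    · have := (hB x hx).1
      intro h0; apply this; rw [← h0]; try ring
    · have := (hB x hx).2
      intro h0; apply this; rw [← h0]
  · obtain ⟨B, hB⟩ := F3o_set (κ := κ) 1 2 2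
    refine ⟨B, fun x y h hF hFF hx => ?_⟩
    have hΔ := F3o_disc V h₁ h₃ h₄ (Or.inl h₂) (Or.inr h₆)
    refine F3o_finB V h₁ h₃ h₄ h₂ h₆ hΔ h hF hFF ?_ ?_
    · have := (hB x hx).1
      intro h0; apply this; rw [← h0]; try ring
    · have := (hB x hx).2
      intro h0; apply this; rw [← h0]
  · obtain ⟨B, hB⟩ := F3o_set (κ := κ) 2 1 1
    refine ⟨B, fun x y h hF hFF hx => ?_⟩
    have hΔ := F3o_disc V h₁ h₃ h₄ (Or.inr h₂) (Or.inl h₆)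
    refine F3o_finC V h₁ h₃ h₄ h₂ h₆ hΔ h hF hFF ?_ ?_
    · have := (hB x hx).1
      intro h0; apply this; rw [← h0]; try ring
    · have := (hB x hx).2
      intro h0; apply this; rw [← h0]
  · obtain ⟨B, hB⟩ := F3o_set (κ := κ) 2 2 2
    refine ⟨B, fun x y h hF hFF hx => ?_⟩
    have hΔ := F3o_disc V h₁ h₃ h₄ (Or.inr h₂) (Or.inr h₆)
    refine F3o_finD V h₁ h₃ h₄ h₂ h₆ hΔ h hF hFF ?_ ?_
    · have := (hB x hx).1
      intro h0; apply this; rw [← h0]; try ring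
    · have := (hB x hx).2
      intro h0; apply this; rw [← h0]

end Fermat.Agent.S58Lib
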