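import Fermat.Agent.S58.Defs
import Fermat.Agent.S52.FrobRel

/-!
# S58 (F3s): the Frobenius relation on `y² = x³ + a x + b` in characteristic 3
(copies of `tw_relation`, `frob_relation` of S52 with `3 ≤ ℓ`)
-/

set_option autoImplicit false

namespace Fermat.Agent.S58Lib

open WeierstrassCurve WeierstrassCurve.Affine Polynomial
open Fermat.Agent.S52Lib

section TW

variable {ℓ : ℕ} [Fact ℓ.Prime] {F : Type*} [Field F] [CharP F ℓ] [DecidableEq (RatFunc F)]

/-- (TWR) the Frobenius relation on the twisted curve -/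
theorem F3s_tw_relation (h3 : 3 ≤ ℓ) (a b : ℤ) (hd : ((4 * a ^ 3 + 27 * b ^ 2 : ℤ) : F) ≠ 0)
    (η Φ Φ₂ : TwPt (a : F) (b : F))
    (hη : co η = some (fT (a : F) (b : F) * RatFunc.X, fT (a : F) (b : F) ^ 2))
    (hΦ : co Φ = some (fT (a : F) (b : F) * RatFunc.X ^ ℓ,
        fT (a : F) (b : F) ^ 2 * fT (a : F) (b : F) ^ ((ℓ - 1) / 2)))
    (hΦ₂ : co Φ₂ = some (fT (a : F) (b : F) * RatFunc.X ^ (ℓ ^ 2),
        fT (a : F) (b : F) ^ 2 * fT (a : F) (b : F) ^ ((ℓ ^ 2 - 1) / 2))) :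
    (2 : ℕ) • (Φ₂ - ((ℓ : ℤ) + 1 - (Nat.card (Pt ((a : ℤ) : ZMod ℓ) ((b : ℤ) : ZMod ℓ)) : ℤ)) • Φ
      + (ℓ : ℤ) • η) = 0 := by
  have hℓ : ℓ.Prime := Fact.out
  have hodd : Odd ℓ := hℓ.odd_of_ne_two (by omega)
  obtain ⟨e, he⟩ := hodd
  have he1 : (ℓ - 1) / 2 = e := by omega
  have he2 : (ℓ ^ 2 - 1) / 2 = 2 * e ^ 2 + 2 * e := by
    have : ℓ ^ 2 = 2 * (2 * e ^ 2 + 2 * e) + 1 := by rw [he]; ring
    omega
  have he3 : ℓ - 1 = 2 * e := by omega
  have h2 : (2 : F) ≠ 0 := by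
    intro h
    have : ((2 : ℕ) : F) = 0 := by exact_mod_cast h
    rw [CharP.cast_eq_zero_iff F ℓ] at this
    have := Nat.le_of_dvd (by norm_num) this
    omega
  have hd' : 4 * (a : F) ^ 3 + 27 * (b : F) ^ 2 ≠ 0 := by
    intro h; apply hd; push_cast; exact h
  have hdZ : ((4 * a ^ 3 + 27 * b ^ 2 : ℤ) : ZMod ℓ) ≠ 0 := by
    intro h
    apply hd
    rw [CharP.intCast_eq_zero_iff (ZMod ℓ) ℓ] at h
    rwa [CharP.intCast_eq_zero_iff F ℓ]
  have hf0 : fT (a : F) (b : F) ≠ 0 := fT_ne_zero _ _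
  -- heights
  have hhη : ht η = 1 := by
    rw [ht_of_co hη, mul_div_cancel_left₀ _ hf0]
    simpa using rdeg_X_pow (F := F) 1
  have hhΦ : ht Φ = ℓ := by
    rw [ht_of_co hΦ, mul_div_cancel_left₀ _ hf0]
    exact rdeg_X_pow ℓ
  have hcard := card_pt_zmod (ℓ := ℓ) h3 a b hdZ
  have hsum := card_filter_sum (ℓ := ℓ) h3 a b
  have hle1 := ht_sub_le h3 a b hd η Φ hη hΦ
  have hle2 := ht_add_le h3 a b hd η Φ hη hΦ
  have hPLn := ht_parallelogram h2 hd' (A := (a : F)) (B := (b : F))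
  obtain ⟨N, hN⟩ : ∃ N : ℕ, N = Nat.card (Pt ((a : ℤ) : ZMod ℓ) ((b : ℤ) : ZMod ℓ)) := ⟨_, rfl⟩
  rw [← hN] at hcard ⊢
  have hβN : ht (Φ - η) = N := by
    have := hPLn Φ η
    omega
  have hN0 : N ≠ 0 := by omega
  obtain ⟨Fr, hFrco, hFrht⟩ := exists_twFrob (F := F) h3 a b
  obtain ⟨Cb, σ, ξ, υ, hβ, hυ, hσX, hCbco, hCbht⟩ := exists_comp h2 (Φ - η) (by rw [hβN]; exact hN0)
  have hFrη : Fr η = Φ := by
    apply co_injective
    rw [hFrco, hη, hΦ, he1, he3]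
    simp only [Option.map_some, Option.some.injEq, Prod.mk.injEq]
    constructor
    · rw [div_eq_iff (pow_ne_zero _ hf0), he]; ring
    · rw [div_eq_iff (pow_ne_zero _ hf0), he]; ring
  have hFrΦ : Fr Φ = Φ₂ := by
    apply co_injective
    rw [hFrco, hΦ, hΦ₂, he1, he2, he3]
    simp only [Option.map_some, Option.some.injEq, Prod.mk.injEq]
    constructor
    · rw [div_eq_iff (pow_ne_zero _ hf0), he]; ring
    · rw [div_eq_iff (pow_ne_zero _ hf0), he]; ring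
  have heqn := co_eqn hβ
  have hσf : σ (fT (a : F) (b : F)) = υ ^ 2 / fT (a : F) (b : F) ^ 3 := by
    have : σ (fT (a : F) (b : F)) = (ξ / fT (a : F) (b : F)) ^ 3
        + RatFunc.C (a : F) * (ξ / fT (a : F) (b : F)) + RatFunc.C (b : F) := by
      conv_lhs => unfold fT
      rw [map_add, map_add, map_mul, map_pow, hσX]
      congr 1
      · congr 2
        exact σ.commutes _
      · exact σ.commutes _
    rw [this, heqn]
    field_simp
  have hCη : Cb η = Φ - η := by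
    apply co_injective
    rw [hCbco, hη, hβ]
    simp only [Option.map_some, Option.some.injEq, Prod.mk.injEq]
    constructor
    · rw [map_mul, hσf, hσX]; field_simp
    · rw [map_pow, hσf]; field_simp
  have hCΦ : Cb Φ = Fr (Φ - η) := by
    apply co_injective
    rw [hCbco, hFrco, hΦ, hβ, he1, he3]
    simp only [Option.map_some, Option.some.injEq, Prod.mk.injEq]
    constructor
    · rw [map_mul, map_pow, hσf, hσX, he, div_pow]; field_simp; ring
    · rw [map_mul, map_pow, map_pow, hσf, he, div_pow, div_pow]; field_simp; ring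
  have key := qf_main (fun P : TwPt (a : F) (b : F) => (ht P : ℤ))
    (by intro P Q; have := hPLn P Q; norm_cast)
    η Φ Φ₂ Fr Cb (ℓ : ℤ) (N : ℤ) (by simp [hhη]) (by simp [hhΦ]) (by simp [hβN])
    (by intro P; simp [hFrht]) hFrη hFrΦ (by intro P; simp [hCbht, hβN]) hCη hCΦ
  apply two_nsmul_eq_zero_of_ht h2
  exact_mod_cast key


end TW

section FR

variable {ℓ : ℕ} [Fact ℓ.Prime] {F : Type*} [Field F] [CharP F ℓ] [DecidableEq F]

/-- (FROB) -/
theorem F3s_frob_relation (h3 : 3 ≤ ℓ) (h2 : (2 : F) ≠ 0) (a b : ℤ)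
    (hd : ((4 * a ^ 3 + 27 * b ^ 2 : ℤ) : F) ≠ 0) (Q : Pt (a : F) (b : F)) {x y : F}
    (hQ : co Q = some (x, y)) (hy : y ≠ 0) :
    (2 : ℕ) • (mapPt h2 (frobenius F ℓ) (frobenius_intCast a) (frobenius_intCast b)
        (mapPt h2 (frobenius F ℓ) (frobenius_intCast a) (frobenius_intCast b) Q)
      - ((ℓ : ℤ) + 1 - (Nat.card (Pt ((a : ℤ) : ZMod ℓ) ((b : ℤ) : ZMod ℓ)) : ℤ)) •
        mapPt h2 (frobenius F ℓ) (frobenius_intCast a) (frobenius_intCast b) Q
      + (ℓ : ℤ) • Q) = 0 := by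
  classical
  have hℓ : ℓ.Prime := Fact.out
  have hodd : Odd ℓ := hℓ.odd_of_ne_two (by omega)
  obtain ⟨e, he⟩ := hodd
  have he1 : (ℓ - 1) / 2 = e := by omega
  have he2 : (ℓ ^ 2 - 1) / 2 = 2 * e ^ 2 + 2 * e := by
    have : ℓ ^ 2 = 2 * (2 * e ^ 2 + 2 * e) + 1 := by rw [he]; ring
    omega
  have hd' : 4 * (a : F) ^ 3 + 27 * (b : F) ^ 2 ≠ 0 := by
    intro h; apply hd; push_cast; exact h
  obtain ⟨η, Φ, Φ₂, hη, hΦ, hΦ₂⟩ := exists_tw_points (F := F) h3 a b hd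
  have hrel := F3s_tw_relation h3 a b hd η Φ Φ₂ hη hΦ hΦ₂
  have heqn := co_eqn hQ
  obtain ⟨sp, hsp⟩ := exists_spec h2 (a : F) (b : F) hd' hy heqn
  have hspη : sp η = Q := by
    apply co_injective
    rw [hsp η (fPoly (a : F) (b : F) * X) (fPoly (a : F) (b : F) ^ 2)
      (by rw [hη, map_mul, map_pow, algebraMap_fPoly, RatFunc.algebraMap_X]), hQ]
    simp only [eval_mul, eval_pow, eval_X, eval_fPoly, ← heqn, Option.some.injEq, Prod.mk.injEq]
    constructor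
    · field_simp
    · field_simp
  have hspΦ : sp Φ = mapPt h2 (frobenius F ℓ) (frobenius_intCast a) (frobenius_intCast b) Q := by
    apply co_injective
    rw [hsp Φ (fPoly (a : F) (b : F) * X ^ ℓ) (fPoly (a : F) (b : F) ^ 2 * fPoly (a : F) (b : F) ^ e)
      (by rw [hΦ, map_mul, map_mul, map_pow, map_pow, map_pow, algebraMap_fPoly,
        RatFunc.algebraMap_X, he1]), co_mapPt, hQ]
    simp only [eval_mul, eval_pow, eval_X, eval_fPoly, ← heqn, Option.some.injEq, Prod.mk.injEq,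
      Option.map_some, frobenius_def]
    constructor
    · field_simp
    · rw [he]; field_simp; ring
  have hspΦ₂ : sp Φ₂ = mapPt h2 (frobenius F ℓ) (frobenius_intCast a) (frobenius_intCast b)
      (mapPt h2 (frobenius F ℓ) (frobenius_intCast a) (frobenius_intCast b) Q) := by
    apply co_injective
    rw [hsp Φ₂ (fPoly (a : F) (b : F) * X ^ (ℓ ^ 2))
      (fPoly (a : F) (b : F) ^ 2 * fPoly (a : F) (b : F) ^ (2 * e ^ 2 + 2 * e))
      (by rw [hΦ₂, map_mul, map_mul, map_pow, map_pow, map_pow, algebraMap_fPoly,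
        RatFunc.algebraMap_X, he2]), co_mapPt, co_mapPt, hQ]
    simp only [eval_mul, eval_pow, eval_X, eval_fPoly, ← heqn, Option.some.injEq, Prod.mk.injEq,
      Option.map_some, frobenius_def]
    constructor
    · field_simp; ring
    · rw [he]; field_simp; ring
  have := congrArg sp hrel
  rw [map_nsmul, map_add, map_sub, map_zsmul, map_zsmul, hspη, hspΦ, hspΦ₂, map_zero] at this
  exact this


end FR

/-- (F3s) `S58/RelThreeSS.lean`: `y² = x³ + a x + b` in characteristic 3 = `frob_relation` of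
`S52/FrobRel.lean` for `ℓ = 3`: in `tw_relation` / `frob_relation` the hypothesis `5 ≤ ℓ` is only used
through `3 ≤ ℓ`; copy the two proofs. -/
theorem rel3_ss {κ : Type*} [Field κ] [DecidableEq κ] [CharP κ 3] (a b : ℤ) (ha : ¬ (3 : ℤ) ∣ a)
    (V : WeierstrassCurve κ) (h₁ : V.a₁ = 0) (h₂ : V.a₂ = 0) (h₃ : V.a₃ = 0) (h₄ : V.a₄ = (a : κ))
    (h₆ : V.a₆ = (b : κ)) {x y : κ}
    (h : V.toAffine.Nonsingular x y) (hF : V.toAffine.Nonsingular (x ^ 3) (y ^ 3))
    (hFF : V.toAffine.Nonsingular ((x ^ 3) ^ 3) ((y ^ 3) ^ 3)) (hy : y ≠ 0) :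
    (2 : ℕ) • (Point.some _ _ hFF
      - ((3 : ℤ) + 1 - (Nat.card (Fermat.Agent.S52Lib.Pt ((a : ℤ) : ZMod 3) ((b : ℤ) : ZMod 3)) : ℤ)) •
        Point.some _ _ hF + (3 : ℤ) • Point.some _ _ h) = 0 := by
  haveI : Fact (Nat.Prime 3) := ⟨Nat.prime_three⟩
  obtain rfl : V = SW (a : κ) (b : κ) := by
    ext
    · exact h₁
    · exact h₂
    · exact h₃
    · exact h₄
    · exact h₆
  have h2 : (2 : κ) ≠ 0 := by
    intro h0
    have : ((2 : ℕ) : κ) = 0 := by exact_mod_cast h0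
    rw [CharP.cast_eq_zero_iff κ 3] at this
    omega
  have hd : ((4 * a ^ 3 + 27 * b ^ 2 : ℤ) : κ) ≠ 0 := by
    rw [Ne, CharP.intCast_eq_zero_iff κ 3]
    intro hdvd
    have h27 : ((3 : ℕ) : ℤ) ∣ 27 * b ^ 2 := ⟨9 * b ^ 2, by push_cast; ring⟩
    have h4 : ((3 : ℕ) : ℤ) ∣ 4 * a ^ 3 := (Int.dvd_add_left h27).mp hdvd
    have hp : Prime ((3 : ℕ) : ℤ) := Nat.prime_iff_prime_int.mp Nat.prime_three
    rcases hp.dvd_or_dvd h4 with h | h
    · norm_num at h
    · exact ha (by exact_mod_cast hp.dvd_of_dvd_pow h)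
  have key := F3s_frob_relation (ℓ := 3) (F := κ) le_rfl h2 a b hd
    (Point.some x y h : Pt (a : κ) (b : κ)) (x := x) (y := y) rfl hy
  have e1 : mapPt h2 (frobenius κ 3) (frobenius_intCast a) (frobenius_intCast b)
      (Point.some x y h : Pt (a : κ) (b : κ)) = Point.some _ _ hF := by
    apply co_injective
    rw [co_mapPt]
    rfl
  have e2 : mapPt h2 (frobenius κ 3) (frobenius_intCast a) (frobenius_intCast b)
      (Point.some _ _ hF : Pt (a : κ) (b : κ)) = Point.some _ _ hFF := by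
    apply co_injective
    rw [co_mapPt]
    rfl
  rw [e1, e2] at key
  exact_mod_cast key

end Fermat.Agent.S58Lib
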