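import Fermat.Agent.S58.Cofinite
import Fermat.Agent.S58.RelThreeOrd
import Fermat.Agent.S58.RelThreeSS
import Fermat.Agent.S58.ApThree

/-!
# S58 (R4n), `ℓ = 3`: the Frobenius relation for a curve in normal form
-/

set_option autoImplicit false

namespace Fermat.Agent.S58Lib

open WeierstrassCurve WeierstrassCurve.Affine Polynomial

section Fin

variable {κ : Type*} [Field κ] (V : WeierstrassCurve κ)

/-- affine coordinates -/
def R4m_co : V.toAffine.Point → Option (κ × κ)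
  | .zero => none
  | .some x y _ => some (x, y)

theorem R4m_co_injective : Function.Injective (R4m_co V) := by
  intro P Q h
  cases P with
  | zero =>
    cases Q with
    | zero => rfl
    | some x y h' => simp [R4m_co] at h
  | some x y h' =>
    cases Q with
    | zero => simp [R4m_co] at h
    | some x' y' h'' =>
      simp only [R4m_co, Option.some.injEq, Prod.mk.injEq] at h
      obtain ⟨rfl, rfl⟩ := h
      rfl

/-- the points with `x`-coordinate in a finite set are finite in number -/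
theorem R4m_finite (B : Finset κ) :
    {g : V.toAffine.Point | ∃ x y h, g = Point.some x y h ∧ x ∈ B}.Finite := by
  classical
  let p : κ → κ[X] := fun x => X ^ 2 + C (V.a₁ * x + V.a₃) * X
    - C (x ^ 3 + V.a₂ * x ^ 2 + V.a₄ * x + V.a₆)
  have hp : ∀ x, p x ≠ 0 := by
    intro x
    have : (p x).Monic := by
      show (X ^ 2 + C (V.a₁ * x + V.a₃) * X
        - C (x ^ 3 + V.a₂ * x ^ 2 + V.a₄ * x + V.a₆) : κ[X]).Monic
      monicity!
    exact this.ne_zero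
  let S : Finset (Option (κ × κ)) :=
    (B.biUnion (fun x => ((p x).roots.toFinset).image (fun y => (x, y)))).image some
  apply Set.Finite.of_finite_image (f := R4m_co V) _ (R4m_co_injective V).injOn
  apply (Finset.finite_toSet S).subset
  rintro _ ⟨g, ⟨x, y, h, rfl, hx⟩, rfl⟩
  show some (x, y) ∈ (S : Set (Option (κ × κ)))
  rw [Finset.mem_coe, Finset.mem_image]
  refine ⟨(x, y), ?_, rfl⟩
  rw [Finset.mem_biUnion]
  refine ⟨x, hx, ?_⟩
  rw [Finset.mem_image]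
  refine ⟨y, ?_, rfl⟩
  rw [Multiset.mem_toFinset, mem_roots (hp x), IsRoot.def]
  have he := (Affine.equation_iff (W := V.toAffine) x y).mp h.1
  show (X ^ 2 + C (V.a₁ * x + V.a₃) * X
        - C (x ^ 3 + V.a₂ * x ^ 2 + V.a₄ * x + V.a₆) : κ[X]).eval y = 0
  simp only [eval_sub, eval_add, eval_pow, eval_X, eval_mul, eval_C]
  linear_combination he

end Fin

theorem R4m_cast {κ : Type*} [Field κ] (q : ℕ) [CharP κ q] {z c : ℤ} (h : (q : ℤ) ∣ z - c) :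
    ((z : ℤ) : κ) = (c : κ) := by
  have := (CharP.intCast_eq_zero_iff κ q (z - c)).mpr h
  push_cast at this
  exact sub_eq_zero.mp this

section Three

variable {κ : Type*} [Field κ] [DecidableEq κ] [CharP κ 3] (V : WeierstrassCurve κ)
  [Infinite V.toAffine.Point] (Φ : V.toAffine.Point →+ V.toAffine.Point)
  (hΦ : ∀ x y (h : V.toAffine.Nonsingular x y),
        ∃ h' : V.toAffine.Nonsingular (x ^ 3) (y ^ 3), Φ (Point.some x y h) = Point.some _ _ h')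

include hΦ in
theorem R4n_three_ord (h₁ : V.a₁ = 0) (h₃ : V.a₃ = 0) (h₄ : V.a₄ = 0) (e : ℤ)
    (h₂₆ : (V.a₂ = 1 ∧ V.a₆ = 1 ∧ e = -2) ∨ (V.a₂ = 1 ∧ V.a₆ = -1 ∧ e = 1) ∨
      (V.a₂ = -1 ∧ V.a₆ = 1 ∧ e = -1) ∨ (V.a₂ = -1 ∧ V.a₆ = -1 ∧ e = 2))
    (T : V.toAffine.Point) :
    Φ (Φ T) - e • Φ T + (3 : ℤ) • T = 0 := by
  let ψ : V.toAffine.Point →+ V.toAffine.Point :=
    Φ.comp Φ - e • Φ + (3 : ℤ) • AddMonoidHom.id _
  have hψ : ∀ g, ψ g = Φ (Φ g) - e • Φ g + (3 : ℤ) • g := fun g => rfl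
  rw [← hψ]
  obtain ⟨B, hB⟩ := rel3_ord V h₁ h₃ h₄ e h₂₆
  apply eq_zero_of_cofinite ψ _ (R4m_finite V B)
  intro g hg
  cases g with
  | zero => exact map_zero ψ
  | some x y h =>
    have hx : x ∉ B := fun hx => hg ⟨x, y, h, rfl, hx⟩
    obtain ⟨hF, eF⟩ := hΦ x y h
    obtain ⟨hFF, eFF⟩ := hΦ _ _ hF
    rw [hψ, eF, eFF]
    exact hB x y h hF hFF hx

include hΦ in
theorem R4n_three_ss (a b : ℤ) (ha : ¬ (3 : ℤ) ∣ a) (h₁ : V.a₁ = 0) (h₂ : V.a₂ = 0)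
    (h₃ : V.a₃ = 0) (h₄ : V.a₄ = (a : κ)) (h₆ : V.a₆ = (b : κ)) (e : ℤ)
    (he : e = (3 : ℤ) + 1
      - (Nat.card (Fermat.Agent.S52Lib.Pt ((a : ℤ) : ZMod 3) ((b : ℤ) : ZMod 3)) : ℤ))
    (T : V.toAffine.Point) :
    (2 : ℕ) • (Φ (Φ T) - e • Φ T + (3 : ℤ) • T) = 0 := by
  classical
  let ψ : V.toAffine.Point →+ V.toAffine.Point :=
    (2 : ℕ) • (Φ.comp Φ - e • Φ + (3 : ℤ) • AddMonoidHom.id _)
  have hψ : ∀ g, ψ g = (2 : ℕ) • (Φ (Φ g) - e • Φ g + (3 : ℤ) • g) := fun g => rfl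
  rw [← hψ]
  have hc : (X ^ 3 + C (a : κ) * X + C (b : κ) : κ[X]) ≠ 0 := by
    have : (X ^ 3 + C (a : κ) * X + C (b : κ) : κ[X]).Monic := by monicity!
    exact this.ne_zero
  apply eq_zero_of_cofinite ψ _
    (R4m_finite V (X ^ 3 + C (a : κ) * X + C (b : κ) : κ[X]).roots.toFinset)
  intro g hg
  cases g with
  | zero => exact map_zero ψ
  | some x y h =>
    have hy : y ≠ 0 := by
      rintro rfl
      apply hg
      refine ⟨x, 0, h, rfl, ?_⟩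
      rw [Multiset.mem_toFinset, mem_roots hc, IsRoot.def]
      have he' := (Affine.equation_iff (W := V.toAffine) x 0).mp h.1
      simp only [eval_add, eval_pow, eval_X, eval_mul, eval_C]
      have q₂ : V.toAffine.a₂ = 0 := h₂
      have q₄ : V.toAffine.a₄ = (a : κ) := h₄
      have q₆ : V.toAffine.a₆ = (b : κ) := h₆
      rw [q₂, q₄, q₆] at he'
      linear_combination -he'
    obtain ⟨hF, eF⟩ := hΦ x y h
    obtain ⟨hFF, eFF⟩ := hΦ _ _ hF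
    rw [hψ, eF, eFF, he]
    exact rel3_ss a b ha V h₁ h₂ h₃ h₄ h₆ h hF hFF hy

end Three

/-- (R4n) `S58/RelNF3.lean`: `ℓ = 3` -/
theorem frob_rel_nf_three (W : WeierstrassCurve ℤ)
    (h₁ : (3 : ℤ) ∣ W.a₁) (h₃ : (3 : ℤ) ∣ W.a₃)
    (hnf : ((3 : ℤ) ∣ W.a₄ ∧ ¬ (3 : ℤ) ∣ W.a₂ ∧ ¬ (3 : ℤ) ∣ W.a₆) ∨
        ((3 : ℤ) ∣ W.a₂ ∧ ¬ (3 : ℤ) ∣ W.a₄))
    {κ : Type*} [Field κ] [DecidableEq κ] [CharP κ 3]
    [Infinite (W.map (Int.castRingHom κ)).toAffine.Point]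
    (Φ : (W.map (Int.castRingHom κ)).toAffine.Point →+ (W.map (Int.castRingHom κ)).toAffine.Point)
    (hΦ : ∀ x y (h : (W.map (Int.castRingHom κ)).toAffine.Nonsingular x y),
        ∃ h' : (W.map (Int.castRingHom κ)).toAffine.Nonsingular (x ^ 3) (y ^ 3),
          Φ (Point.some x y h) = Point.some _ _ h')
    (T : (W.map (Int.castRingHom κ)).toAffine.Point) :
    (2 : ℕ) • (Φ (Φ T) - W.apOfModel 3 • Φ T + (3 : ℤ) • T) = 0 := by
  have c0 : ∀ {z : ℤ}, (3 : ℤ) ∣ z → ((z : ℤ) : κ) = 0 := by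
    intro z hz
    have := R4m_cast (κ := κ) 3 (z := z) (c := 0) (by simpa using hz)
    simpa using this
  have c1 : ∀ {z : ℤ}, (3 : ℤ) ∣ z - 1 → ((z : ℤ) : κ) = 1 := by
    intro z hz
    have := R4m_cast (κ := κ) 3 (z := z) (c := 1) (by simpa using hz)
    simpa using this
  have cm : ∀ {z : ℤ}, (3 : ℤ) ∣ z + 1 → ((z : ℤ) : κ) = -1 := by
    intro z hz
    have := R4m_cast (κ := κ) 3 (z := z) (c := -1) (by simpa using hz)
    simpa using this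
  have hpar : ∀ z : ℤ, ¬ (3 : ℤ) ∣ z → (3 : ℤ) ∣ z - 1 ∨ (3 : ℤ) ∣ z + 1 := by
    intro z hz
    omega
  rcases hnf with ⟨h4, h2, h6⟩ | ⟨h2, h4⟩
  · rw [R4n_three_ord _ Φ hΦ (c0 h₁) (c0 h₃) (c0 h4) _ ?_ T, smul_zero]
    obtain ⟨p1, p2, p3, p4⟩ := ap_three_ord W h₁ h₃ h4
    rcases hpar _ h2 with h2 | h2 <;> rcases hpar _ h6 with h6 | h6
    · exact Or.inl ⟨c1 h2, c1 h6, p1 h2 h6⟩
    · exact Or.inr (Or.inl ⟨c1 h2, cm h6, p2 h2 h6⟩)
    · exact Or.inr (Or.inr (Or.inl ⟨cm h2, c1 h6, p3 h2 h6⟩))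
    · exact Or.inr (Or.inr (Or.inr ⟨cm h2, cm h6, p4 h2 h6⟩))
  · exact R4n_three_ss _ Φ hΦ W.a₄ W.a₆ h4 (c0 h₁) (c0 h2) (c0 h₃) rfl rfl _
      (ap_three_ss W h₁ h2 h₃) T

end Fermat.Agent.S58Lib
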