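import Fermat.Agent.S58.ApTrans

/-!
# S58 (R4t): transport of the Frobenius relation along a translation by integers
-/

set_option autoImplicit false

namespace Fermat.Agent.S58Lib

open WeierstrassCurve WeierstrassCurve.Affine Fermat.Agent.S40Lib

/-- (R4t) -/
theorem frob_rel_of_trans (W : WeierstrassCurve ℤ) (r s t : ℤ) {ℓ : ℕ} [Fact ℓ.Prime]
    {κ : Type*} [Field κ] [DecidableEq κ] [CharP κ ℓ] (c : ℕ)
    (H : ∀ (Φ' : ((trans W r s t).map (Int.castRingHom κ)).toAffine.Point →+
        ((trans W r s t).map (Int.castRingHom κ)).toAffine.Point),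
      (∀ x y (h : ((trans W r s t).map (Int.castRingHom κ)).toAffine.Nonsingular x y),
        ∃ h' : ((trans W r s t).map (Int.castRingHom κ)).toAffine.Nonsingular (x ^ ℓ) (y ^ ℓ),
          Φ' (Point.some x y h) = Point.some _ _ h') →
      ∀ T, c • (Φ' (Φ' T) - (trans W r s t).apOfModel ℓ • Φ' T + (ℓ : ℤ) • T) = 0)
    (Φ : (W.map (Int.castRingHom κ)).toAffine.Point →+ (W.map (Int.castRingHom κ)).toAffine.Point)
    (hΦ : ∀ x y (h : (W.map (Int.castRingHom κ)).toAffine.Nonsingular x y),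
        ∃ h' : (W.map (Int.castRingHom κ)).toAffine.Nonsingular (x ^ ℓ) (y ^ ℓ),
          Φ (Point.some x y h) = Point.some _ _ h')
    (T : (W.map (Int.castRingHom κ)).toAffine.Point) :
    c • (Φ (Φ T) - W.apOfModel ℓ • Φ T + (ℓ : ℤ) • T) = 0 := by
  have hθ := exists_transEquiv (W.map (Int.castRingHom κ))
    (Int.castRingHom κ r) (Int.castRingHom κ s) (Int.castRingHom κ t)
  rw [← trans_map] at hθ
  obtain ⟨θ, hθ⟩ := hθ
  have hpow : ∀ n : ℤ, (Int.castRingHom κ n) ^ ℓ = Int.castRingHom κ n := by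
    intro n
    have := map_intCast (frobenius κ ℓ) n
    rw [frobenius_def] at this
    simpa using this
  -- the conjugate of `Φ`
  set Φ' : ((trans W r s t).map (Int.castRingHom κ)).toAffine.Point →+
      ((trans W r s t).map (Int.castRingHom κ)).toAffine.Point :=
    (θ.toAddMonoidHom.comp Φ).comp θ.symm.toAddMonoidHom with hΦ'def
  have hconj : ∀ P, Φ' (θ P) = θ (Φ P) := by
    intro P
    show θ (Φ (θ.symm (θ P))) = θ (Φ P)
    rw [θ.symm_apply_apply]
  have hΦ' : ∀ x y (h : ((trans W r s t).map (Int.castRingHom κ)).toAffine.Nonsingular x y),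
      ∃ h' : ((trans W r s t).map (Int.castRingHom κ)).toAffine.Nonsingular (x ^ ℓ) (y ^ ℓ),
        Φ' (Point.some x y h) = Point.some _ _ h' := by
    intro x y h
    obtain ⟨P, hP⟩ := θ.surjective (Point.some x y h)
    cases P with
    | zero =>
      exfalso
      have e : θ (Point.zero) = 0 := map_zero θ
      rw [e] at hP
      exact Point.some_ne_zero h hP.symm
    | some X Y hXY =>
      obtain ⟨k, hk⟩ := hθ X Y hXY
      rw [hk] at hP
      simp only [Point.some.injEq] at hP
      obtain ⟨ex, ey⟩ := hP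
      obtain ⟨k₂, hk₂⟩ := hΦ X Y hXY
      obtain ⟨k₃, hk₃⟩ := hθ _ _ k₂
      have eX : X ^ ℓ - Int.castRingHom κ r = x ^ ℓ := by
        rw [← ex, sub_pow_char, hpow]
      have eY : Y ^ ℓ - Int.castRingHom κ s * (X ^ ℓ - Int.castRingHom κ r) - Int.castRingHom κ t
          = y ^ ℓ := by
        rw [← ey, sub_pow_char, sub_pow_char, mul_pow, sub_pow_char, hpow, hpow, hpow]
      have hmain : Φ' (Point.some x y h) = Point.some _ _ k₃ := by
        have e1 : Point.some x y h = θ (Point.some X Y hXY) := by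
          rw [hk]
          simp only [Point.some.injEq]
          exact ⟨ex.symm, ey.symm⟩
        rw [e1, hconj, hk₂, hk₃]
      have k₄ : ((trans W r s t).map (Int.castRingHom κ)).toAffine.Nonsingular (x ^ ℓ) (y ^ ℓ) := by
        rw [← eX, ← eY]
        exact k₃
      refine ⟨k₄, ?_⟩
      rw [hmain]
      simp only [Point.some.injEq]
      exact ⟨eX, eY⟩
  have hrel := H Φ' hΦ' (θ T)
  rw [apOfModel_trans W r s t (Fact.out : ℓ.Prime), hconj, hconj] at hrel
  have e : θ (c • (Φ (Φ T) - W.apOfModel ℓ • Φ T + (ℓ : ℤ) • T))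
      = c • (θ (Φ (Φ T)) - W.apOfModel ℓ • θ (Φ T) + (ℓ : ℤ) • θ T) := by
    rw [map_nsmul, map_add, map_sub, map_zsmul, map_zsmul]
  rw [← e] at hrel
  exact (map_eq_zero_iff θ θ.injective).mp hrel

end Fermat.Agent.S58Lib
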