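import Fermat.Agent.S58.ClassTwo
import Fermat.Agent.S58.ClassThree
import Fermat.Agent.S58.InfTrans
import Fermat.Agent.S58.RelTrans
import Fermat.Agent.S58.RelNF
import Fermat.Agent.S58.RelNF3

set_option autoImplicit false

namespace Fermat.Agent.S58Lib

open WeierstrassCurve WeierstrassCurve.Affine Fermat.Agent.S40Lib

local notation "Qb" => AlgebraicClosure ℚ
local notation "GQ" => (AlgebraicClosure ℚ ≃ₐ[ℚ] AlgebraicClosure ℚ)

/-- (R4) the Frobenius relation in characteristic 2, 3 (up to 2-torsion) -/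
theorem frob_rel_char (W : WeierstrassCurve ℤ) {ℓ : ℕ} [Fact ℓ.Prime] (hℓ : ℓ = 2 ∨ ℓ = 3)
    (hgood : ¬ (ℓ : ℤ) ∣ W.Δ) {κ : Type*} [Field κ] [DecidableEq κ] [CharP κ ℓ]
    [Infinite (W.map (Int.castRingHom κ)).toAffine.Point]
    (Φ : (W.map (Int.castRingHom κ)).toAffine.Point →+ (W.map (Int.castRingHom κ)).toAffine.Point)
    (hΦ : ∀ x y (h : (W.map (Int.castRingHom κ)).toAffine.Nonsingular x y),
        ∃ h' : (W.map (Int.castRingHom κ)).toAffine.Nonsingular (x ^ ℓ) (y ^ ℓ),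
          Φ (Point.some x y h) = Point.some _ _ h')
    (T : (W.map (Int.castRingHom κ)).toAffine.Point) :
    2 • (Φ (Φ T) - W.apOfModel ℓ • Φ T + (ℓ : ℤ) • T) = 0 := by
  rcases hℓ with rfl | rfl
  · obtain ⟨r, s, t, hnf⟩ := exists_nf_two W (by simpa using hgood)
    haveI := infinite_trans W r s t (κ := κ)
    refine frob_rel_of_trans W r s t 2 (fun Φ' hΦ' T' => ?_) Φ hΦ T
    rw [Nat.cast_ofNat, frob_rel_nf_two (trans W r s t) hnf Φ' hΦ' T', smul_zero]
  · obtain ⟨r, s, t, h1, h3, hnf⟩ := exists_nf_three W (by simpa using hgood)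
    haveI := infinite_trans W r s t (κ := κ)
    refine frob_rel_of_trans W r s t 2 (fun Φ' hΦ' T' => ?_) Φ hΦ T
    exact frob_rel_nf_three (trans W r s t) h1 h3 hnf Φ' hΦ' T'


end Fermat.Agent.S58Lib
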