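import Fermat.Agent.S58.Red
import Fermat.Agent.S58.RedInt
import Fermat.Agent.S58.FrobHom
import Fermat.Agent.S58.IntTors
import Fermat.Agent.S58.RelChar

/-!
# S58 (E3s): the Frobenius relation on `E[m]` at the good primes `2` and `3`
-/

set_option autoImplicit false

namespace Fermat.Agent.S58Lib

open WeierstrassCurve WeierstrassCurve.Affine Fermat.Agent.S40Lib Fermat.Agent.S52Lib

local notation "Qb" => AlgebraicClosure ℚ
local notation "GQ" => (AlgebraicClosure ℚ ≃ₐ[ℚ] AlgebraicClosure ℚ)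

/-- the `m`-torsion subgroup -/
noncomputable def E3s_tor (W : WeierstrassCurve ℤ) (m : ℕ) : AddSubgroup (EPt W) where
  carrier := {u | m • u = 0}
  add_mem' := by
    intro a b ha hb
    show m • (a + b) = 0
    have ha' : m • a = 0 := ha
    have hb' : m • b = 0 := hb
    rw [nsmul_add, ha', hb', add_zero]
  zero_mem' := nsmul_zero _
  neg_mem' := by
    intro a ha
    show m • (-a) = 0
    have ha' : m • a = 0 := ha
    rw [neg_nsmul, ha', neg_zero]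

theorem E3s_mem_tor (W : WeierstrassCurve ℤ) (m : ℕ) (u : EPt W) :
    u ∈ E3s_tor W m ↔ m • u = 0 := Iff.rfl

/-- the reduction map on the `m`-torsion -/
theorem E3s_red (W : WeierstrassCurve ℤ) (hΔ : W.Δ ≠ 0) {ℓ m : ℕ} (hℓ : ℓ.Prime) (hm : Odd m)
    (hℓm : ¬ ℓ ∣ m) (𝔄 : ValuationSubring Qb) (h𝔄 : 𝔄.LiesOverPrime ℓ)
    [DecidableEq (IsLocalRing.ResidueField 𝔄)]
    (hΔb : (W.map (Int.castRingHom (IsLocalRing.ResidueField 𝔄))).Δ ≠ 0) :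
    ∃ r : E3s_tor W m →+ (W.map (Int.castRingHom (IsLocalRing.ResidueField 𝔄))).toAffine.Point,
      Function.Injective r ∧
      ∀ x y (h : (FW_V W).toAffine.Nonsingular x y) (hP : Point.some x y h ∈ E3s_tor W m),
        ∃ (hx : x ∈ 𝔄) (hy : y ∈ 𝔄)
          (h' : (W.map (Int.castRingHom (IsLocalRing.ResidueField 𝔄))).toAffine.Nonsingular
            (IsLocalRing.residue 𝔄 ⟨x, hx⟩) (IsLocalRing.residue 𝔄 ⟨y, hy⟩)),
          r ⟨Point.some x y h, hP⟩ = Point.some _ _ h' :=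
  exists_red 𝔄 (IsLocalRing.residue 𝔄) (redData_int W 𝔄) hΔb (E3s_tor W m)
    (fun _ _ h hP => (mem_of_torsion W hΔ 𝔄 hℓ h𝔄 hm hℓm h hP).1)

/-- the reduced curve has infinitely many points over the residue field of `Qbar` -/
theorem E3s_infinite (W : WeierstrassCurve ℤ) (hΔ : W.Δ ≠ 0) {ℓ : ℕ} (hℓ : ℓ = 2 ∨ ℓ = 3)
    (𝔄 : ValuationSubring Qb) (h𝔄 : 𝔄.LiesOverPrime ℓ)
    [DecidableEq (IsLocalRing.ResidueField 𝔄)]
    (hΔb : (W.map (Int.castRingHom (IsLocalRing.ResidueField 𝔄))).Δ ≠ 0) :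
    Infinite (W.map (Int.castRingHom (IsLocalRing.ResidueField 𝔄))).toAffine.Point := by
  by_contra hfin
  rw [not_infinite_iff_finite] at hfin
  have hℓp : ℓ.Prime := by rcases hℓ with rfl | rfl <;> norm_num
  set n := Nat.card (W.map (Int.castRingHom (IsLocalRing.ResidueField 𝔄))).toAffine.Point with hn
  have hnd : ¬ ℓ ∣ 2 * (3 * n) + 1 := by
    rcases hℓ with rfl | rfl <;> omega
  obtain ⟨r, hr, -⟩ := E3s_red W hΔ hℓp (m := 2 * (3 * n) + 1) ⟨3 * n, rfl⟩ hnd 𝔄 h𝔄 hΔb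
  have h1 := Nat.card_le_card_of_injective r hr
  have h2 := (TM_torsion W hΔ (3 * n)).2
  have h3 : Nat.card (E3s_tor W (2 * (3 * n) + 1))
      = {x : EPt W | (2 * (3 * n) + 1) • x = 0}.ncard := rfl
  rw [h3, h2, ← hn] at h1
  nlinarith

theorem frob_rel_small (W : WeierstrassCurve ℤ) (hΔ : W.Δ ≠ 0) {ℓ m : ℕ} (hℓ : ℓ = 2 ∨ ℓ = 3)
    (hm : Odd m) (hℓm : ¬ ℓ ∣ m) (hgood : W.IsGoodPrimeFor ℓ)
    (𝔄 : ValuationSubring Qb) (σ : GQ) (h𝔄 : 𝔄.LiesOverPrime ℓ) (hσ : 𝔄.IsFrobeniusAt σ ℓ)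
    (u : EPt W) (hu : m • u = 0) :
    σ • σ • u - (W.apOfModel ℓ) • σ • u + (ℓ : ℤ) • u = 0 := by
  classical
  have hℓp : ℓ.Prime := by rcases hℓ with rfl | rfl <;> norm_num
  haveI : Fact ℓ.Prime := ⟨hℓp⟩
  obtain ⟨hO𝔄, hπ𝔄⟩ := frob_facts 𝔄 σ hσ
  have hℓκ : ((ℓ : ℕ) : (IsLocalRing.ResidueField 𝔄)) = 0 := by
    have h1 : ((ℓ : ℕ) : 𝔄) ∈ IsLocalRing.maximalIdeal 𝔄 := by
      rw [IsLocalRing.mem_maximalIdeal, mem_nonunits_iff]
      intro hunit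
      have := (ValuationSubring.mem_nonunits_iff_exists_mem_maximalIdeal).mp h𝔄
      obtain ⟨ha, hm⟩ := this
      rw [IsLocalRing.mem_maximalIdeal, mem_nonunits_iff] at hm
      apply hm
      have e : (⟨((ℓ : ℕ) : Qb), ha⟩ : 𝔄) = ((ℓ : ℕ) : 𝔄) := Subtype.ext (by simp)
      rw [e]; exact hunit
    have := (IsLocalRing.residue_eq_zero_iff _).mpr h1
    rwa [map_natCast] at this
  haveI : CharP (IsLocalRing.ResidueField 𝔄) ℓ := (CharP.charP_iff_prime_eq_zero hℓp).mpr hℓκ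
  have hΔb : (W.map (Int.castRingHom (IsLocalRing.ResidueField 𝔄))).Δ ≠ 0 := by
    rw [WeierstrassCurve.map_Δ]
    intro h
    exact hgood ((CharP.intCast_eq_zero_iff (IsLocalRing.ResidueField 𝔄) ℓ _).mp h)
  haveI := E3s_infinite W hΔ hℓ 𝔄 h𝔄 hΔb
  obtain ⟨r, hr, hrs⟩ := E3s_red W hΔ hℓp hm hℓm 𝔄 h𝔄 hΔb
  obtain ⟨Φ, hΦ⟩ := exists_frobHom W (κ := IsLocalRing.ResidueField 𝔄) ℓ
  have hσmem : ∀ v : EPt W, v ∈ E3s_tor W m → σ • v ∈ E3s_tor W m := by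
    intro v hv
    rw [E3s_mem_tor] at hv ⊢
    rw [smul_comm, hv]
    rfl
  have hcomm : ∀ (v : EPt W) (hv : v ∈ E3s_tor W m),
      r ⟨σ • v, hσmem v hv⟩ = Φ (r ⟨v, hv⟩) := by
    intro v hv
    cases v with
    | zero =>
      have e1 : (⟨σ • (Point.zero : EPt W), hσmem _ hv⟩ : E3s_tor W m) = 0 := Subtype.ext rfl
      have e2 : (⟨(Point.zero : EPt W), hv⟩ : E3s_tor W m) = 0 := Subtype.ext rfl
      rw [e1, e2, map_zero, map_zero]
    | some x y h =>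
      have e0 : ∃ h'' : (FW_V W).toAffine.Nonsingular (σ x) (σ y),
          σ • (Point.some x y h : EPt W) = Point.some (σ x) (σ y) h'' := by
        rw [Point.algEquiv_smul_def, Point.map_some]
        exact ⟨_, rfl⟩
      obtain ⟨h'', e0⟩ := e0
      have hmem' : (Point.some (σ x) (σ y) h'' : EPt W) ∈ E3s_tor W m := e0 ▸ hσmem _ hv
      have e1 : (⟨σ • (Point.some x y h : EPt W), hσmem _ hv⟩ : E3s_tor W m)
          = ⟨Point.some (σ x) (σ y) h'', hmem'⟩ := Subtype.ext e0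
      obtain ⟨hx', hy', h1, e2⟩ := hrs (σ x) (σ y) h'' hmem'
      obtain ⟨hx, hy, h2, e3⟩ := hrs x y h hv
      obtain ⟨h3, e4⟩ := hΦ _ _ h2
      rw [e1, e2, e3, e4]
      simp only [Point.some.injEq]
      exact ⟨hπ𝔄 ⟨x, hx⟩ hx', hπ𝔄 ⟨y, hy⟩ hy'⟩
  have hu' : u ∈ E3s_tor W m := hu
  have hw : σ • σ • u - (W.apOfModel ℓ) • σ • u + (ℓ : ℤ) • u ∈ E3s_tor W m :=
    (E3s_tor W m).add_mem ((E3s_tor W m).sub_mem (hσmem _ (hσmem _ hu'))
      ((E3s_tor W m).zsmul_mem (hσmem _ hu') _)) ((E3s_tor W m).zsmul_mem hu' _)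
  have hsplit : (⟨σ • σ • u - (W.apOfModel ℓ) • σ • u + (ℓ : ℤ) • u, hw⟩ : E3s_tor W m)
      = (⟨σ • σ • u, hσmem _ (hσmem _ hu')⟩ : E3s_tor W m)
        - (W.apOfModel ℓ) • (⟨σ • u, hσmem _ hu'⟩ : E3s_tor W m)
        + (ℓ : ℤ) • (⟨u, hu'⟩ : E3s_tor W m) := Subtype.ext rfl
  have hrel := frob_rel_char W hℓ hgood Φ hΦ (r ⟨u, hu'⟩)
  have h2w : (2 : ℕ) • (⟨σ • σ • u - (W.apOfModel ℓ) • σ • u + (ℓ : ℤ) • u, hw⟩ : E3s_tor W m)
      = 0 := by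
    apply hr
    rw [map_nsmul, map_zero, hsplit, map_add, map_sub, map_zsmul, map_zsmul,
      hcomm _ (hσmem _ hu'), hcomm _ hu']
    exact hrel
  have h2w' : (2 : ℕ) • (σ • σ • u - (W.apOfModel ℓ) • σ • u + (ℓ : ℤ) • u) = 0 :=
    congrArg Subtype.val h2w
  obtain ⟨k, rfl⟩ := hm
  have hmw : (2 * k + 1) • (σ • σ • u - (W.apOfModel ℓ) • σ • u + (ℓ : ℤ) • u) = 0 := hw
  rw [add_nsmul, one_nsmul, mul_nsmul, h2w', nsmul_zero, zero_add] at hmw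
  exact hmw

end Fermat.Agent.S58Lib
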