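import Fermat.Agent.S58.FrobBig
import Fermat.Agent.S58.FrobSmall

set_option autoImplicit false

namespace Fermat.Agent.S58Lib

open WeierstrassCurve WeierstrassCurve.Affine Fermat.Agent.S40Lib

local notation "Qb" => AlgebraicClosure ℚ
local notation "GQ" => (AlgebraicClosure ℚ ≃ₐ[ℚ] AlgebraicClosure ℚ)

/-- (E3) -/
theorem frob_rel_all (W : WeierstrassCurve ℤ) (hΔ : W.Δ ≠ 0) {ℓ m : ℕ} (hℓ : ℓ.Prime)
    (hm : Odd m) (hℓm : ¬ ℓ ∣ m) (hgood : W.IsGoodPrimeFor ℓ)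
    (𝔄 : ValuationSubring Qb) (σ : GQ) (h𝔄 : 𝔄.LiesOverPrime ℓ) (hσ : 𝔄.IsFrobeniusAt σ ℓ)
    (u : EPt W) (hu : m • u = 0) :
    σ • σ • u - (W.apOfModel ℓ) • σ • u + (ℓ : ℤ) • u = 0 := by
  by_cases h5 : 5 ≤ ℓ
  · exact frob_rel_big W hΔ hℓ h5 hm hℓm hgood 𝔄 σ h𝔄 hσ u hu
  · have : ℓ = 2 ∨ ℓ = 3 := by
      have h2 := hℓ.two_le
      have h4 : ℓ ≠ 4 := by rintro rfl; exact absurd hℓ (by norm_num)
      omega
    exact frob_rel_small W hΔ this hm hℓm hgood 𝔄 σ h𝔄 hσ u hu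

end Fermat.Agent.S58Lib
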