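import Fermat.Agent.S58.Defs

/-!
# S58 (E2): `E[m]` is defined over a number field
-/

set_option autoImplicit false

namespace Fermat.Agent.S58Lib

open WeierstrassCurve WeierstrassCurve.Affine Fermat.Agent.S40Lib

local notation "Qb" => AlgebraicClosure ℚ
local notation "GQ" => (AlgebraicClosure ℚ ≃ₐ[ℚ] AlgebraicClosure ℚ)

/-- (E2) `S58/Level.lean` (as in `exists_rhoE`, `S40/TorMod.lean`) -/
theorem exists_level (W : WeierstrassCurve ℤ) (hΔ : W.Δ ≠ 0) {m : ℕ} (hm : Odd m) :
    ∃ L : IntermediateField ℚ Qb, FiniteDimensional ℚ L ∧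
      ∀ σ : GQ, (∀ x ∈ L, σ x = x) → ∀ u : EPt W, m • u = 0 → σ • u = u := by
  obtain ⟨k, hk⟩ := hm
  obtain ⟨hfin, -⟩ := TM_torsion W hΔ k
  rw [← hk] at hfin
  let S : Set Qb := ⋃ x ∈ {x : EPt W | m • x = 0}, QRLib.w42_coords x
  have hS : S.Finite := hfin.biUnion (fun x _ => QRLib.w42_coords_finite x)
  have : Finite S := hS
  have : FiniteDimensional ℚ (IntermediateField.adjoin ℚ S) :=
    IntermediateField.finiteDimensional_adjoin
      (fun x _ => (AlgebraicClosure.isAlgebraic ℚ).isIntegral.isIntegral x)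
  refine ⟨IntermediateField.adjoin ℚ S, inferInstance, fun σ hσ u hu => ?_⟩
  change Point.map (W' := W.map (Int.castRingHom ℚ)) σ.toAlgHom u = u
  apply QRLib.w42_map_eq_self
  intro c hc
  have hcS : c ∈ S := Set.mem_biUnion (show u ∈ {x : EPt W | m • x = 0} from hu) hc
  exact hσ c (IntermediateField.subset_adjoin ℚ S hcS)

end Fermat.Agent.S58Lib
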