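import Fermat.Agent.S58.Defs
import Fermat.Agent.S58.NewtonPow
import Fermat.Agent.S58.FrobAll
import Fermat.Agent.S58.Level
import Fermat.Agent.S31.Main
import Fermat.Agent.S31.CycloPow
import Fermat.Agent.Lib.Chebotarev.Main

/-!
# S58, modular side, leaf (ECMP): weak Chebotarev on `E[lam ^ n]`
-/

set_option autoImplicit false

namespace Fermat.Agent.S58Lib

open WeierstrassCurve WeierstrassCurve.Affine Fermat.Agent.S40Lib
open Fermat.Agent.S31Lib (newton)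

local notation "Qb" => AlgebraicClosure ℚ
local notation "GQ" => (AlgebraicClosure ℚ ≃ₐ[ℚ] AlgebraicClosure ℚ)

/-- the endomorphism of `E[m]` induced by `τ` -/
noncomputable def ECMP_end (W : WeierstrassCurve ℤ) (m : ℕ) (τ : GQ) : Module.End ℤ (ETor W m) :=
  (actE W m τ).toIntLinearMap

theorem ECMP_end_apply (W : WeierstrassCurve ℤ) (m : ℕ) (τ : GQ) (v : ETor W m) :
    ((ECMP_end W m τ v : ETor W m) : EPt W) = τ • (v : EPt W) := rfl

theorem ECMP_end_pow_apply (W : WeierstrassCurve ℤ) (m : ℕ) (τ : GQ) (k : ℕ) (v : ETor W m) :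
    (((ECMP_end W m τ) ^ k) v : EPt W) = τ ^ k • (v : EPt W) := by
  induction k generalizing v with
  | zero => simp
  | succ k ih =>
    rw [pow_succ, Module.End.mul_apply, ih, ECMP_end_apply, pow_succ, mul_smul]

/-- the relation for the powers of a Frobenius element -/
theorem ECMP_pow_rel (W : WeierstrassCurve ℤ) {m : ℕ} (τ : GQ) (a d : ℤ)
    (h : ∀ u : EPt W, m • u = 0 → τ • τ • u - a • τ • u + d • u = 0) (k : ℕ)
    (u : EPt W) (hu : m • u = 0) :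
    τ ^ k • τ ^ k • u - newton a d k • τ ^ k • u + d ^ k • u = 0 := by
  have hmem : ∀ v : ETor W m, m • (v : EPt W) = 0 := by
    intro v
    have := v.2
    rw [Submodule.mem_torsionBy_iff] at this
    rwa [Nat.cast_smul_eq_nsmul] at this
  have hq : ECMP_end W m τ * ECMP_end W m τ - a • ECMP_end W m τ +
      d • (1 : Module.End ℤ (ETor W m)) = 0 := by
    apply LinearMap.ext
    intro v
    apply Subtype.ext
    exact h (v : EPt W) (hmem v)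
  have key := quadratic_pow_newton (ECMP_end W m τ) a d hq k
  have hu' : u ∈ Submodule.torsionBy ℤ (EPt W) (m : ℤ) := by
    rw [Submodule.mem_torsionBy_iff, Nat.cast_smul_eq_nsmul]
    exact hu
  have key2 := congrArg (fun f : Module.End ℤ (ETor W m) => ((f ⟨u, hu'⟩ : ETor W m) : EPt W)) key
  simp only [LinearMap.add_apply, LinearMap.sub_apply, LinearMap.smul_apply, Module.End.mul_apply,
    Module.End.one_apply, LinearMap.zero_apply, Submodule.coe_add, Submodule.coe_sub,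
    Submodule.coe_smul, Submodule.coe_zero, ECMP_end_pow_apply] at key2
  exact key2

/-- (ECMP) weak Chebotarev on `U ⊓ (level of E[lam^n]) ⊓ (level of the cyclotomic character)`:
`σ ≡ τ ^ k`, `τ` a Frobenius at a good prime `ℓ ∉ S`.  Tools: `ChebLib.weak_chebotarev`,
`exists_level`, `S31Lib.exists_cyclo_pow`, `frob_rel_all`, (NW) in `Module.End ℤ (E[lam^n])`. -/
theorem ecmp (W : WeierstrassCurve ℤ) (hΔ : W.Δ ≠ 0) {lam : ℕ} (hlam : lam.Prime) (h2 : lam ≠ 2)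
    (n : ℕ) (S : Finset ℕ) (hlamS : lam ∈ S)
    (hbadS : ∀ q : ℕ, q.Prime → (q : ℤ) ∣ W.Δ → q ∈ S)
    (U : Subgroup GQ) (hUo : IsOpen (U : Set GQ)) (hUn : U.Normal) (σ : GQ) :
    ∃ (ℓ : ℕ) (A : ValuationSubring Qb) (τ : GQ) (k : ℕ), ℓ.Prime ∧ ℓ ∉ S ∧ A.LiesOverPrime ℓ ∧
      A.IsFrobeniusAt τ ℓ ∧ σ⁻¹ * τ ^ k ∈ U ∧
      (∀ u : EPt W, lam ^ n • u = 0 →
        σ • σ • u - newton (W.apOfModel ℓ) (ℓ : ℤ) k • σ • u + ((ℓ : ℤ) ^ k) • u = 0) ∧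
      (∀ q : ℕ, q.Prime → q ≠ lam → ∀ P : ValuationSubring Qb, P.LiesOverPrime q →
        (σ ∈ P.inertiaSubgroupIn ℚ → ((lam ^ n : ℕ) : ℤ) ∣ (ℓ : ℤ) ^ k - 1) ∧
        (P.IsFrobeniusAt σ q → ((lam ^ n : ℕ) : ℤ) ∣ (ℓ : ℤ) ^ k - q)) := by
  have hodd : Odd (lam ^ n) := (hlam.odd_of_ne_two h2).pow
  obtain ⟨L₁, hL₁, hlev⟩ := exists_level W hΔ hodd
  obtain ⟨U₁, hU₁o, hU₁n, hU₁⟩ := Fermat.Agent.S31Lib.exists_open_normal_le L₁ hL₁
  obtain ⟨ω, ⟨L₂, hL₂, hω1⟩, hωF, hωI⟩ := Fermat.Agent.S31Lib.exists_cyclo_pow lam hlam n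
  obtain ⟨U₂, hU₂o, hU₂n, hU₂⟩ := Fermat.Agent.S31Lib.exists_open_normal_le L₂ hL₂
  have hVo : IsOpen ((U ⊓ (U₁ ⊓ U₂) : Subgroup GQ) : Set GQ) := by
    rw [Subgroup.coe_inf, Subgroup.coe_inf]
    exact hUo.inter (hU₁o.inter hU₂o)
  have hVn : (U ⊓ (U₁ ⊓ U₂)).Normal := inferInstance
  obtain ⟨ℓ, A, τ, k, -, hℓ, hℓS, hA, hτ, hk, -⟩ :=
    Fermat.Agent.ChebLib.weak_chebotarev _ hVo hVn σ S
  obtain ⟨hkU, hkU₁, hkU₂⟩ := hk
  have hℓlam : ℓ ≠ lam := by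
    rintro rfl
    exact hℓS hlamS
  have hℓm : ¬ ℓ ∣ lam ^ n := fun h =>
    hℓlam ((Nat.prime_dvd_prime_iff_eq hℓ hlam).1 (hℓ.dvd_of_dvd_pow h))
  have hgood : W.IsGoodPrimeFor ℓ := fun h => hℓS (hbadS ℓ hℓ h)
  refine ⟨ℓ, A, τ, k, hℓ, hℓS, hA, hτ, hkU, ?_, ?_⟩
  · intro u hu
    have hστ : ∀ v : EPt W, lam ^ n • v = 0 → τ ^ k • v = σ • v := by
      intro v hv
      have h1 := hlev (σ⁻¹ * τ ^ k) (hU₁ _ hkU₁) v hv
      rw [mul_smul, inv_smul_eq_iff] at h1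
      exact h1
    have hσu : lam ^ n • (σ • u) = 0 := by
      have h0 := (DistribSMul.toAddMonoidHom (EPt W) σ).map_nsmul (lam ^ n) u
      rw [hu, map_zero] at h0
      exact h0.symm
    have h1 := ECMP_pow_rel W τ (W.apOfModel ℓ) (ℓ : ℤ)
      (fun v hv => frob_rel_all W hΔ hℓ hodd hℓm hgood A τ hA hτ v hv) k u hu
    rw [hστ u hu, hστ _ hσu] at h1
    exact h1
  · have hω : ((ω σ : (ZMod (lam ^ n))ˣ) : ZMod (lam ^ n)) = ((ℓ : ℤ) ^ k : ℤ) := by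
      have h1 : ω (σ⁻¹ * τ ^ k) = 1 := hω1 _ (hU₂ _ hkU₂)
      rw [map_mul, map_inv, inv_mul_eq_one, map_pow] at h1
      rw [h1, Units.val_pow_eq_pow_val, hωF ℓ hℓ hℓlam A hA τ hτ]
      push_cast
      rfl
    intro q hq hqlam P hP
    refine ⟨fun hσ => ?_, fun hσ => ?_⟩
    · rw [hωI q hq hqlam P hP σ hσ, Units.val_one] at hω
      rw [← ZMod.intCast_zmod_eq_zero_iff_dvd, Int.cast_sub, ← hω]
      simp
    · rw [hωF q hq hqlam P hP σ hσ] at hω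
      rw [← ZMod.intCast_zmod_eq_zero_iff_dvd, Int.cast_sub, ← hω]
      simp

end Fermat.Agent.S58Lib
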