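import Fermat.Agent.S58.Defs

/-!
# S58, elliptic side, leaf (E3b): the Frobenius relation on `E[m]`, `m` odd, `ℓ ≥ 5`, `ℓ ∤ m`
(= `frob_rel` of `S40/FrobW.lean` with the prime `p` replaced by an odd `m` prime to `ℓ`)
-/

set_option autoImplicit false

namespace Fermat.Agent.S58Lib

open WeierstrassCurve WeierstrassCurve.Affine Polynomial Fermat.Agent.S40Lib
open Fermat.Agent.S05Lib Fermat.Agent.S13Lib Fermat.Agent.S36Lib Fermat.Agent.S52Lib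

local notation "Qb" => AlgebraicClosure ℚ
local notation "GQ" => (AlgebraicClosure ℚ ≃ₐ[ℚ] AlgebraicClosure ℚ)

theorem E3b_rel_short (a b : ℤ) {ℓ p : ℕ} (hℓ : ℓ.Prime) (h5 : 5 ≤ ℓ) (hp : Odd p)
    (hℓp : ¬ ℓ ∣ p) (hgood : ¬ (ℓ : ℤ) ∣ 4 * a ^ 3 + 27 * b ^ 2)
    (𝔄 : ValuationSubring Qb) (σ : GQ) (h𝔄 : 𝔄.LiesOverPrime ℓ) (hσ : 𝔄.IsFrobeniusAt σ ℓ)
    (h2 : (2 : Qb) ≠ 0) (hA : (σ : Qb →+* Qb) (a : Qb) = a) (hB : (σ : Qb →+* Qb) (b : Qb) = b)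
    (u : Pt (a : Qb) (b : Qb)) (hu : p • u = 0) :
    mapPt h2 (σ : Qb →+* Qb) hA hB (mapPt h2 (σ : Qb →+* Qb) hA hB u)
      - ((ℓ : ℤ) + 1 - (Nat.card (Pt ((a : ℤ) : ZMod ℓ) ((b : ℤ) : ZMod ℓ)) : ℤ)) •
        mapPt h2 (σ : Qb →+* Qb) hA hB u + (ℓ : ℤ) • u = 0 := by
  classical
  have : Fact ℓ.Prime := ⟨hℓ⟩
  obtain ⟨k, rfl⟩ : ∃ k, p = 2 * k + 1 := hp
  have hkℓ : ¬ ℓ ∣ 2 * k + 1 := hℓp
  obtain ⟨hO𝔄, hπ𝔄⟩ := frob_facts 𝔄 σ hσ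
  have hℓκ : ((ℓ : ℕ) : (IsLocalRing.ResidueField 𝔄)) = 0 := by
    have h1 : ((ℓ : ℕ) : 𝔄) ∈ IsLocalRing.maximalIdeal 𝔄 := by
      rw [IsLocalRing.mem_maximalIdeal, mem_nonunits_iff]
      intro hunit
      have := (ValuationSubring.mem_nonunits_iff_exists_mem_maximalIdeal).mp h𝔄
      obtain ⟨ha, hm⟩ := this
      rw [IsLocalRing.mem_maximalIdeal, mem_nonunits_iff] at hm
      apply hm
      have e : (⟨((ℓ : ℕ) : Qb), ha⟩ : 𝔄) = ((ℓ : ℕ) : 𝔄) := Subtype.ext (by simp)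
      rw [e]; exact hunit
    have := (IsLocalRing.residue_eq_zero_iff _).mpr h1
    rwa [map_natCast] at this
  have : CharP (IsLocalRing.ResidueField 𝔄) ℓ := (CharP.charP_iff_prime_eq_zero hℓ).mpr hℓκ
  have hκint : ∀ n : ℤ, ¬ (ℓ : ℤ) ∣ n → ((n : ℤ) : (IsLocalRing.ResidueField 𝔄)) ≠ 0 := by
    intro n hn h
    exact hn ((CharP.intCast_eq_zero_iff (IsLocalRing.ResidueField 𝔄) ℓ n).mp h)
  have h2κ : (2 : (IsLocalRing.ResidueField 𝔄)) ≠ 0 := by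
    have := hκint 2 (by
      intro h
      have := Int.le_of_dvd (by norm_num) h
      omega)
    simpa using this
  have hdisc0 : 4 * a ^ 3 + 27 * b ^ 2 ≠ 0 := by
    intro h
    apply hgood
    rw [h]
    exact dvd_zero _
  let A₂ : 𝔄 := ⟨(a : Qb), intCast_mem 𝔄 a⟩
  let B₂ : 𝔄 := ⟨(b : Qb), intCast_mem 𝔄 b⟩
  have hA₂ : A₂ = ((a : ℤ) : 𝔄) := Subtype.ext (by simp [A₂])
  have hB₂ : B₂ = ((b : ℤ) : 𝔄) := Subtype.ext (by simp [B₂])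
  have hrA : IsLocalRing.residue 𝔄 A₂ = ((a : ℤ) : (IsLocalRing.ResidueField 𝔄)) := by
    rw [hA₂, map_intCast]
  have hrB : IsLocalRing.residue 𝔄 B₂ = ((b : ℤ) : (IsLocalRing.ResidueField 𝔄)) := by
    rw [hB₂, map_intCast]
  have hd₂ : IsLocalRing.residue 𝔄 (4 * A₂ ^ 3 + 27 * B₂ ^ 2) ≠ 0 := by
    rw [map_add, map_mul, map_mul, map_pow, map_pow, hrA, hrB, map_ofNat, map_ofNat]
    have : (4 * ((a : ℤ) : (IsLocalRing.ResidueField 𝔄)) ^ 3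
        + 27 * ((b : ℤ) : (IsLocalRing.ResidueField 𝔄)) ^ 2)
        = ((4 * a ^ 3 + 27 * b ^ 2 : ℤ) : (IsLocalRing.ResidueField 𝔄)) := by
      push_cast; rfl
    rw [this]
    exact hκint _ hgood
  have hfA : frobenius (IsLocalRing.ResidueField 𝔄) ℓ (IsLocalRing.residue 𝔄 A₂)
      = IsLocalRing.residue 𝔄 A₂ := by
    rw [hrA]; simp
  have hfB : frobenius (IsLocalRing.ResidueField 𝔄) ℓ (IsLocalRing.residue 𝔄 B₂)
      = IsLocalRing.residue 𝔄 B₂ := by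
    rw [hrB]; simp
  refine FS_chain
    (red 𝔄 (IsLocalRing.residue 𝔄) h2κ A₂ B₂ hd₂)
    (mapPt h2 (σ : Qb →+* Qb) hA hB)
    (mapPt h2κ (frobenius (IsLocalRing.ResidueField 𝔄) ℓ) hfA hfB)
    ?_ k ?_ _ _ ?_ u hu
  · intro x
    exact red_mapPt 𝔄 (IsLocalRing.residue 𝔄) h2κ A₂ B₂ hd₂ h2 (σ : Qb →+* Qb)
      (frobenius (IsLocalRing.ResidueField 𝔄) ℓ) hO𝔄 (fun g h => hπ𝔄 g h) hA hB hfA hfB x
  · intro x hx hpx hred
    rcases hc : co x with _ | ⟨X, Y⟩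
    · exact hx (co_eq_none.mp hc)
    have hXmem : X ∈ 𝔄 := FS_x_mem a b hℓ h5 hdisc0 𝔄 h𝔄 k hkℓ x hc hpx
    obtain ⟨hy, h⟩ := co_red_of_mem 𝔄 (IsLocalRing.residue 𝔄) h2κ A₂ B₂ hd₂ hc hXmem
    rw [hred, co_zero] at h
    simp at h
  · intro Q hQ0 hQ5
    exact FS_frob_relation h5 h2κ a b (hκint _ hgood) _ _ hrA hrB hfA hfB k Q hQ0 hQ5

/-- `frob_rel_short` with propositional coefficients -/
theorem E3b_short (A B : Qb) (a b : ℤ) (hAa : A = (a : Qb)) (hBb : B = (b : Qb)) {ℓ p : ℕ}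
    (hℓ : ℓ.Prime) (h5 : 5 ≤ ℓ) (hp : Odd p)
    (hℓp : ¬ ℓ ∣ p) (hgood : ¬ (ℓ : ℤ) ∣ 4 * a ^ 3 + 27 * b ^ 2)
    (𝔄 : ValuationSubring Qb) (σ : GQ) (h𝔄 : 𝔄.LiesOverPrime ℓ) (hσ : 𝔄.IsFrobeniusAt σ ℓ)
    (h2 : (2 : Qb) ≠ 0) (hA : (σ : Qb →+* Qb) A = A) (hB : (σ : Qb →+* Qb) B = B)
    (u : Pt A B) (hu : p • u = 0) :
    mapPt h2 (σ : Qb →+* Qb) hA hB (mapPt h2 (σ : Qb →+* Qb) hA hB u)
      - ((ℓ : ℤ) + 1 - (Nat.card (Pt ((a : ℤ) : ZMod ℓ) ((b : ℤ) : ZMod ℓ)) : ℤ)) •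
        mapPt h2 (σ : Qb →+* Qb) hA hB u + (ℓ : ℤ) • u = 0 := by
  subst hAa hBb
  exact E3b_rel_short a b hℓ h5 hp hℓp hgood 𝔄 σ h𝔄 hσ h2 hA hB u hu

/-- (E3b) `S58/FrobBig.lean`: `ℓ ≥ 5` = `frob_rel` of `S40/FrobW.lean` with the prime `p` replaced by an
odd `m` prime to `ℓ` (`frob_rel_short`, `FW_short`, `frob_rel`: the proofs only use `p = 2k+1`, `ℓ ∤ p`). -/
theorem frob_rel_big (W : WeierstrassCurve ℤ) (hΔ : W.Δ ≠ 0) {ℓ m : ℕ} (hℓ : ℓ.Prime) (h5 : 5 ≤ ℓ)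
    (hm : Odd m) (hℓm : ¬ ℓ ∣ m) (hgood : W.IsGoodPrimeFor ℓ)
    (𝔄 : ValuationSubring Qb) (σ : GQ) (h𝔄 : 𝔄.LiesOverPrime ℓ) (hσ : 𝔄.IsFrobeniusAt σ ℓ)
    (u : EPt W) (hu : m • u = 0) :
    σ • σ • u - (W.apOfModel ℓ) • σ • u + (ℓ : ℤ) • u = 0 := by
  have h2 : (2 : Qb) ≠ 0 := by norm_num
  have h3 : (3 : Qb) ≠ 0 := by norm_num
  have hVΔ : (FW_V W).Δ ≠ 0 := by
    rw [FW_map_eq, WeierstrassCurve.map_Δ]
    simpa using hΔ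
  obtain ⟨θ, hθ⟩ := exists_toShort h2 h3 (FW_V W) hVΔ
  have hc4 : -27 * (FW_V W).c₄ = ((-27 * W.c₄ : ℤ) : Qb) := by
    rw [FW_map_eq, WeierstrassCurve.map_c₄]
    push_cast
    rfl
  have hc6 : -54 * (FW_V W).c₆ = ((-54 * W.c₆ : ℤ) : Qb) := by
    rw [FW_map_eq, WeierstrassCurve.map_c₆]
    push_cast
    rfl
  have hA : (σ : Qb →+* Qb) (-27 * (FW_V W).c₄) = -27 * (FW_V W).c₄ := by
    rw [hc4]; exact map_intCast (σ : Qb →+* Qb) _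
  have hB : (σ : Qb →+* Qb) (-54 * (FW_V W).c₆) = -54 * (FW_V W).c₆ := by
    rw [hc6]; exact map_intCast (σ : Qb →+* Qb) _
  have hprime : Prime (ℓ : ℤ) := Nat.prime_iff_prime_int.mp hℓ
  have hgood' : ¬ (ℓ : ℤ) ∣ 4 * (-27 * W.c₄) ^ 3 + 27 * (-54 * W.c₆) ^ 2 := by
    have e : 4 * (-27 * W.c₄) ^ 3 + 27 * (-54 * W.c₆) ^ 2 = -(6 ^ 8 * 3 ^ 4 * W.Δ) := by
      have := W.c_relation
      linear_combination (78732 : ℤ) * this
    rw [e, dvd_neg]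
    intro h
    rcases hprime.dvd_or_dvd h with h | h
    · rcases hprime.dvd_or_dvd h with h | h
      · have h6 := hprime.dvd_of_dvd_pow h
        have := Int.le_of_dvd (by norm_num) h6
        have h7 : ℓ = 5 ∨ ℓ = 6 := by omega
        rcases h7 with rfl | rfl
        · norm_num at h6
        · norm_num at hℓ
      · have h6 := hprime.dvd_of_dvd_pow h
        have := Int.le_of_dvd (by norm_num) h6
        omega
    · exact hgood h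
  -- equivariance
  have hequiv : ∀ v : EPt W, θ (σ • v) = mapPt h2 (σ : Qb →+* Qb) hA hB (θ v) := by
    intro v
    have ha1 : σ (FW_V W).a₁ = (FW_V W).a₁ := by
      rw [FW_map_eq]
      exact map_intCast σ _
    have ha3 : σ (FW_V W).a₃ = (FW_V W).a₃ := by
      rw [FW_map_eq]
      exact map_intCast σ _
    have hb2 : σ (FW_V W).b₂ = (FW_V W).b₂ := by
      rw [FW_map_eq, WeierstrassCurve.map_b₂]
      exact map_intCast σ _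
    cases v with
    | zero =>
      show θ (σ • (0 : EPt W)) = mapPt h2 (σ : Qb →+* Qb) hA hB (θ (0 : EPt W))
      have h0 : σ • (0 : EPt W) = 0 := rfl
      rw [h0]
      have h1 : θ (0 : EPt W) = 0 := map_zero θ
      rw [h1, map_zero]
    | some x y h =>
      apply co_injective
      rw [co_mapPt, hθ, Point.algEquiv_smul_def, Point.map_some, hθ]
      simp only [Option.map_some, Option.some.injEq, Prod.mk.injEq]
      constructor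
      · show 36 * σ x + 3 * (FW_V W).b₂ = σ (36 * x + 3 * (FW_V W).b₂)
        rw [map_add, map_mul, map_mul, hb2, map_ofNat, map_ofNat]
      · show 108 * (2 * σ y + (FW_V W).a₁ * σ x + (FW_V W).a₃) =
          σ (108 * (2 * y + (FW_V W).a₁ * x + (FW_V W).a₃))
        rw [map_mul, map_add, map_add, map_mul, map_mul, ha1, ha3, map_ofNat, map_ofNat]
  have hrel := E3b_short _ _ _ _ hc4 hc6 hℓ h5 hm hℓm hgood' 𝔄 σ h𝔄 hσ h2 hA hB (θ u)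
    (by rw [← map_nsmul, hu, map_zero])
  have hap : W.apOfModel ℓ = (ℓ : ℤ) + 1 -
      (Nat.card (Pt (((-27 * W.c₄ : ℤ) : ZMod ℓ)) (((-54 * W.c₆ : ℤ) : ZMod ℓ))) : ℤ) := by
    unfold WeierstrassCurve.apOfModel WeierstrassCurve.traceOfFrobenius
    rw [card_eq_short W hℓ h5 hgood, Nat.card_zmod]
  apply θ.injective
  rw [map_zero, map_add, map_sub, map_zsmul, map_zsmul, hequiv, hequiv, hap]
  exact hrel

end Fermat.Agent.S58Lib
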