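import Fermat.Agent.S58.Defs

/-!
# S58, (K2): integrality of torsion points of odd order, residue characteristic 2
-/

set_option autoImplicit false

namespace Fermat.Agent.S58Lib

open WeierstrassCurve WeierstrassCurve.Affine Fermat.Agent.S40Lib

local notation "Qb" => AlgebraicClosure ℚ
local notation "GQ" => (AlgebraicClosure ℚ ≃ₐ[ℚ] AlgebraicClosure ℚ)

/-- the duplication formula -/
theorem K2_dbl {F : Type*} [Field F] [DecidableEq F] (V : WeierstrassCurve F) {x y : F}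
    (h : V.toAffine.Nonsingular x y) (hy : y ≠ V.toAffine.negY x y) :
    ∃ (x' y' : F) (h' : V.toAffine.Nonsingular x' y'),
      Point.some x y h + Point.some x y h = Point.some x' y' h' ∧
      x' * (4 * x ^ 3 + V.b₂ * x ^ 2 + 2 * V.b₄ * x + V.b₆)
        = x ^ 4 - V.b₄ * x ^ 2 - 2 * V.b₆ * x - V.b₈ := by
  rw [Point.add_self_of_Y_ne hy]
  refine ⟨_, _, _, rfl, ?_⟩
  have e := (V.toAffine.equation_iff x y).mp h.1
  have hy' : y - V.toAffine.negY x y ≠ 0 := sub_ne_zero.mpr hy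
  rw [slope_of_Y_ne rfl hy, addX]
  rw [negY] at hy' ⊢
  have hy'' : y - (-y - V.toAffine.a₁ * x - V.toAffine.a₃)
      = 2 * y + V.toAffine.a₁ * x + V.toAffine.a₃ := by ring
  rw [hy''] at hy' ⊢
  set ℓ := (3 * x ^ 2 + 2 * V.toAffine.a₂ * x + V.toAffine.a₄ - V.toAffine.a₁ * y)
    / (2 * y + V.toAffine.a₁ * x + V.toAffine.a₃) with hℓ
  have hN : ℓ * (2 * y + V.toAffine.a₁ * x + V.toAffine.a₃)
      = 3 * x ^ 2 + 2 * V.toAffine.a₂ * x + V.toAffine.a₄ - V.toAffine.a₁ * y :=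
    div_mul_cancel₀ _ hy'
  simp only [WeierstrassCurve.b₂, WeierstrassCurve.b₄, WeierstrassCurve.b₆, WeierstrassCurve.b₈]
  linear_combination (ℓ * (2 * y + V.toAffine.a₁ * x + V.toAffine.a₃)
    + (3 * x ^ 2 + 2 * V.toAffine.a₂ * x + V.toAffine.a₄ - V.toAffine.a₁ * y)
    + V.toAffine.a₁ * (2 * y + V.toAffine.a₁ * x + V.toAffine.a₃)) * hN
    - (V.toAffine.a₁ ^ 2 + 4 * V.toAffine.a₂ + 8 * x) * e
    - 4 * (ℓ ^ 2 + V.toAffine.a₁ * ℓ - V.toAffine.a₂ - x - x) * e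

section Val

variable {K : Type*} [Field K] (A : ValuationSubring K)

/-- the numerator of the duplication formula -/
theorem K2_num {b₄ b₆ b₈ x : K} (h4 : b₄ ∈ A) (h6 : b₆ ∈ A) (h8 : b₈ ∈ A)
    (hx : 1 < A.valuation x) :
    A.valuation (x ^ 4 - b₄ * x ^ 2 - 2 * b₆ * x - b₈) = A.valuation x ^ 4 := by
  have h0 : (0 : A.ValueGroup) < A.valuation x := lt_trans zero_lt_one hx
  have v4 : A.valuation b₄ ≤ 1 := (A.valuation_le_one_iff _).mpr h4
  have v6 : A.valuation (2 * b₆) ≤ 1 :=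
    (A.valuation_le_one_iff _).mpr (A.mul_mem _ _ (by simp) h6)
  have v8 : A.valuation b₈ ≤ 1 := (A.valuation_le_one_iff _).mpr h8
  have l1 : A.valuation (b₄ * x ^ 2) < A.valuation x ^ 4 := by
    rw [map_mul, map_pow]
    calc A.valuation b₄ * A.valuation x ^ 2 ≤ 1 * A.valuation x ^ 2 := mul_le_mul' v4 le_rfl
      _ = A.valuation x ^ 2 := one_mul _
      _ < A.valuation x ^ 4 := pow_lt_pow_right₀ hx (by norm_num)
  have l2 : A.valuation (2 * b₆ * x) < A.valuation x ^ 4 := by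
    rw [map_mul]
    calc A.valuation (2 * b₆) * A.valuation x ≤ 1 * A.valuation x := mul_le_mul' v6 le_rfl
      _ = A.valuation x ^ 1 := by rw [one_mul, pow_one]
      _ < A.valuation x ^ 4 := pow_lt_pow_right₀ hx (by norm_num)
  have l3 : A.valuation b₈ < A.valuation x ^ 4 :=
    lt_of_le_of_lt v8 (one_lt_pow₀ hx (by norm_num))
  have e : x ^ 4 - b₄ * x ^ 2 - 2 * b₆ * x - b₈
      = x ^ 4 + (-(b₄ * x ^ 2) + -(2 * b₆ * x) + -b₈) := by ring
  rw [e]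
  have l : A.valuation (-(b₄ * x ^ 2) + -(2 * b₆ * x) + -b₈) < A.valuation (x ^ 4) := by
    rw [map_pow]
    refine Valuation.map_add_lt _ (Valuation.map_add_lt _ ?_ ?_) ?_
    · rwa [Valuation.map_neg]
    · rwa [Valuation.map_neg]
    · rwa [Valuation.map_neg]
  rw [Valuation.map_add_eq_of_lt_left _ l, map_pow]

/-- the denominator of the duplication formula, residue characteristic 2 -/
theorem K2_den {b₂ b₄ b₆ x : K} (h2 : (2 : K) ∈ A.nonunits) (hb2 : b₂ ∈ A) (h4 : b₄ ∈ A)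
    (h6 : b₆ ∈ A) (hx : 1 < A.valuation x) :
    A.valuation (4 * x ^ 3 + b₂ * x ^ 2 + 2 * b₄ * x + b₆) < A.valuation x ^ 3 := by
  have h0 : (0 : A.ValueGroup) < A.valuation x := lt_trans zero_lt_one hx
  have v2 : A.valuation (2 : K) < 1 := (ValuationSubring.mem_nonunits_iff A).mp h2
  have v44 : A.valuation (4 : K) < 1 := by
    have : (4 : K) = 2 * 2 := by norm_num
    rw [this, map_mul]
    exact mul_lt_one' v2 v2
  have vb2 : A.valuation b₂ ≤ 1 := (A.valuation_le_one_iff _).mpr hb2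
  have v4 : A.valuation (2 * b₄) ≤ 1 :=
    (A.valuation_le_one_iff _).mpr (A.mul_mem _ _ (by simp) h4)
  have v6 : A.valuation b₆ ≤ 1 := (A.valuation_le_one_iff _).mpr h6
  refine Valuation.map_add_lt _ (Valuation.map_add_lt _ (Valuation.map_add_lt _ ?_ ?_) ?_) ?_
  · rw [map_mul, map_pow]
    calc A.valuation 4 * A.valuation x ^ 3 < 1 * A.valuation x ^ 3 :=
          mul_lt_mul_of_pos_right v44 (pow_pos h0 3)
      _ = _ := one_mul _
  · rw [map_mul, map_pow]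
    calc A.valuation b₂ * A.valuation x ^ 2 ≤ 1 * A.valuation x ^ 2 := mul_le_mul' vb2 le_rfl
      _ = A.valuation x ^ 2 := one_mul _
      _ < A.valuation x ^ 3 := pow_lt_pow_right₀ hx (by norm_num)
  · rw [map_mul]
    calc A.valuation (2 * b₄) * A.valuation x ≤ 1 * A.valuation x := mul_le_mul' v4 le_rfl
      _ = A.valuation x ^ 1 := by rw [one_mul, pow_one]
      _ < A.valuation x ^ 3 := pow_lt_pow_right₀ hx (by norm_num)
  · exact lt_of_le_of_lt v6 (one_lt_pow₀ hx (by norm_num))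

end Val

/-- one duplication step -/
theorem K2_step (V : WeierstrassCurve Qb) (𝔄 : ValuationSubring Qb)
    (h₁ : V.a₁ ∈ 𝔄) (h₂ : V.a₂ ∈ 𝔄) (h₃ : V.a₃ ∈ 𝔄) (h₄ : V.a₄ ∈ 𝔄) (h₆ : V.a₆ ∈ 𝔄)
    (h2 : (2 : Qb) ∈ 𝔄.nonunits) {m : ℕ} (hm : Odd m) {x y : Qb}
    (h : V.toAffine.Nonsingular x y) (hu : m • (Point.some x y h : V.toAffine.Point) = 0)
    (hx : 1 < 𝔄.valuation x) :
    ∃ (x' y' : Qb) (h' : V.toAffine.Nonsingular x' y'),
      2 • (Point.some x y h : V.toAffine.Point) = Point.some x' y' h' ∧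
        𝔄.valuation x < 𝔄.valuation x' := by
  have h0 : (0 : 𝔄.ValueGroup) < 𝔄.valuation x := lt_trans zero_lt_one hx
  have hb2 : V.b₂ ∈ 𝔄 := by
    rw [WeierstrassCurve.b₂]
    exact 𝔄.add_mem _ _ (𝔄.pow_mem h₁ 2) (𝔄.mul_mem _ _ (by simp) h₂)
  have hb4 : V.b₄ ∈ 𝔄 := by
    rw [WeierstrassCurve.b₄]
    exact 𝔄.add_mem _ _ (𝔄.mul_mem _ _ (by simp) h₄) (𝔄.mul_mem _ _ h₁ h₃)
  have hb6 : V.b₆ ∈ 𝔄 := by
    rw [WeierstrassCurve.b₆]
    exact 𝔄.add_mem _ _ (𝔄.pow_mem h₃ 2) (𝔄.mul_mem _ _ (by simp) h₆)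
  have hb8 : V.b₈ ∈ 𝔄 := by
    rw [WeierstrassCurve.b₈]
    exact 𝔄.sub_mem (𝔄.add_mem _ _ (𝔄.sub_mem (𝔄.add_mem _ _ (𝔄.mul_mem _ _ (𝔄.pow_mem h₁ 2) h₆)
      (𝔄.mul_mem _ _ (𝔄.mul_mem _ _ (by simp) h₂) h₆)) (𝔄.mul_mem _ _ (𝔄.mul_mem _ _ h₁ h₃) h₄))
      (𝔄.mul_mem _ _ h₂ (𝔄.pow_mem h₃ 2))) (𝔄.pow_mem h₄ 2)
  have hy : y ≠ V.toAffine.negY x y := by
    intro hy
    have h2P : 2 • (Point.some x y h : V.toAffine.Point) = 0 := by
      rw [two_nsmul]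
      exact Point.add_self_of_Y_eq hy
    obtain ⟨k, rfl⟩ := hm
    have : (Point.some x y h : V.toAffine.Point) = 0 := by
      have h3 := hu
      rw [add_nsmul, one_nsmul, mul_nsmul, h2P, nsmul_zero, zero_add] at h3
      exact h3
    exact Point.some_ne_zero _ this
  obtain ⟨x', y', h', e1, e2⟩ := K2_dbl V h hy
  refine ⟨x', y', h', by rw [two_nsmul, e1], ?_⟩
  by_contra hle
  rw [not_lt] at hle
  have hv := congrArg 𝔄.valuation e2
  rw [map_mul, K2_num 𝔄 hb4 hb6 hb8 hx] at hv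
  have hden := K2_den 𝔄 h2 hb2 hb4 hb6 hx
  have : 𝔄.valuation x' * 𝔄.valuation (4 * x ^ 3 + V.b₂ * x ^ 2 + 2 * V.b₄ * x + V.b₆)
      < 𝔄.valuation x ^ 4 := by
    calc 𝔄.valuation x' * 𝔄.valuation (4 * x ^ 3 + V.b₂ * x ^ 2 + 2 * V.b₄ * x + V.b₆)
        ≤ 𝔄.valuation x * 𝔄.valuation (4 * x ^ 3 + V.b₂ * x ^ 2 + 2 * V.b₄ * x + V.b₆) :=
          mul_le_mul' hle le_rfl
      _ < 𝔄.valuation x * 𝔄.valuation x ^ 3 := mul_lt_mul_of_pos_left hden h0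
      _ = 𝔄.valuation x ^ 4 := (pow_succ' _ 3).symm
  exact absurd hv (ne_of_lt this)

/-- (K2) `S58/IntTwo.lean`.  Residue characteristic 2: if `x ∉ 𝔄` then
`x(2P) = (x⁴ - b₄x² - 2b₆x - b₈) / (4x³ + b₂x² + 2b₄x + b₆)` has a STRICTLY bigger valuation
(`ν(4x³ + ...) < ν(x)³` because `ν(4) < 1` and `ν(x) > 1`); but `2 ^ j • P = P` for some `j ≥ 1`. -/
theorem mem_of_torsion_two (V : WeierstrassCurve Qb) (𝔄 : ValuationSubring Qb)
    (h₁ : V.a₁ ∈ 𝔄) (h₂ : V.a₂ ∈ 𝔄) (h₃ : V.a₃ ∈ 𝔄) (h₄ : V.a₄ ∈ 𝔄) (h₆ : V.a₆ ∈ 𝔄)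
    (h2 : (2 : Qb) ∈ 𝔄.nonunits) {m : ℕ} (hm : Odd m) {x y : Qb}
    (h : V.toAffine.Nonsingular x y) (hu : m • (Point.some x y h : V.toAffine.Point) = 0) :
    x ∈ 𝔄 := by
  by_contra hx
  rw [← 𝔄.valuation_le_one_iff, not_le] at hx
  have key : ∀ j : ℕ, ∃ (x' y' : Qb) (h' : V.toAffine.Nonsingular x' y'),
      2 ^ (j + 1) • (Point.some x y h : V.toAffine.Point) = Point.some x' y' h' ∧
        𝔄.valuation x < 𝔄.valuation x' := by
    intro j
    induction j with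
    | zero =>
      obtain ⟨x', y', h', e1, e2⟩ := K2_step V 𝔄 h₁ h₂ h₃ h₄ h₆ h2 hm h hu hx
      exact ⟨x', y', h', by simpa using e1, e2⟩
    | succ j ih =>
      obtain ⟨x', y', h', e1, e2⟩ := ih
      have hu' : m • (Point.some x' y' h' : V.toAffine.Point) = 0 := by
        rw [← e1, smul_comm, hu, nsmul_zero]
      obtain ⟨x'', y'', h'', e3, e4⟩ :=
        K2_step V 𝔄 h₁ h₂ h₃ h₄ h₆ h2 hm h' hu' (lt_trans hx e2)
      refine ⟨x'', y'', h'', ?_, lt_trans e2 e4⟩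
      rw [← e3, ← e1, pow_succ' 2 (j + 1), mul_nsmul']
  have hcop : Nat.Coprime 2 m := (Nat.coprime_two_left).mpr hm
  have hmod := Nat.ModEq.pow_totient hcop
  have hpos : 0 < m.totient := Nat.totient_pos.mpr hm.pos
  obtain ⟨j, hj⟩ : ∃ j, m.totient = j + 1 := ⟨m.totient - 1, by omega⟩
  obtain ⟨x', y', h', e1, e2⟩ := key j
  rw [← hj] at e1
  have hP : 2 ^ m.totient • (Point.some x y h : V.toAffine.Point) = Point.some x y h := by
    have h1 : 1 ≤ 2 ^ m.totient := Nat.one_le_two_pow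
    obtain ⟨c, hc⟩ := (Nat.modEq_iff_dvd' h1).mp hmod.symm
    have : 2 ^ m.totient = 1 + m * c := by omega
    rw [this, add_nsmul, one_nsmul, mul_nsmul, hu, nsmul_zero, add_zero]
  rw [hP] at e1
  have hxx : x = x' := by
    injection e1
  rw [← hxx] at e2
  exact lt_irrefl _ e2

end Fermat.Agent.S58Lib
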