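import Fermat.Agent.S58.Col

/-!
# S58 (RED): reduction on a subgroup of integral points, good reduction
-/

set_option autoImplicit false

namespace Fermat.Agent.S58Lib

open WeierstrassCurve WeierstrassCurve.Affine Fermat.Agent.S40Lib Fermat.Agent.S52Lib

section

variable {K κ : Type*} [Field K] [Field κ]

/-- a root of a monic quadratic with integral coefficients is integral -/
theorem RED_mem_of_quad (O : ValuationSubring K) {z b c : K} (hb : b ∈ O) (hc : c ∈ O)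
    (h : z ^ 2 + b * z = c) : z ∈ O := by
  by_contra hz
  have hz0 : z ≠ 0 := fun h0 => hz (h0 ▸ O.zero_mem)
  have hinv : z⁻¹ ∈ O := (O.mem_or_inv_mem z).resolve_left hz
  apply hz
  have : z = c * z⁻¹ - b := by
    field_simp
    linear_combination h
  rw [this]
  exact sub_mem (O.mul_mem _ _ hc hinv) hb

/-- an integral point reduces to a point -/
theorem RED_point (O : ValuationSubring K) (π : O →+* κ) {V : WeierstrassCurve K}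
    {Vb : WeierstrassCurve κ} (hV : RedData O π V Vb) (hΔ : Vb.Δ ≠ 0) {x y : K}
    (h : V.toAffine.Nonsingular x y) (hx : x ∈ O) :
    ∃ hy : y ∈ O, Vb.toAffine.Nonsingular (π ⟨x, hx⟩) (π ⟨y, hy⟩) := by
  obtain ⟨m₁, r₁⟩ := hV.h₁
  obtain ⟨m₂, r₂⟩ := hV.h₂
  obtain ⟨m₃, r₃⟩ := hV.h₃
  obtain ⟨m₄, r₄⟩ := hV.h₄
  obtain ⟨m₆, r₆⟩ := hV.h₆
  have q := (V.toAffine.equation_iff x y).mp h.1
  have hy : y ∈ O := by
    refine RED_mem_of_quad O (b := V.a₁ * x + V.a₃)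
      (c := x ^ 3 + V.a₂ * x ^ 2 + V.a₄ * x + V.a₆) ?_ ?_ (by linear_combination q)
    · exact O.add_mem _ _ (O.mul_mem _ _ m₁ hx) m₃
    · exact O.add_mem _ _ (O.add_mem _ _ (O.add_mem _ _ (O.pow_mem hx 3)
        (O.mul_mem _ _ m₂ (O.pow_mem hx 2))) (O.mul_mem _ _ m₄ hx)) m₆
  refine ⟨hy, ?_⟩
  rw [← Affine.equation_iff_nonsingular_of_Δ_ne_zero (W := Vb.toAffine) hΔ, Affine.equation_iff]
  have q' : (⟨y, hy⟩ : O) ^ 2 + ⟨V.a₁, m₁⟩ * ⟨x, hx⟩ * ⟨y, hy⟩ + ⟨V.a₃, m₃⟩ * ⟨y, hy⟩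
      = (⟨x, hx⟩ : O) ^ 3 + ⟨V.a₂, m₂⟩ * ⟨x, hx⟩ ^ 2 + ⟨V.a₄, m₄⟩ * ⟨x, hx⟩ + ⟨V.a₆, m₆⟩ :=
    Subtype.ext q
  have q'' := congrArg π q'
  simp only [map_add, map_mul, map_pow, r₁, r₂, r₃, r₄, r₆] at q''
  exact q''

variable [DecidableEq K] [DecidableEq κ]

theorem exists_red
    (O : ValuationSubring K) (π : O →+* κ) [IsLocalHom π] {V : WeierstrassCurve K}
    {Vb : WeierstrassCurve κ} (hV : RedData O π V Vb) (hΔ : Vb.Δ ≠ 0)
    (H : AddSubgroup V.toAffine.Point)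
    (hH : ∀ x y (h : V.toAffine.Nonsingular x y), Point.some x y h ∈ H → x ∈ O) :
    ∃ r : H →+ Vb.toAffine.Point, Function.Injective r ∧
      ∀ x y (h : V.toAffine.Nonsingular x y) (hP : Point.some x y h ∈ H),
        ∃ (hx : x ∈ O) (hy : y ∈ O) (h' : Vb.toAffine.Nonsingular (π ⟨x, hx⟩) (π ⟨y, hy⟩)),
          r ⟨Point.some x y h, hP⟩ = Point.some _ _ h' := by
  obtain ⟨m₁, r₁⟩ := hV.h₁
  obtain ⟨m₂, r₂⟩ := hV.h₂
  obtain ⟨m₃, r₃⟩ := hV.h₃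
  obtain ⟨m₄, r₄⟩ := hV.h₄
  obtain ⟨m₆, r₆⟩ := hV.h₆
  have key : ∀ P : H, ∃ Q : Vb.toAffine.Point, (P = 0 → Q = 0) ∧
      ∀ x y (h : V.toAffine.Nonsingular x y) (hP : Point.some x y h ∈ H),
        P = ⟨Point.some x y h, hP⟩ →
        ∃ (hx : x ∈ O) (hy : y ∈ O) (h' : Vb.toAffine.Nonsingular (π ⟨x, hx⟩) (π ⟨y, hy⟩)),
          Q = Point.some _ _ h' := by
    rintro ⟨P, hP⟩
    cases P with
    | zero =>
      refine ⟨0, fun _ => rfl, ?_⟩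
      intro x y h hP' e
      have := congrArg Subtype.val e
      cases this
    | some x y h =>
      have hx := hH x y h hP
      obtain ⟨hy, h'⟩ := RED_point O π hV hΔ h hx
      refine ⟨Point.some _ _ h', ?_, ?_⟩
      · intro e
        have := congrArg Subtype.val e
        exact absurd this (Point.some_ne_zero h)
      · intro x' y' h'' hP' e
        have := congrArg Subtype.val e
        cases this
        exact ⟨hx, hy, h', rfl⟩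
  choose f hf0 hf using key
  have h0 : f 0 = 0 := hf0 0 rfl
  have hneg : ∀ P, f (-P) = -f P := by
    rintro ⟨P, hP⟩
    cases P with
    | zero =>
      have e : (⟨Point.zero, hP⟩ : H) = 0 := rfl
      rw [e, neg_zero, h0, neg_zero]
    | some x y h =>
      obtain ⟨hx, hy, h', e⟩ := hf _ x y h hP rfl
      have hPn : Point.some x (V.toAffine.negY x y) ((nonsingular_neg x y).mpr h) ∈ H := by
        have := H.neg_mem hP
        rwa [Point.neg_some] at this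
      have en : -(⟨Point.some x y h, hP⟩ : H) = ⟨Point.some x (V.toAffine.negY x y)
          ((nonsingular_neg x y).mpr h), hPn⟩ := Subtype.ext (Point.neg_some h)
      obtain ⟨hx', hy', h'', e'⟩ := hf _ _ _ _ hPn en
      rw [e, e', Point.neg_some]
      simp only [Point.some.injEq, true_and]
      have q : (⟨V.toAffine.negY x y, hy'⟩ : O)
          = -⟨y, hy⟩ - ⟨V.a₁, m₁⟩ * ⟨x, hx⟩ - ⟨V.a₃, m₃⟩ := Subtype.ext rfl
      rw [q, negY]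
      simp only [map_sub, map_neg, map_mul, r₁, r₃]
  have hadd := additive_of_col f h0 hneg (by
    rintro ⟨P, hP⟩ ⟨Q, hQ⟩ ⟨R, hR⟩ hP0 hQ0 hR0 hsum
    cases P with
    | zero => exact absurd rfl hP0
    | some x₁ y₁ h₁ =>
    cases Q with
    | zero => exact absurd rfl hQ0
    | some x₂ y₂ h₂ =>
    cases R with
    | zero => exact absurd rfl hR0
    | some x₃ y₃ h₃ =>
    have hsum' : Point.some x₁ y₁ h₁ + Point.some x₂ y₂ h₂ + Point.some x₃ y₃ h₃ = 0 :=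
      congrArg Subtype.val hsum
    obtain ⟨l, n, e₁, e₂, e₃, s₁, s₂, s₃⟩ := col_nec V h₁ h₂ h₃ hsum'
    obtain ⟨hx₁, hy₁, k₁, E₁⟩ := hf _ x₁ y₁ h₁ hP rfl
    obtain ⟨hx₂, hy₂, k₂, E₂⟩ := hf _ x₂ y₂ h₂ hQ rfl
    obtain ⟨hx₃, hy₃, k₃, E₃⟩ := hf _ x₃ y₃ h₃ hR rfl
    have hl : l ∈ O := by
      refine RED_mem_of_quad O (b := V.a₁) (c := x₁ + x₂ + x₃ + V.a₂) m₁ ?_
        (by linear_combination -s₁)
      exact O.add_mem _ _ (O.add_mem _ _ (O.add_mem _ _ hx₁ hx₂) hx₃) m₂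
    have hn : n ∈ O := by
      have : n = y₁ - l * x₁ := by linear_combination -e₁
      rw [this]
      exact sub_mem hy₁ (O.mul_mem _ _ hl hx₁)
    rw [E₁, E₂, E₃]
    refine col_suff Vb (l := π ⟨l, hl⟩) (n := π ⟨n, hn⟩) k₁ k₂ k₃ ?_ ?_ ?_ ?_ ?_ ?_
    · have q : (⟨y₁, hy₁⟩ : O) = ⟨l, hl⟩ * ⟨x₁, hx₁⟩ + ⟨n, hn⟩ := Subtype.ext e₁
      rw [q, map_add, map_mul]
    · have q : (⟨y₂, hy₂⟩ : O) = ⟨l, hl⟩ * ⟨x₂, hx₂⟩ + ⟨n, hn⟩ := Subtype.ext e₂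
      rw [q, map_add, map_mul]
    · have q : (⟨y₃, hy₃⟩ : O) = ⟨l, hl⟩ * ⟨x₃, hx₃⟩ + ⟨n, hn⟩ := Subtype.ext e₃
      rw [q, map_add, map_mul]
    · have q : (⟨x₁, hx₁⟩ : O) + ⟨x₂, hx₂⟩ + ⟨x₃, hx₃⟩
          = ⟨l, hl⟩ ^ 2 + ⟨V.a₁, m₁⟩ * ⟨l, hl⟩ - ⟨V.a₂, m₂⟩ := Subtype.ext s₁
      have q' := congrArg π q
      simpa only [map_add, map_sub, map_mul, map_pow, r₁, r₂] using q'
    · have q : (⟨x₁, hx₁⟩ : O) * ⟨x₂, hx₂⟩ + ⟨x₁, hx₁⟩ * ⟨x₃, hx₃⟩ + ⟨x₂, hx₂⟩ * ⟨x₃, hx₃⟩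
          = ⟨V.a₄, m₄⟩ - 2 * ⟨l, hl⟩ * ⟨n, hn⟩ - ⟨V.a₁, m₁⟩ * ⟨n, hn⟩ - ⟨V.a₃, m₃⟩ * ⟨l, hl⟩ :=
        Subtype.ext s₂
      have q' := congrArg π q
      simpa only [map_add, map_sub, map_mul, map_pow, map_ofNat, r₁, r₃, r₄] using q'
    · have q : (⟨x₁, hx₁⟩ : O) * ⟨x₂, hx₂⟩ * ⟨x₃, hx₃⟩
          = ⟨n, hn⟩ ^ 2 + ⟨V.a₃, m₃⟩ * ⟨n, hn⟩ - ⟨V.a₆, m₆⟩ := Subtype.ext s₃
      have q' := congrArg π q
      simpa only [map_add, map_sub, map_mul, map_pow, r₃, r₆] using q')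
  refine ⟨AddMonoidHom.mk' f hadd, ?_, fun x y h hP => hf _ x y h hP rfl⟩
  rw [injective_iff_map_eq_zero]
  rintro ⟨P, hP⟩ hz
  cases P with
  | zero => rfl
  | some x y h =>
    obtain ⟨hx, hy, h', e⟩ := hf _ x y h hP rfl
    have hz' : f ⟨Point.some x y h, hP⟩ = 0 := hz
    rw [e] at hz'
    exact absurd hz' (Point.some_ne_zero h')

end

end Fermat.Agent.S58Lib
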