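import Fermat.Agent.S58.Col

/-!
# S58 (F2o): the Frobenius relation on `y² + xy = x³ + a₂x² + 1` in characteristic 2
(certificates generated by a small script)
-/

set_option autoImplicit false

namespace Fermat.Agent.S58Lib

open WeierstrassCurve WeierstrassCurve.Affine Fermat.Agent.S40Lib

private lemma F2o_nonsing {κ : Type*} [Field κ] (h2 : (2 : κ) = 0) (V : WeierstrassCurve κ)
    (h₁ : V.a₁ = 1) (h₃ : V.a₃ = 0) (h₄ : V.a₄ = 0) (h₆ : V.a₆ = 1) {X Y : κ}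
    (h : V.toAffine.Equation X Y) : V.toAffine.Nonsingular X Y := by
  rw [nonsingular_iff]
  refine ⟨h, ?_⟩
  rw [equation_iff] at h
  simp only [h₁, h₃, h₄, h₆] at h ⊢
  by_cases hX : X = 0
  · left
    subst hX
    intro h0
    have hY : Y = 0 := by linear_combination h0
    subst hY
    have : (0 : κ) = 1 := by linear_combination h
    exact zero_ne_one this
  · right
    intro h0
    apply hX
    linear_combination h0 - Y * h2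

private lemma F2o_core {κ : Type*} [Field κ] [DecidableEq κ] (h2 : (2 : κ) = 0)
    (V : WeierstrassCurve κ)
    (h₁ : V.a₁ = 1) (h₃ : V.a₃ = 0) (h₄ : V.a₄ = 0) (h₆ : V.a₆ = 1) (a : κ) (h₂ : V.a₂ = a)
    (ha : a * a = a) {x y Y₃ : κ}
    (h : V.toAffine.Nonsingular x y) (hY₃ : Y₃ = y ^ 2 + a * x ^ 2)
    (hF : V.toAffine.Nonsingular (x ^ 2) Y₃)
    (hFF : V.toAffine.Nonsingular ((x ^ 2) ^ 2) ((y ^ 2) ^ 2)) (hx0 : x ≠ 0) :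
    Point.some _ _ hFF + Point.some _ _ hF + (2 : ℤ) • Point.some _ _ h = 0 := by
  obtain ⟨u, hu⟩ : ∃ u, x * u = 1 := ⟨x⁻¹, mul_inv_cancel₀ hx0⟩
  have hc : y ^ 2 + x * y = x ^ 3 + a * x ^ 2 + 1 := by
    have := (V.toAffine.equation_iff x y).mp h.1
    rw [h₁, h₂, h₃, h₄, h₆] at this
    linear_combination this
  have hQe : V.toAffine.Equation (x ^ 2 + u ^ 2)
      (y ^ 2 * (1 + u ^ 4) + a * (x ^ 2 + u ^ 2) + u ^ 4 + u ^ 2 + 1) := by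
    rw [equation_iff, h₁, h₂, h₃, h₄, h₆]
    linear_combination (x^3*u^8 + x^3 + x^2*u^8*a + x^2*u^8 + x^2*u^4 + 3*x^2*a + 2*x^2 - x*y*u^8 - x*y + y^2*u^8 + y^2 + 3*u^8 + 3*u^6 + 3*u^2 + 3) * hc + (x^5*u^7 + 2*x^4*u^7*a + x^4*u^7 + x^4*u^6 + x^4*u^3 - 2*x^3*y*u^7 + x^3*u^7*a^2 + x^3*u^7*a + 2*x^3*u^6*a + x^3*u^6 + x^3*u^5 + x^3*u^3*a + x^3*u^2 - 3*x^3*u - 2*x^2*y*u^7*a - x^2*y*u^7 - 2*x^2*y*u^6 - x^2*y*u^3 + 4*x^2*u^7 + x^2*u^6*a^2 + x^2*u^6*a + 2*x^2*u^5*a + 4*x^2*u^5 + x^2*u^4 + x^2*u^2*a + 4*x^2*u - 3*x^2 - 2*x*y*u^6*a - x*y*u^6 - 2*x*y*u^5 - x*y*u^2 + 4*x*u^7*a + x*u^7 + 4*x*u^6 + x*u^5*a^2 + 4*x*u^5*a + 4*x*u^4 + 6*x*u*a + x*u + 4*x - 4*y*u^7 - 4*y*u^5 - 4*y*u + 4*u^6*a + u^6 + 4*u^5 + u^4*a^2 + 4*u^4*a + 4*u^3 + 6*a + 1) * hu + (4*x^4) * ha + (2*x^5*a + x^5 - x^4*y + 3*x^4*a - 2*x^3*y*a - x^3*y + 2*x^3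 + x^2*y^2*u^4*a + x^2*u^5*a + x^2*u^4*a + x^2*u^2*a^2 + 4*x^2*a - x*y*u^6*a - x*y*u^5 - 2*x*y + 2*x + y^4*u^4 + y^2*u^6*a + 2*y^2*u^4 + y^2*u^2*a - 2*y*u^7 - 2*y*u^5 - 2*y*u + 2*u^8 + 3*u^6*a + 3*u^6 + 2*u^5 + u^4*a^2 + 3*u^4*a + 2*u^4 + 2*u^3 + u^2*a + 3*u^2 + 3*a + 2) * h2
  have hQ := F2o_nonsing h2 V h₁ h₃ h₄ h₆ hQe
  have hA : Point.some _ _ h + Point.some _ _ h + -Point.some _ _ hQ = 0 := by
    rw [Point.neg_some]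
    refine col_suff V h h _ (l := x + y * u) (n := x ^ 2) ?_ ?_ ?_ ?_ ?_ ?_
    · linear_combination (-y) * hu + (-x^2) * h2
    · linear_combination (-y) * hu + (-x^2) * h2
    · rw [negY, h₁, h₃]
      linear_combination (-u^4 - 1) * hc + (-x^2*u^3 - x*y - x*u^3*a - x*u^2 + y*u^3 - u^2*a - 2*u) * hu + (-x^3 - x^2*a - x^2 - u^4 - u^2*a - u^2 - u - 1) * h2
    · rw [h₁, h₂]
      linear_combination (-u^2) * hc + (-x^2*u - x*u*a - x + y*u - a) * hu + (-x*y*u) * h2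
    · rw [h₁, h₃, h₄]
      linear_combination (2*x^3 + x^2*y*u + x^2 + x*u^2) * h2
    · rw [h₃, h₆]
      linear_combination (x*u + 1) * hu + (1) * h2
  have hB : Point.some _ _ hFF + Point.some _ _ hF + Point.some _ _ hQ = 0 := by
    refine col_suff V hFF hF hQ (l := u ^ 2 * y ^ 2 + x ^ 2 + 1 + a + u ^ 2)
      (n := x ^ 4 + x ^ 2 + 1) ?_ ?_ ?_ ?_ ?_ ?_
    · linear_combination (-x^4*u^2 + x^3 + x^2*a + x^2 - x*y + y^2 + 1) * hc + (-x^6*u - x^5*u*a - x^5 + x^4*y*u - x^4*a + x^3*y) * hu + (x^4) * ha + (x^5*a - x^4*y - x^4*u^2 - x^4 - x^3*y*a + x^3 + x^2*a - x*y) * h2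
    · rw [hY₃]
      linear_combination (-x^2*u^2 + 1) * hc + (-x^4*u - x^3*u*a - x^3 + x^2*y*u - x^2*a + x*y) * hu + (-x^4 - x^2*u^2 - x^2) * h2
    · linear_combination (-x^2*u^2 + 1) * hc + (-x^4*u - x^3*u*a - x^3 + x^2*y*u - x^2*a + x*y - 3*x*u - 3) * hu + (-x^4 - x^2 - 1) * h2
    · rw [h₁, h₂]
      linear_combination (-x^3*u^4 - x^2*u^4*a - x^2*u^4 + x*y*u^4 - y^2*u^4 - 3*u^4 - 3*u^2) * hc + (-x^5*u^3 - 2*x^4*u^3*a - x^4*u^3 - x^4*u^2 + 2*x^3*y*u^3 - x^3*u^3*a^2 - x^3*u^3*a - 2*x^3*u^2*a - x^3*u^2 - x^3*u + 2*x^2*y*u^3*a + x^2*y*u^3 + 2*x^2*y*u^2 - 4*x^2*u^3 - x^2*u^2*a^2 - x^2*u^2*a - 2*x^2*u*a - 4*x^2*u - x^2 + 2*x*y*u^2*a + x*y*u^2 + 2*x*y*u - 4*x*u^3*a - x*u^3 - 4*x*u^2 - x*u*a^2 - 4*x*u*a - 4*x + 4*y*u^3 + 4*y*u - 4*u^2*a - u^2 - 4*u - a^2 - 4*a) * hu + (-x^2*y^2*u^2 - x^2*u^2 - x^2*u*a - x^2*a -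 x^2 + x*y*u^2*a + x*y*u - 2*x - y^2*u^2*a + 2*y*u^3 + 2*y*u - 2*u^4 - 3*u^2*a - 3*u^2 - 2*u - a^2 - 3*a - 1) * h2
    · rw [h₁, h₃, h₄]
      linear_combination (3*x^3*u + 3*x^2 + 3*x*u + 3) * hu + (2*x^6 + x^4*y^2*u^2 + x^4*a + 3*x^4 + x^2*y^2*u^2 + x^2*a + 4*x^2 + y^2*u^2 + u^2 + a + 3) * h2
    · rw [h₃, h₆]
      linear_combination (x^5*u + x^4) * hu + (-x^6 - x^4 - x^2) * h2
  have h2T : (2 : ℤ) • Point.some _ _ h = Point.some _ _ hQ := by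
    rw [two_zsmul]
    exact add_neg_eq_zero.mp hA
  rw [h2T]
  exact hB

/-- (F2o) `S58/RelTwoOrd.lean`: `y² + xy = x³ + a₂x² + 1` in characteristic 2.
`Q = eT - φT` has `x(Q) = x + 1/x`, and `2T = φQ`.  Use `col_suff`. -/
theorem rel2_ord {κ : Type*} [Field κ] [DecidableEq κ] [CharP κ 2] (V : WeierstrassCurve κ)
    (h₁ : V.a₁ = 1) (h₃ : V.a₃ = 0) (h₄ : V.a₄ = 0) (h₆ : V.a₆ = 1) (e : ℤ)
    (h₂ : (V.a₂ = 0 ∧ e = -1) ∨ (V.a₂ = 1 ∧ e = 1)) {x y : κ}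
    (h : V.toAffine.Nonsingular x y) (hF : V.toAffine.Nonsingular (x ^ 2) (y ^ 2))
    (hFF : V.toAffine.Nonsingular ((x ^ 2) ^ 2) ((y ^ 2) ^ 2)) (hx0 : x ≠ 0) (hx1 : x ≠ 1) :
    Point.some _ _ hFF - e • Point.some _ _ hF + (2 : ℤ) • Point.some _ _ h = 0 := by
  have h2 : (2 : κ) = 0 := by
    have := CharP.cast_eq_zero κ 2
    exact_mod_cast this
  rcases h₂ with ⟨h₂, rfl⟩ | ⟨h₂, rfl⟩
  · rw [neg_one_zsmul, sub_neg_eq_add]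
    exact F2o_core h2 V h₁ h₃ h₄ h₆ 0 h₂ (by ring) h (by ring) hF hFF hx0
  · rw [one_zsmul, sub_eq_add_neg, Point.neg_some]
    refine F2o_core h2 V h₁ h₃ h₄ h₆ 1 h₂ (by ring) h ?_ _ hFF hx0
    rw [negY, h₁, h₃]
    linear_combination (-y ^ 2 - x ^ 2) * h2

end Fermat.Agent.S58Lib
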