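import Fermat.Agent.S35
import Fermat.Agent.S36.Top
import Fermat.Agent.SMO.Compare
import Fermat.Agent.SMO.Killer
import Fermat.Agent.S58.Defs

/-!
# S58 (RHO): S35 and S36 for an eigensystem with rational integer eigenvalues
-/

set_option autoImplicit false
set_option synthInstance.maxHeartbeats 400000

namespace Fermat.Agent.S58Lib

open WeierstrassCurve WeierstrassCurve.Affine Fermat.Agent.S40Lib Polynomial CuspForm
open ModularFormClass CongruenceSubgroup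
open Fermat.Agent.S31Lib (newton incT)

local notation "Qb" => AlgebraicClosure ℚ
local notation "GQ" => (AlgebraicClosure ℚ ≃ₐ[ℚ] AlgebraicClosure ℚ)

/-- (CHI) the character of the Hecke algebra, and `iota` (`chig.range = ℤ`) -/
theorem exists_chig {M : ℕ} [NeZero M] {g : CuspForm (Gamma0 M) 2} (hg : g.IsNormalizedEigenform)
    (S : Finset ℕ) (hMS : ∀ q : ℕ, q.Prime → q ∣ M → q ∈ S) (a : ℕ → ℤ)
    (ha : ∀ ℓ : ℕ, ℓ.Prime → ℓ ∉ S → qCoeff g ℓ = (a ℓ : ℂ)) (O' : Type) [CommRing O'] :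
    ∃ (chig : heckeAlgebra M 2 (↑S : Set ℕ) →+* ℂ) (iota : chig.range →+* O'),
      (∀ (ℓ : ℕ) (hℓ : ℓ.Prime) (hℓM : ¬ ℓ ∣ M) (hℓS : ℓ ∉ (↑S : Set ℕ)),
        chig (heckeAlgebra.T hℓ hℓM hℓS) = qCoeff g ℓ) ∧
      (∀ (ℓ : ℕ) (hℓ : ℓ.Prime) (hℓM : ¬ ℓ ∣ M) (hℓS : ℓ ∉ (↑S : Set ℕ)),
        (iota.comp chig.rangeRestrict) (heckeAlgebra.T hℓ hℓM hℓS) = (a ℓ : O')) := by
  classical
  obtain ⟨lam, hlam⟩ := Fermat.Agent.S29Lib.exists_eigenChar hg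
  let chig : heckeAlgebra M 2 (↑S : Set ℕ) →+* ℂ :=
    ((algebraMap (integralClosure ℤ ℂ) ℂ).comp lam).comp (incT hMS)
  have hchig : ∀ (ℓ : ℕ) (hℓ : ℓ.Prime) (hℓM : ¬ ℓ ∣ M) (hℓS : ℓ ∉ (↑S : Set ℕ)),
      chig (heckeAlgebra.T hℓ hℓM hℓS) = qCoeff g ℓ := fun ℓ hℓ hℓM hℓS => hlam ℓ hℓ hℓM
  have hint : ∀ (x : Module.End ℂ (CuspForm (Gamma0 M) 2)) (hx : x ∈ heckeAlgebra M 2 (↑S : Set ℕ)),
      ∃ z : ℤ, chig ⟨x, hx⟩ = (z : ℂ) := by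
    intro x hx
    refine Algebra.adjoin_induction (p := fun x hx => ∃ z : ℤ, chig ⟨x, hx⟩ = (z : ℂ))
      ?_ ?_ ?_ ?_ hx
    · rintro x (⟨ℓ, hℓ, hℓM, hℓS, rfl⟩ | ⟨q, hqM, hq, hqS, rfl⟩)
      · refine ⟨a ℓ, ?_⟩
        rw [← ha ℓ hℓ (by simpa using hℓS)]
        exact hchig ℓ hℓ hℓM hℓS
      · exact absurd (hMS q hq hqM) (by simpa using hqS)
    · intro r
      refine ⟨r, ?_⟩
      have : (⟨algebraMap ℤ _ r, Subalgebra.algebraMap_mem _ r⟩ : heckeAlgebra M 2 (↑S : Set ℕ))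
          = ((r : ℤ) : heckeAlgebra M 2 (↑S : Set ℕ)) := by
        apply Subtype.ext
        simp
      rw [this, map_intCast]
    · rintro x y hx hy ⟨z₁, h₁⟩ ⟨z₂, h₂⟩
      refine ⟨z₁ + z₂, ?_⟩
      have : (⟨x + y, Subalgebra.add_mem _ hx hy⟩ : heckeAlgebra M 2 (↑S : Set ℕ))
          = ⟨x, hx⟩ + ⟨y, hy⟩ := rfl
      rw [this, map_add, h₁, h₂]
      push_cast
      rfl
    · rintro x y hx hy ⟨z₁, h₁⟩ ⟨z₂, h₂⟩
      refine ⟨z₁ * z₂, ?_⟩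
      have : (⟨x * y, Subalgebra.mul_mem _ hx hy⟩ : heckeAlgebra M 2 (↑S : Set ℕ))
          = ⟨x, hx⟩ * ⟨y, hy⟩ := rfl
      rw [this, map_mul, h₁, h₂]
      push_cast
      rfl
  have hle : chig.range ≤ (Int.castRingHom ℂ).range := by
    rintro y ⟨t, rfl⟩
    obtain ⟨z, hz⟩ := hint t.1 t.2
    exact ⟨z, by rw [eq_intCast]; exact hz.symm⟩
  let e : ℤ ≃+* (Int.castRingHom ℂ).range :=
    RingEquiv.ofBijective (Int.castRingHom ℂ).rangeRestrict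
      ⟨by
        intro x y h
        have := congrArg Subtype.val h
        simpa using this, (Int.castRingHom ℂ).rangeRestrict_surjective⟩
  let iota : chig.range →+* O' :=
    (Int.castRingHom O').comp ((e.symm : (Int.castRingHom ℂ).range →+* ℤ).comp
      (Subring.inclusion hle))
  refine ⟨chig, iota, hchig, ?_⟩
  intro ℓ hℓ hℓM hℓS
  have h1 : (e.symm : (Int.castRingHom ℂ).range →+* ℤ)
      (Subring.inclusion hle (chig.rangeRestrict (heckeAlgebra.T hℓ hℓM hℓS))) = a ℓ := by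
    show e.symm _ = a ℓ
    rw [RingEquiv.symm_apply_eq]
    apply Subtype.ext
    show chig (heckeAlgebra.T hℓ hℓM hℓS) = ((a ℓ : ℤ) : ℂ)
    rw [hchig, ha ℓ hℓ (by simpa using hℓS)]
  show (Int.castRingHom O') ((e.symm : (Int.castRingHom ℂ).range →+* ℤ)
      (Subring.inclusion hle (chig.rangeRestrict (heckeAlgebra.T hℓ hℓM hℓS)))) = _
  rw [h1, eq_intCast]

/-- the residue field of `ℤ_[lam]` is finite -/
theorem RHO_finite (lam : ℕ) [Fact lam.Prime] : Finite (IsLocalRing.ResidueField ℤ_[lam]) :=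
  Finite.of_equiv _ (PadicInt.residueField (p := lam)).symm.toEquiv

theorem RHO_mem (lam : ℕ) [Fact lam.Prime] : (lam : ℤ_[lam]) ∈ IsLocalRing.maximalIdeal ℤ_[lam] := by
  rw [PadicInt.maximalIdeal_eq_span_p]
  exact Ideal.mem_span_singleton_self _

/-- (R35) `Fermat.Agent.S35.result` with `O' = ℤ_[lam]` -/
theorem exists_rho35 {M : ℕ} [NeZero M] {g : CuspForm (Gamma0 M) 2} (hg : g.IsNewform)
    (lam : ℕ) [Fact lam.Prime] (S : Finset ℕ) (hlamS : lam ∈ S)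
    (hMS : ∀ q : ℕ, q.Prime → q ∣ M → q ∈ S) (a : ℕ → ℤ)
    (ha : ∀ ℓ : ℕ, ℓ.Prime → ℓ ∉ S → qCoeff g ℓ = (a ℓ : ℂ)) :
    ∃ (O : Type) (_ : CommRing O) (_ : IsDomain O) (_ : IsDiscreteValuationRing O),
      (lam : O) ∈ IsLocalRing.maximalIdeal O ∧
      ∃ ρ : GaloisRepAdic O,
        (∀ ℓ : ℕ, ℓ.Prime → ℓ ∉ S → ∀ A : ValuationSubring Qb, A.LiesOverPrime ℓ →
          ∀ σ : GQ, A.IsFrobeniusAt σ ℓ →
            LinearMap.charpoly (ρ.ρ σ) = X ^ 2 - C ((a ℓ : ℤ) : O) * X + C ((ℓ : O))) ∧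
        (∀ q : ℕ, q.Prime → q ≠ lam → q ∣ M → ¬ q ^ 2 ∣ M →
          ∀ A : ValuationSubring Qb, A.LiesOverPrime q → ∀ σ : GQ, A.IsFrobeniusAt σ q →
            LinearMap.charpoly (ρ.ρ σ) = X ^ 2 - C ((q : O) + 1) * X + C ((q : O)) ∨
            LinearMap.charpoly (ρ.ρ σ) = X ^ 2 + C ((q : O) + 1) * X + C ((q : O))) := by
  haveI := RHO_finite lam
  obtain ⟨chig, iota, hchig, hiota⟩ := exists_chig hg.1 S hMS a ha ℤ_[lam]
  obtain ⟨O, i1, i2, i3, i4, i5, i6, i7, i8, i9, -, ρ, h1, h2⟩ :=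
    Fermat.Agent.S35.result hg lam S ℤ_[lam] (RHO_mem lam) chig hchig iota hlamS hMS
  refine ⟨O, i1, i2, i3, ?_, ρ, ?_, h2⟩
  · have : (lam : O) = algebraMap ℤ_[lam] O (lam : ℤ_[lam]) := by simp
    rw [this]
    exact map_nonunit (algebraMap ℤ_[lam] O) _ (RHO_mem lam)
  · intro ℓ hℓ hℓS A hA σ hσ
    have hℓM : ¬ ℓ ∣ M := fun h => hℓS (hMS ℓ hℓ h)
    have hℓS' : ℓ ∉ (↑S : Set ℕ) := by simpa using hℓS
    rw [h1 ℓ hℓ hℓM hℓS' A hA σ hσ, hiota ℓ hℓ hℓM hℓS', map_intCast]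

/-- (R36) `S36Lib.s36_of_nu (nuStatement_of_core nuCore) SMOLib.smoStatement` with `O' = ℤ_[lam]`
(no `hres`, no `lam ≠ 2`: see `Fermat/Agent/S36.lean`) -/
theorem exists_rho36 {M : ℕ} [NeZero M] {g : CuspForm (Gamma0 M) 2} (hg : g.IsNewform)
    (lam : ℕ) [Fact lam.Prime] (S : Finset ℕ) (hlamS : lam ∈ S)
    (hMS : ∀ q : ℕ, q.Prime → q ∣ M → q ∈ S) (a : ℕ → ℤ)
    (ha : ∀ ℓ : ℕ, ℓ.Prime → ℓ ∉ S → qCoeff g ℓ = (a ℓ : ℂ)) :
    ∃ (O : Type) (_ : CommRing O) (_ : IsDomain O) (_ : IsDiscreteValuationRing O),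
      (lam : O) ∈ IsLocalRing.maximalIdeal O ∧
      ∃ ρ : GaloisRepAdic O,
        (∀ ℓ : ℕ, ℓ.Prime → ℓ ∉ S → ∀ A : ValuationSubring Qb, A.LiesOverPrime ℓ →
          ∀ σ : GQ, A.IsFrobeniusAt σ ℓ →
            LinearMap.charpoly (ρ.ρ σ) = X ^ 2 - C ((a ℓ : ℤ) : O) * X + C ((ℓ : O))) ∧
        (∀ q : ℕ, q.Prime → q ≠ lam → M.factorization q = 2 → ¬ ρ.IsUnipotentOnInertiaAt q) := by
  haveI := RHO_finite lam
  obtain ⟨chig, iota, hchig, hiota⟩ := exists_chig hg.1 S hMS a ha ℤ_[lam]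
  obtain ⟨O, i1, i2, i3, i4, i5, i6, i7, i8, i9, -, ρ, h1, h2⟩ :=
    Fermat.Agent.S36Lib.s36_of_nu
      (Fermat.Agent.S36Lib.nuStatement_of_core Fermat.Agent.S36Lib.nuCore)
      Fermat.Agent.SMOLib.smoStatement hg lam S ℤ_[lam] (RHO_mem lam) chig hchig iota hlamS hMS
  refine ⟨O, i1, i2, i3, ?_, ρ, ?_, h2⟩
  · have : (lam : O) = algebraMap ℤ_[lam] O (lam : ℤ_[lam]) := by simp
    rw [this]
    exact map_nonunit (algebraMap ℤ_[lam] O) _ (RHO_mem lam)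
  · intro ℓ hℓ hℓS A hA σ hσ
    have hℓM : ¬ ℓ ∣ M := fun h => hℓS (hMS ℓ hℓ h)
    have hℓS' : ℓ ∉ (↑S : Set ℕ) := by simpa using hℓS
    rw [h1 ℓ hℓ hℓM hℓS' A hA σ hσ, hiota ℓ hℓ hℓM hℓS', map_intCast]

end Fermat.Agent.S58Lib
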