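import Fermat.Agent.S58.Col

/-!
# S58 (T2): translations `x = x' + r`, `y = y' + s x' + t`
-/

set_option autoImplicit false

namespace Fermat.Agent.S58Lib

open WeierstrassCurve WeierstrassCurve.Affine Fermat.Agent.S40Lib Fermat.Agent.S52Lib

/-- (T2a) -/
theorem trans_Δ {R : Type*} [CommRing R] (V : WeierstrassCurve R) (r s t : R) :
    (trans V r s t).Δ = V.Δ := by
  simp only [WeierstrassCurve.Δ, WeierstrassCurve.b₂, WeierstrassCurve.b₄, WeierstrassCurve.b₆,
    WeierstrassCurve.b₈, trans]
  ring

/-- (T2b) -/
theorem trans_map {R R' : Type*} [CommRing R] [CommRing R'] (φ : R →+* R') (V : WeierstrassCurve R)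
    (r s t : R) : (trans V r s t).map φ = trans (V.map φ) (φ r) (φ s) (φ t) := by
  ext <;> simp [trans, WeierstrassCurve.map, map_ofNat]

section

variable {F : Type*} [Field F]

theorem T2_nonsing_iff (V : WeierstrassCurve F) (r s t x y : F) :
    (trans V r s t).toAffine.Nonsingular (x - r) (y - s * (x - r) - t) ↔
      V.toAffine.Nonsingular x y := by
  rw [Affine.nonsingular_iff', Affine.nonsingular_iff', Affine.equation_iff', Affine.equation_iff']
  have e1 : (y - s * (x - r) - t) ^ 2 + (trans V r s t).toAffine.a₁ * (x - r) * (y - s * (x - r) - t)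
      + (trans V r s t).toAffine.a₃ * (y - s * (x - r) - t)
      - ((x - r) ^ 3 + (trans V r s t).toAffine.a₂ * (x - r) ^ 2
        + (trans V r s t).toAffine.a₄ * (x - r) + (trans V r s t).toAffine.a₆)
      = y ^ 2 + V.toAffine.a₁ * x * y + V.toAffine.a₃ * y
        - (x ^ 3 + V.toAffine.a₂ * x ^ 2 + V.toAffine.a₄ * x + V.toAffine.a₆) := by
    simp only [trans]
    ring
  have e2 : 2 * (y - s * (x - r) - t) + (trans V r s t).toAffine.a₁ * (x - r)
      + (trans V r s t).toAffine.a₃ = 2 * y + V.toAffine.a₁ * x + V.toAffine.a₃ := by
    simp only [trans]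
    ring
  have e3 : (trans V r s t).toAffine.a₁ * (y - s * (x - r) - t)
      - (3 * (x - r) ^ 2 + 2 * (trans V r s t).toAffine.a₂ * (x - r)
        + (trans V r s t).toAffine.a₄)
      = V.toAffine.a₁ * y - (3 * x ^ 2 + 2 * V.toAffine.a₂ * x + V.toAffine.a₄)
        + s * (2 * y + V.toAffine.a₁ * x + V.toAffine.a₃) := by
    simp only [trans]
    ring
  rw [e1, e2, e3]
  refine and_congr_right fun _ => ?_
  by_cases h0 : 2 * y + V.toAffine.a₁ * x + V.toAffine.a₃ = 0
  · rw [h0, mul_zero, add_zero]
  · simp [h0]

variable [DecidableEq F]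

/-- the translation on points -/
noncomputable def T2_fun (V : WeierstrassCurve F) (r s t : F) :
    V.toAffine.Point → (trans V r s t).toAffine.Point
  | .zero => .zero
  | .some x y h => .some (x - r) (y - s * (x - r) - t) ((T2_nonsing_iff V r s t x y).mpr h)

/-- (T2c) the translation is a group isomorphism -/
theorem exists_transEquiv (V : WeierstrassCurve F)
    (r s t : F) :
    ∃ θ : V.toAffine.Point ≃+ (trans V r s t).toAffine.Point,
      ∀ x y (h : V.toAffine.Nonsingular x y),
        ∃ h' : (trans V r s t).toAffine.Nonsingular (x - r) (y - s * (x - r) - t),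
          θ (Point.some x y h) = Point.some _ _ h' := by
  have h0 : T2_fun V r s t 0 = 0 := rfl
  have hneg : ∀ P, T2_fun V r s t (-P) = -T2_fun V r s t P := by
    intro P
    cases P with
    | zero => rfl
    | some x y h =>
      rw [Point.neg_some]
      show Point.some _ _ _ = -Point.some _ _ _
      rw [Point.neg_some]
      simp only [Point.some.injEq, true_and]
      simp only [negY, trans]
      ring
  have hadd := additive_of_col (T2_fun V r s t) h0 hneg (by
    intro P Q R hP hQ hR hsum
    cases P with
    | zero => exact absurd rfl hP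
    | some x₁ y₁ h₁ =>
    cases Q with
    | zero => exact absurd rfl hQ
    | some x₂ y₂ h₂ =>
    cases R with
    | zero => exact absurd rfl hR
    | some x₃ y₃ h₃ =>
    obtain ⟨l, n, e₁, e₂, e₃, s₁, s₂, s₃⟩ := col_nec V h₁ h₂ h₃ hsum
    refine col_suff (trans V r s t) (l := l - s) (n := l * r + n - t) _ _ _ ?_ ?_ ?_ ?_ ?_ ?_
    · rw [e₁]; ring
    · rw [e₂]; ring
    · rw [e₃]; ring
    · simp only [trans]
      linear_combination s₁
    · simp only [trans]
      linear_combination s₂ - 2 * r * s₁
    · simp only [trans]
      linear_combination s₃ - r * s₂ + r ^ 2 * s₁)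
  have hbij : Function.Bijective (T2_fun V r s t) := by
    constructor
    · intro P Q hPQ
      cases P with
      | zero =>
        cases Q with
        | zero => rfl
        | some x y h => exact absurd hPQ.symm (Point.some_ne_zero _)
      | some x y h =>
        cases Q with
        | zero => exact absurd hPQ (Point.some_ne_zero _)
        | some x' y' h' =>
          have h1 : Point.some (x - r) (y - s * (x - r) - t)
              ((T2_nonsing_iff V r s t x y).mpr h) = Point.some (x' - r) (y' - s * (x' - r) - t)
              ((T2_nonsing_iff V r s t x' y').mpr h') := hPQ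
          simp only [Point.some.injEq] at h1
          obtain ⟨a, b⟩ := h1
          have ex : x = x' := by linear_combination a
          subst ex
          have ey : y = y' := by linear_combination b
          subst ey
          rfl
    · intro Q
      cases Q with
      | zero => exact ⟨0, rfl⟩
      | some x' y' h' =>
        have hx : x' + r - r = x' := by ring
        have hy : y' + s * x' + t - s * (x' + r - r) - t = y' := by ring
        have hn : V.toAffine.Nonsingular (x' + r) (y' + s * x' + t) := by
          rw [← T2_nonsing_iff V r s t, hy, hx]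
          exact h'
        refine ⟨Point.some _ _ hn, ?_⟩
        show Point.some _ _ _ = Point.some _ _ _
        simp only [Point.some.injEq]
        exact ⟨hx, hy⟩
  exact ⟨AddEquiv.ofBijective (AddMonoidHom.mk' (T2_fun V r s t) hadd) hbij,
    fun x y h => ⟨(T2_nonsing_iff V r s t x y).mpr h, rfl⟩⟩

end

end Fermat.Agent.S58Lib
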